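import Mathlib
import Fermat.Prelude.Def_FLTPrelim_FreyPackage
import Fermat.Prelude.Def_EllipticCurve_FrobeniusTrace
import Fermat.Prelude.Def_FLTPrelim_GaloisRep
import Fermat.Prelude.Def_FLTPrelim_Modularity
import Fermat.Prelude.Def_FLTPrelim_ModularRep

/-!
# The curves to which the 2-adic modularity theorem applies

`IsTwoAdicCurve W` collects the hypotheses of the 2-adic theorem: `W` is semistable, multiplicative
at `2`, has negative discriminant with odd valuation at every bad prime, and some bad prime is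
`±3` modulo `8`. `SameTrace W W' p` is equality of the traces of the Galois actions on the
`p`-torsion of the two models.
-/

set_option autoImplicit false

open WeierstrassCurve WeierstrassCurve.Affine

namespace Fermat.Agent.TwoAdic.Curve

local notation "Qb" => AlgebraicClosure ℚ

/-- The hypotheses on a curve in the 2-adic modularity theorem. -/
structure IsTwoAdicCurve (W : WeierstrassCurve ℤ) : Prop where
  delta_neg : W.Δ < 0
  semistable : W.IsSemistableModel
  two_dvd : (2 : ℤ) ∣ W.Δ
  odd_val : ∀ q : ℕ, q.Prime → (q : ℤ) ∣ W.Δ → Odd (padicValInt q W.Δ)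
  exists_three_five_mod_eight : ∃ q : ℕ, q.Prime ∧ (q : ℤ) ∣ W.Δ ∧ (q % 8 = 3 ∨ q % 8 = 5)

theorem IsTwoAdicCurve.delta_ne_zero {W : WeierstrassCurve ℤ} (h : IsTwoAdicCurve W) : W.Δ ≠ 0 :=
  ne_of_lt h.delta_neg

/-- The traces of the Galois actions on the `p`-torsion of the two models agree. -/
def SameTrace (W W' : WeierstrassCurve ℤ) (p : ℕ) [Fact p.Prime] : Prop :=
  ∀ σ : Qb ≃ₐ[ℚ] Qb,
    Point.galoisTrace (K := Qb) ℚ (W.map (Int.castRingHom ℚ)).toAffine p σ
      = Point.galoisTrace (K := Qb) ℚ (W'.map (Int.castRingHom ℚ)).toAffine p σ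

theorem SameTrace.trans {W W' W'' : WeierstrassCurve ℤ} {p : ℕ} [Fact p.Prime]
    (h : SameTrace W W' p) (h' : SameTrace W' W'' p) : SameTrace W W'' p :=
  fun σ => (h σ).trans (h' σ)

theorem SameTrace.symm {W W' : WeierstrassCurve ℤ} {p : ℕ} [Fact p.Prime]
    (h : SameTrace W W' p) : SameTrace W' W p :=
  fun σ => (h σ).symm

end Fermat.Agent.TwoAdic.Curve
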