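import Mathlib
import Fermat.Agent.TwoAdic.Curve.Basic
import Fermat.Agent.Arith.Places
import Fermat.Agent.Arith.Minkowski

/-!
# The cubic of the two-torsion of an integral model and its Galois permutation representation

`root W i` are the roots of `X³ + b₂ X² + 8 b₄ X + 16 b₆`, i.e. four times the abscissae of the
points of order two, `perm W hΔ : GQ →* Equiv.Perm (Fin 3)` is the action on them and `sqrtDisc W`
is the square root of `Δ` made from the differences of the roots, so that the sign of `perm`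
is the quadratic character of `sqrtDisc W`.
-/

set_option autoImplicit false

noncomputable section

namespace Fermat.Agent.TwoAdic.Curve

open Polynomial
open Fermat.Agent.Arith (QBar GQ)

variable (W : WeierstrassCurve ℤ)

/-- `X³ + b₂ X² + 8 b₄ X + 16 b₆`. -/
def twoCubic {R : Type*} [CommRing R] (x : R) : R :=
  x ^ 3 + (W.b₂ : R) * x ^ 2 + 8 * (W.b₄ : R) * x + 16 * (W.b₆ : R)

theorem map_twoCubic {R S : Type*} [CommRing R] [CommRing S] (f : R →+* S) (x : R) :
    f (twoCubic W x) = twoCubic W (f x) := by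
  simp [twoCubic, map_ofNat]

theorem exists_roots :
    ∃ r : Fin 3 → QBar, ∀ x : QBar, twoCubic W x = (x - r 0) * (x - r 1) * (x - r 2) := by
  set P : Cubic QBar := ⟨1, (W.b₂ : QBar), 8 * (W.b₄ : QBar), 16 * (W.b₆ : QBar)⟩ with hP
  have ha : P.a ≠ 0 := one_ne_zero
  obtain ⟨x, y, z, hr⟩ := (Cubic.splits_iff_roots_eq_three (φ := RingHom.id QBar) ha).mp
    (IsAlgClosed.splits _)
  refine ⟨![x, y, z], fun t => ?_⟩
  have e := Cubic.eq_prod_three_roots (φ := RingHom.id QBar) ha hr
  have := congrArg (Polynomial.eval t) e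
  simpa [Cubic.toPoly, Cubic.map, hP, twoCubic] using this

/-- The roots of the cubic. -/
def root : Fin 3 → QBar := (exists_roots W).choose

theorem twoCubic_eq (x : QBar) :
    twoCubic W x = (x - root W 0) * (x - root W 1) * (x - root W 2) :=
  (exists_roots W).choose_spec x

theorem twoCubic_root (i : Fin 3) : twoCubic W (root W i) = 0 := by
  fin_cases i <;> simp [twoCubic_eq]

theorem exists_root_eq {x : QBar} (h : twoCubic W x = 0) : ∃ i, root W i = x := by
  rw [twoCubic_eq, mul_eq_zero, mul_eq_zero] at h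
  rcases h with (h | h) | h <;> exact ⟨_, (sub_eq_zero.mp h).symm⟩

theorem root_sum : root W 0 + root W 1 + root W 2 = -(W.b₂ : QBar) ∧
    root W 0 * root W 1 + root W 0 * root W 2 + root W 1 * root W 2 = 8 * (W.b₄ : QBar) ∧
    root W 0 * root W 1 * root W 2 = -16 * (W.b₆ : QBar) := by
  have h0 := twoCubic_eq W 0
  have h1 := twoCubic_eq W 1
  have h2 := twoCubic_eq W (-1)
  simp only [twoCubic] at h0 h1 h2
  refine ⟨?_, ?_, ?_⟩
  · linear_combination (2 * h0 - h1 - h2) * (-1 / 2 : QBar)
  · linear_combination (h2 - h1) * (1 / 2 : QBar)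
  · linear_combination h0

theorem isIntegral_root (i : Fin 3) : IsIntegral ℤ (root W i) := by
  refine ⟨Cubic.toPoly ⟨1, W.b₂, 8 * W.b₄, 16 * W.b₆⟩, Cubic.monic_of_a_eq_one' .., ?_⟩
  simpa [Cubic.toPoly, twoCubic, eval₂_eq_eval_map] using twoCubic_root W i

theorem isIntegral_algebraMap_root (i : Fin 3) : IsIntegral ℚ (root W i) :=
  Algebra.IsIntegral.isIntegral _

/-- `c₄` through the differences of the roots. -/
theorem c₄_eq_roots : (W.c₄ : QBar) = (root W 0 - root W 1) ^ 2
    + (root W 0 - root W 2) * (root W 1 - root W 2) := by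
  obtain ⟨h1, h2, -⟩ := root_sum W
  simp only [WeierstrassCurve.c₄, Int.cast_sub, Int.cast_mul, Int.cast_pow, Int.cast_ofNat]
  linear_combination (W.b₂ - root W 0 - root W 1 - root W 2) * h1 + 3 * h2

/-- The product of the differences of the roots. -/
def rootDiff : QBar :=
  (root W 0 - root W 1) * (root W 0 - root W 2) * (root W 1 - root W 2)

/-- The square root of `Δ` made from the roots. -/
def sqrtDisc : QBar := rootDiff W / 16

theorem rootDiff_sq : rootDiff W ^ 2 = 256 * (W.Δ : QBar) := by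
  obtain ⟨h1, h2, h3⟩ := root_sum W
  have hb := congrArg (Int.cast : ℤ → QBar) W.b_relation
  push_cast at hb
  set x := root W 0
  set y := root W 1
  set z := root W 2
  have e : rootDiff W ^ 2 = (x + y + z) ^ 2 * (x * y + x * z + y * z) ^ 2
      - 4 * (x * y + x * z + y * z) ^ 3 - 4 * (x + y + z) ^ 3 * (x * y * z)
      + 18 * (x + y + z) * (x * y + x * z + y * z) * (x * y * z) - 27 * (x * y * z) ^ 2 := by
    rw [rootDiff]; ring
  rw [e, h1, h2, h3, WeierstrassCurve.Δ]
  push_cast
  linear_combination 64 * (W.b₂ : QBar) ^ 2 * hb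

theorem sqrtDisc_sq : sqrtDisc W ^ 2 = (W.Δ : QBar) := by
  rw [sqrtDisc, div_pow, rootDiff_sq]; ring

variable {W} (hΔ : W.Δ ≠ 0)
include hΔ

theorem rootDiff_ne_zero : rootDiff W ≠ 0 := by
  intro h
  have := rootDiff_sq W
  rw [h, zero_pow two_ne_zero, eq_comm, mul_eq_zero] at this
  exact hΔ (by simpa using this.resolve_left (by norm_num))

theorem sqrtDisc_ne_zero : sqrtDisc W ≠ 0 :=
  div_ne_zero (rootDiff_ne_zero hΔ) (by norm_num)

theorem root_injective : Function.Injective (root W) := by
  have h := rootDiff_ne_zero hΔ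
  simp only [rootDiff, ne_eq, mul_eq_zero, sub_eq_zero, not_or] at h
  obtain ⟨⟨h01, h02⟩, h12⟩ := h
  intro i j e
  fin_cases i <;> fin_cases j <;> first | rfl | exact absurd e ‹_› | exact absurd e.symm ‹_›

omit hΔ in
theorem exists_root_apply (σ : GQ) (i : Fin 3) : ∃ j, root W j = σ (root W i) := by
  refine exists_root_eq W ?_
  have := map_twoCubic W (σ : QBar →+* QBar) (root W i)
  rw [twoCubic_root, map_zero] at this
  exact this.symm

/-- The permutation of the roots given by `σ`, as a map. -/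
def permFun (σ : GQ) (i : Fin 3) : Fin 3 := (exists_root_apply (W := W) σ i).choose

omit hΔ in
theorem root_permFun (σ : GQ) (i : Fin 3) : root W (permFun (W := W) σ i) = σ (root W i) :=
  (exists_root_apply σ i).choose_spec

/-- The Galois action on the roots. -/
def perm : GQ →* Equiv.Perm (Fin 3) :=
  MonoidHom.mk'
    (fun σ => Equiv.ofBijective (permFun (W := W) σ) (Finite.injective_iff_bijective.mp
      fun i j e => root_injective hΔ (σ.injective (by rw [← root_permFun, ← root_permFun, e]))))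
    (fun σ τ => Equiv.ext fun i => root_injective hΔ (by
      simp only [Equiv.Perm.mul_apply, Equiv.ofBijective_apply, root_permFun,
        AlgEquiv.mul_apply]))

theorem root_perm (σ : GQ) (i : Fin 3) : root W (perm hΔ σ i) = σ (root W i) :=
  root_permFun σ i

theorem perm_eq_iff {σ : GQ} {i j : Fin 3} : perm hΔ σ i = j ↔ σ (root W i) = root W j := by
  rw [← (root_injective hΔ).eq_iff, root_perm]

theorem perm_eq_one_iff {σ : GQ} : perm hΔ σ = 1 ↔ ∀ i, σ (root W i) = root W i := by
  simp [Equiv.ext_iff, perm_eq_iff]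

theorem map_rootDiff (σ : GQ) :
    σ (rootDiff W) = (Equiv.Perm.sign (perm hΔ σ) : ℤ) * rootDiff W := by
  have key : ∀ π : Equiv.Perm (Fin 3),
      (root W (π 0) - root W (π 1)) * (root W (π 0) - root W (π 2))
        * (root W (π 1) - root W (π 2)) = (Equiv.Perm.sign π : ℤ) * rootDiff W := by
    have cases6 : ∀ π : Equiv.Perm (Fin 3),
        (π 0, π 1, π 2, (Equiv.Perm.sign π : ℤ)) ∈ ([(0, 1, 2, 1), (1, 2, 0, 1), (2, 0, 1, 1),
          (1, 0, 2, -1), (0, 2, 1, -1), (2, 1, 0, -1)] :
          List (Fin 3 × Fin 3 × Fin 3 × ℤ)) := by decide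
    intro π
    have := cases6 π
    simp only [List.mem_cons, List.not_mem_nil, or_false, Prod.mk.injEq] at this
    rcases this with ⟨a, b, c, d⟩ | ⟨a, b, c, d⟩ | ⟨a, b, c, d⟩ | ⟨a, b, c, d⟩ | ⟨a, b, c, d⟩ |
      ⟨a, b, c, d⟩ <;> rw [a, b, c, d, rootDiff] <;> push_cast <;> ring
  rw [← key, rootDiff]
  simp only [root_perm, map_mul, map_sub]

theorem map_sqrtDisc (σ : GQ) :
    σ (sqrtDisc W) = (Equiv.Perm.sign (perm hΔ σ) : ℤ) * sqrtDisc W := by
  rw [sqrtDisc, map_div₀, map_rootDiff hΔ, map_ofNat, mul_div_assoc]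

theorem sign_perm_eq_one_iff {σ : GQ} :
    Equiv.Perm.sign (perm hΔ σ) = 1 ↔ σ (sqrtDisc W) = sqrtDisc W := by
  rw [map_sqrtDisc hΔ]
  rcases Int.units_eq_one_or (Equiv.Perm.sign (perm hΔ σ)) with h | h
  · simp [h]
  · simp only [h, show (-1 : ℤˣ) ≠ 1 by decide, false_iff]
    push_cast
    rw [neg_one_mul]
    exact fun e => sqrtDisc_ne_zero hΔ (neg_eq_self.mp e)

/-- The kernel of the action on the roots is open. -/
theorem isOpen_ker_perm : IsOpen ((perm hΔ).ker : Set GQ) := by
  have : FiniteDimensional ℚ (IntermediateField.adjoin ℚ (Set.range (root W))) :=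
    IntermediateField.finiteDimensional_adjoin fun x _ => Algebra.IsIntegral.isIntegral x
  refine Subgroup.isOpen_mono (fun σ hσ => MonoidHom.mem_ker.mpr ((perm_eq_one_iff hΔ).mpr
    fun i => ?_)) (IntermediateField.fixingSubgroup_isOpen
      (IntermediateField.adjoin ℚ (Set.range (root W))))
  exact (IntermediateField.mem_fixingSubgroup_iff _ _).mp hσ _
    (IntermediateField.subset_adjoin _ _ ⟨i, rfl⟩)

end Fermat.Agent.TwoAdic.Curve
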