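import Mathlib
import Fermat.Agent.TwoAdic.Curve.TwoRoots
import Fermat.Agent.EC.FrobTrace.Main
import Fermat.Agent.EC.Torsion.Galois

/-!
# The two-torsion of a curve satisfying `IsTwoAdicCurve`

There is no rational point of order two, so the Galois action on the three nonzero points of
`W[2]` is by all six permutations; the trace of an element is `1` exactly when it moves all three.
-/

set_option autoImplicit false

noncomputable section

namespace Fermat.Agent.TwoAdic.Curve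

open WeierstrassCurve WeierstrassCurve.Affine Polynomial
open scoped WeierstrassCurve.Affine
open Fermat.Agent.Arith (QBar GQ)

variable {W : WeierstrassCurve ℤ}

theorem fix_unique : ∀ π : Equiv.Perm (Fin 3), Equiv.Perm.sign π ≠ 1 →
    ∀ i j, π i = i ∧ π j = j → i = j := by decide

theorem perm_three : ∀ π π' g : Equiv.Perm (Fin 3),
    Equiv.Perm.sign π ≠ 1 ∧ Equiv.Perm.sign π' ≠ 1 ∧ π ≠ π' →
    g = 1 ∨ g = π ∨ g = π' ∨ g = π * π' ∨ g = π' * π ∨ g = π * π' * π := by decide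

theorem twoCubic_shift {R : Type*} [CommRing R] (x : R) :
    twoCubic W (4 * x) = 16 * (4 * x ^ 3 + (W.b₂ : R) * x ^ 2 + 2 * (W.b₄ : R) * x + W.b₆) := by
  simp only [twoCubic]; ring

theorem IsTwoAdicCurve.not_int_root (h : IsTwoAdicCurve W) (r : ℤ) : twoCubic W r ≠ 0 := by
  intro hr
  simp only [twoCubic, Int.cast_eq] at hr
  set A := 3 * r + W.b₂ with hA
  set B := 3 * r ^ 2 + 2 * W.b₂ * r + 8 * W.b₄ with hB
  have hc : W.c₄ = A ^ 2 - 3 * B := by rw [hA, hB, WeierstrassCurve.c₄]; ring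
  have e6 : 16 * W.b₆ = -(r ^ 3 + W.b₂ * r ^ 2 + 8 * W.b₄ * r) := by linarith
  have hD : B ^ 2 * (A ^ 2 - 4 * B) = 256 * W.Δ := by
    have hb := W.b_relation
    rw [hA, hB, WeierstrassCurve.Δ]
    have : 256 * (-W.b₂ ^ 2 * W.b₈ - 8 * W.b₄ ^ 3 - 27 * W.b₆ ^ 2 + 9 * W.b₂ * W.b₄ * W.b₆)
        = -64 * W.b₂ ^ 2 * (W.b₂ * W.b₆ - W.b₄ ^ 2) - 2048 * W.b₄ ^ 3 - 27 * (16 * W.b₆) ^ 2
          + 144 * W.b₂ * W.b₄ * (16 * W.b₆) := by
      linear_combination -64 * W.b₂ ^ 2 * hb
    rw [this, show -64 * W.b₂ ^ 2 * (W.b₂ * W.b₆ - W.b₄ ^ 2)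
      = -4 * W.b₂ ^ 3 * (16 * W.b₆) + 64 * W.b₂ ^ 2 * W.b₄ ^ 2 by ring, e6]
    ring
  have hne : B ^ 2 * (A ^ 2 - 4 * B) ≠ 0 := by
    rw [hD]; exact mul_ne_zero (by norm_num) h.delta_ne_zero
  -- every prime dividing `B` would have even valuation in `Δ`
  have hB1 : B.natAbs = 1 := by
    by_contra hne1
    obtain ⟨q, hq, hqB⟩ := Nat.exists_prime_and_dvd hne1
    replace hqB : (q : ℤ) ∣ B := Int.natCast_dvd.mpr hqB
    have hqp : Prime (q : ℤ) := Nat.prime_iff_prime_int.mp hq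
    have hqΔ : (q : ℤ) ∣ W.Δ := by
      rcases hqp.dvd_or_dvd (show (q : ℤ) ∣ 256 * W.Δ from
        hD ▸ dvd_mul_of_dvd_left (dvd_pow hqB two_ne_zero) _) with hh | hh
      · have : (q : ℤ) ∣ 2 := hqp.dvd_of_dvd_pow (show (q : ℤ) ∣ 2 ^ 8 by norm_num; exact hh)
        exact this.trans h.two_dvd
      · exact hh
    have hqc := h.semistable q hq hqΔ
    have hqA : ¬ (q : ℤ) ∣ A ^ 2 - 4 * B := fun hh => hqc (by
      rw [hc, show A ^ 2 - 3 * B = (A ^ 2 - 4 * B) + B by ring]
      exact dvd_add hh hqB)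
    haveI := Fact.mk hq
    have hv := congrArg (padicValInt q) hD
    rw [padicValInt.mul (left_ne_zero_of_mul hne) (right_ne_zero_of_mul hne),
      padicValInt.mul (show (256 : ℤ) ≠ 0 by norm_num) h.delta_ne_zero,
      padicValInt.eq_zero_of_not_dvd hqA, sq,
      padicValInt.mul (by intro hh; simp [hh] at hne) (by intro hh; simp [hh] at hne)] at hv
    have heven : Even (padicValInt q 256) := by
      by_cases h2 : q = 2
      · subst h2
        rw [show (256 : ℤ) = ((2 ^ 8 : ℕ) : ℤ) by norm_num, padicValInt.of_nat,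
          padicValNat.prime_pow]
        decide
      · rw [padicValInt.eq_zero_of_not_dvd]
        · exact Even.zero
        · intro hh
          have := hqp.dvd_of_dvd_pow (show (q : ℤ) ∣ 2 ^ 8 by norm_num; exact hh)
          exact h2 ((Nat.prime_dvd_prime_iff_eq hq Nat.prime_two).mp (Int.natCast_dvd_natCast.mp
            (by exact_mod_cast this)))
    obtain ⟨a, ha⟩ := heven
    obtain ⟨b, hb⟩ := h.odd_val q hq hqΔ
    omega
  -- `B = 1` and `A² - 4 < 0` cannot be a multiple of `256`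
  have hneg : A ^ 2 - 4 * B < 0 := by
    have := h.delta_neg
    by_contra hh
    have := mul_nonneg (sq_nonneg B) (not_lt.mp hh)
    nlinarith
  have hB' : B = 1 := by
    rcases Int.natAbs_eq_iff.mp hB1 with hh | hh <;> [exact_mod_cast hh;
      (push_cast at hh; nlinarith)]
  rw [hB'] at hD hneg
  have h1 : A ≤ 1 := by nlinarith
  have h2 : -1 ≤ A := by nlinarith
  interval_cases A <;> omega

/-- The two-torsion cubic has no rational root. -/
theorem IsTwoAdicCurve.not_rat_root (h : IsTwoAdicCurve W) (x : ℚ) : twoCubic W x ≠ 0 := by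
  intro hx
  have hint : IsIntegral ℤ x := by
    refine ⟨Cubic.toPoly ⟨1, W.b₂, 8 * W.b₄, 16 * W.b₆⟩, Cubic.monic_of_a_eq_one' .., ?_⟩
    simpa [Cubic.toPoly, twoCubic, eval₂_eq_eval_map] using hx
  obtain ⟨r, rfl⟩ := IsIntegrallyClosed.isIntegral_iff.mp hint
  refine h.not_int_root r (Int.cast_injective (α := ℚ) ?_)
  simpa [twoCubic, eq_intCast] using hx

/-- The form of plan 2(a): no rational point of order two. -/
theorem IsTwoAdicCurve.two_torsion_poly_ne_zero (h : IsTwoAdicCurve W) (x : ℚ) :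
    4 * x ^ 3 + (W.b₂ : ℚ) * x ^ 2 + 2 * (W.b₄ : ℚ) * x + (W.b₆ : ℚ) ≠ 0 := fun hx =>
  h.not_rat_root (4 * x) (by rw [twoCubic_shift, hx, mul_zero])

theorem IsTwoAdicCurve.exists_move (h : IsTwoAdicCurve W) (i : Fin 3) :
    ∃ σ : GQ, perm h.delta_ne_zero σ i ≠ i := by
  by_contra hall
  simp only [not_exists, not_not, perm_eq_iff] at hall
  obtain ⟨x, hx⟩ := IntermediateField.mem_bot.mp
    ((InfiniteGalois.mem_bot_iff_fixed (k := ℚ) (root W i)).mpr hall)
  refine h.not_rat_root x ((algebraMap ℚ QBar).injective ?_)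
  rw [map_twoCubic, hx, twoCubic_root, map_zero]

theorem IsTwoAdicCurve.exists_sign_neg (h : IsTwoAdicCurve W) :
    ∃ σ : GQ, σ (sqrtDisc W) ≠ sqrtDisc W := by
  by_contra hall
  simp only [not_exists, not_not] at hall
  obtain ⟨x, hx⟩ := IntermediateField.mem_bot.mp
    ((InfiniteGalois.mem_bot_iff_fixed (k := ℚ) (sqrtDisc W)).mpr hall)
  have e := sqrtDisc_sq W
  rw [← hx, eq_ratCast, ← Rat.cast_pow, ← Rat.cast_intCast, Rat.cast_inj] at e
  have : (W.Δ : ℚ) < 0 := by exact_mod_cast h.delta_neg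
  nlinarith [sq_nonneg x]

/-- All permutations of the points of order two are Galois. -/
theorem IsTwoAdicCurve.perm_surjective (h : IsTwoAdicCurve W) :
    Function.Surjective (perm h.delta_ne_zero) := by
  set H := (perm h.delta_ne_zero).range
  obtain ⟨σ, hσ⟩ := h.exists_sign_neg
  have hmove : ∀ i, ∃ π ∈ H, π i ≠ i := fun i => by
    obtain ⟨τ, hτ⟩ := h.exists_move i
    exact ⟨_, ⟨τ, rfl⟩, hτ⟩
  have hodd : ∃ π ∈ H, Equiv.Perm.sign π ≠ 1 :=
    ⟨_, ⟨σ, rfl⟩, fun e => hσ ((sign_perm_eq_one_iff h.delta_ne_zero).mp e)⟩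
  suffices H = ⊤ from MonoidHom.range_eq_top.mp this
  obtain ⟨π, hπ, hs⟩ := hodd
  obtain ⟨i, hi⟩ : ∃ i, π i = i := (show ∀ π : Equiv.Perm (Fin 3),
    Equiv.Perm.sign π ≠ 1 → ∃ i, π i = i by decide) π hs
  obtain ⟨ρ, hρ, hρi⟩ := hmove i
  set π' := ρ * π * ρ⁻¹ with hπ'
  have hπ'H : π' ∈ H := H.mul_mem (H.mul_mem hρ hπ) (H.inv_mem hρ)
  have hs' : Equiv.Perm.sign π' ≠ 1 := by
    rw [hπ', map_mul, map_mul, map_inv, mul_comm, inv_mul_cancel_left]; exact hs
  have hne : π ≠ π' := by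
    intro e
    have : π (ρ i) = ρ i := by rw [e, hπ']; simp [hi]
    exact hρi (fix_unique π hs (ρ i) i ⟨this, hi⟩)
  rw [eq_top_iff]
  intro g _
  rcases perm_three π π' g ⟨hs, hs', hne⟩ with rfl | rfl | rfl | rfl | rfl | rfl
  · exact H.one_mem
  · exact hπ
  · exact hπ'H
  · exact H.mul_mem hπ hπ'H
  · exact H.mul_mem hπ'H hπ
  · exact H.mul_mem (H.mul_mem hπ hπ'H) hπ

section Points

theorem baseChange_eq_map (V : WeierstrassCurve ℤ) :
    (V.map (Int.castRingHom ℚ))⁄QBar = V.map (Int.castRingHom QBar) := by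
  ext <;> simp

variable (W) in
/-- The ordinate of the point of order two over `root W i / 4`. -/
def rootY (i : Fin 3) : QBar := -((W.a₁ : QBar) * (root W i / 4) + W.a₃) / 2

variable (hΔ : W.Δ ≠ 0)
include hΔ

theorem nonsingular_root (i : Fin 3) :
    ((W.map (Int.castRingHom ℚ))⁄QBar).toAffine.Nonsingular (root W i / 4) (rootY W i) := by
  have hne : ((W.map (Int.castRingHom ℚ))⁄QBar).Δ ≠ 0 := by
    rw [baseChange_eq_map, map_Δ, eq_intCast]; exact_mod_cast hΔ
  refine (Affine.equation_iff_nonsingular_of_Δ_ne_zero hne).mp ((Affine.equation_iff ..).mpr ?_)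
  have e := twoCubic_root W i
  simp only [twoCubic, WeierstrassCurve.b₂, WeierstrassCurve.b₄, WeierstrassCurve.b₆] at e
  rw [baseChange_eq_map]
  simp only [map_a₁, map_a₂, map_a₃, map_a₄, map_a₆, eq_intCast, rootY]
  push_cast at e
  linear_combination (-1 / 64 : QBar) * e

/-- The point of order two over the root `i`. -/
def twoPoint (i : Fin 3) :
    Submodule.torsionBy ℤ ((W.map (Int.castRingHom ℚ)).toAffine⁄QBar).Point ((2 : ℕ) : ℤ) :=
  ⟨Point.some _ _ (nonsingular_root hΔ i), by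
    rw [Submodule.mem_torsionBy_iff, natCast_zsmul, two_nsmul]
    refine Point.add_self_of_Y_eq ?_
    rw [Affine.negY, rootY]
    simp only [baseChange_eq_map, map_a₁, map_a₃, eq_intCast]
    ring⟩

theorem twoPoint_ne_zero (i : Fin 3) : twoPoint hΔ i ≠ 0 := fun e => by
  simpa [twoPoint] using congrArg Subtype.val e

theorem twoPoint_injective : Function.Injective (twoPoint hΔ) := fun i j e => by
  simp only [twoPoint, Subtype.mk.injEq, Point.some.injEq] at e
  exact root_injective hΔ (by linear_combination 4 * e.1)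

theorem smul_twoPoint (σ : GQ) (i : Fin 3) :
    σ • twoPoint hΔ i = twoPoint hΔ (perm hΔ σ i) := by
  apply Subtype.ext
  show Point.map σ.toAlgHom (Point.some _ _ _) = Point.some _ _ _
  rw [Point.map_some]
  simp only [Point.some.injEq]
  refine ⟨?_, ?_⟩ <;> simp [rootY, root_perm, map_ofNat]

theorem eq_zero_or_twoPoint
    (P : Submodule.torsionBy ℤ ((W.map (Int.castRingHom ℚ)).toAffine⁄QBar).Point ((2 : ℕ) : ℤ)) :
    P = 0 ∨ ∃ i, P = twoPoint hΔ i := by
  obtain ⟨P, hP⟩ := P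
  rcases P with _ | ⟨x, y, hn⟩
  · exact Or.inl rfl
  · rw [Submodule.mem_torsionBy_iff, natCast_zsmul, two_nsmul] at hP
    have hneg := add_eq_zero_iff_eq_neg.mp hP
    rw [Point.neg_some, Point.some.injEq] at hneg
    have hy := hneg.2
    have he := (Affine.equation_iff ..).mp hn.1
    simp only [Affine.negY, baseChange_eq_map, map_a₁, map_a₂, map_a₃, map_a₄, map_a₆,
      eq_intCast] at hy he
    have hy' : y = -((W.a₁ : QBar) * x + W.a₃) / 2 := by linear_combination hy / 2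
    obtain ⟨i, hi⟩ := exists_root_eq W (x := 4 * x) (by
      rw [hy'] at he
      simp only [twoCubic, WeierstrassCurve.b₂, WeierstrassCurve.b₄, WeierstrassCurve.b₆]
      push_cast
      linear_combination (-64 : QBar) * he)
    refine Or.inr ⟨i, Subtype.ext ?_⟩
    simp only [twoPoint, Point.some.injEq, rootY, hi, hy']
    constructor <;> ring

theorem twoPoint_add {i j k : Fin 3} (hij : i ≠ j) (hik : i ≠ k) (hjk : j ≠ k) :
    twoPoint hΔ i + twoPoint hΔ j = twoPoint hΔ k := by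
  have hn : ∀ l, twoPoint hΔ l + twoPoint hΔ l = 0 := fun l => Subtype.ext (by
    have := (twoPoint hΔ l).2
    rwa [Submodule.mem_torsionBy_iff, natCast_zsmul, two_nsmul] at this)
  rcases eq_zero_or_twoPoint hΔ (twoPoint hΔ i + twoPoint hΔ j) with e | ⟨l, e⟩
  · exact absurd (twoPoint_injective hΔ
      ((eq_neg_of_add_eq_zero_left e).trans (eq_neg_of_add_eq_zero_left (hn j)).symm)) hij
  · rw [e]
    have hli : l ≠ i := fun hh => twoPoint_ne_zero hΔ j (by simpa [hh] using e)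
    have hlj : l ≠ j := fun hh => twoPoint_ne_zero hΔ i (by simpa [hh] using e)
    rw [show l = k by omega]

/-- The basis of `W[2]` given by the first two points. -/
theorem exists_basis : ∃ b : Module.Basis (Fin 2) (ZMod 2)
    (Submodule.torsionBy ℤ ((W.map (Int.castRingHom ℚ)).toAffine⁄QBar).Point ((2 : ℕ) : ℤ)),
    b 0 = twoPoint hΔ 0 ∧ b 1 = twoPoint hΔ 1 := by
  set v := ![twoPoint hΔ 0, twoPoint hΔ 1] with hv
  have h2 : twoPoint hΔ 0 + twoPoint hΔ 1 = twoPoint hΔ 2 :=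
    twoPoint_add hΔ (by decide) (by decide) (by decide)
  refine ⟨Module.Basis.mk (v := v) ?_ ?_, by simp [hv], by simp [hv]⟩
  · rw [Fintype.linearIndependent_iff]
    intro g hg
    rw [Fin.sum_univ_two] at hg
    have h01 : ∀ c : ZMod 2, c = 0 ∨ c = 1 := by decide
    rcases h01 (g 0) with a | a <;> rcases h01 (g 1) with b | b <;>
      simp only [hv, a, b, zero_smul, one_smul, zero_add, add_zero, Matrix.cons_val_zero,
        Matrix.cons_val_one] at hg
    · intro i; fin_cases i <;> assumption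
    · exact absurd hg (twoPoint_ne_zero hΔ 1)
    · exact absurd hg (twoPoint_ne_zero hΔ 0)
    · exact absurd (h2.symm.trans hg) (twoPoint_ne_zero hΔ 2)
  · rintro P -
    have hm : ∀ i, v i ∈ Submodule.span (ZMod 2) (Set.range v) := fun i =>
      Submodule.subset_span ⟨i, rfl⟩
    rcases eq_zero_or_twoPoint hΔ P with rfl | ⟨i, rfl⟩
    · exact Submodule.zero_mem _
    · fin_cases i
      · exact hm 0
      · exact hm 1
      · exact h2 ▸ Submodule.add_mem _ (hm 0) (hm 1)

/-- The trace on `W[2]` is `1` exactly for the permutations moving all three points. -/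
theorem galoisTrace_two (σ : GQ) :
    Point.galoisTrace (K := QBar) ℚ (W.map (Int.castRingHom ℚ)).toAffine 2 σ
      = if ∀ i, perm hΔ σ i ≠ i then 1 else 0 := by
  obtain ⟨b, h0, h1⟩ := exists_basis hΔ
  set g : Fin 3 → Fin 2 → ZMod 2 := ![![1, 0], ![0, 1], ![1, 1]] with hg
  have hrep : ∀ l j, b.repr (twoPoint hΔ l) j = g l j := by
    intro l j
    fin_cases l
    · fin_cases j <;> simp [← h0, hg]
    · fin_cases j <;> simp [← h1, hg]
    · show b.repr (twoPoint hΔ 2) j = _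
      rw [← twoPoint_add hΔ (show (0 : Fin 3) ≠ 1 by decide) (by decide) (by decide),
        ← h0, ← h1, map_add]
      fin_cases j <;> simp [hg]
  rw [Point.galoisTrace_def, LinearMap.trace_eq_matrix_trace (ZMod 2) b]
  simp only [Matrix.trace, Matrix.diag, Fin.sum_univ_two, LinearMap.toMatrix_apply, h0, h1,
    Point.galoisRepModuleEnd_apply, smul_twoPoint, hrep]
  exact (show ∀ π : Equiv.Perm (Fin 3), g (π 0) 0 + g (π 1) 1
      = if ∀ i, π i ≠ i then 1 else 0 by rw [hg]; decide) (perm hΔ σ)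

/-- At a good prime `ℓ ≠ 2`, `a_ℓ` is odd iff Frobenius moves all three points of order two. -/
theorem apOfModel_mod_two {ℓ : ℕ} (hℓ : ℓ.Prime) (hgood : W.IsGoodPrimeFor ℓ) (h2 : ℓ ≠ 2)
    {A : ValuationSubring QBar} (hA : A.LiesOverPrime ℓ) {σ : GQ} (hσ : A.IsFrobeniusAt σ ℓ) :
    (W.apOfModel ℓ : ZMod 2) = if ∀ i, perm hΔ σ i ≠ i then 1 else 0 :=
  haveI := Fact.mk Nat.prime_two
  (EC.FrobTrace.galoisTrace_frobenius (p := 2) W hℓ hgood h2 hA hσ).symm.trans
    (galoisTrace_two hΔ σ)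

omit hΔ in
/-- `W[2]` is irreducible. -/
theorem IsTwoAdicCurve.irreducible_two (h : IsTwoAdicCurve W) : W.ModRepIsIrreducible 2 := by
  refine ⟨⟨⟨twoPoint h.delta_ne_zero 0, 0, twoPoint_ne_zero _ _⟩⟩, fun N hN => ?_⟩
  by_cases hb : N = ⊥
  · exact Or.inl hb
  · refine Or.inr (eq_top_iff.mpr ?_)
    obtain ⟨P, hP, hP0⟩ := Submodule.exists_mem_ne_zero_of_ne_bot hb
    obtain ⟨i, rfl⟩ := (eq_zero_or_twoPoint h.delta_ne_zero P).resolve_left hP0
    rintro Q -
    rcases eq_zero_or_twoPoint h.delta_ne_zero Q with rfl | ⟨j, rfl⟩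
    · exact N.zero_mem
    · obtain ⟨σ, hσ⟩ := h.perm_surjective (Equiv.swap i j)
      have := hN σ _ hP
      rwa [smul_twoPoint, hσ, Equiv.swap_apply_left] at this

end Points

end Fermat.Agent.TwoAdic.Curve
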