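import Mathlib
import Fermat.Agent.TwoAdic.Curve.TwoTorsion
import Fermat.Agent.Arith.InertiaLift
import Fermat.Agent.EC.AtP.NodeGalois
import Fermat.Prelude.Def_GaloisRep_ComplexConjugation

/-!
# Local behaviour of the two-torsion of a curve satisfying `IsTwoAdicCurve`

At a bad prime the decomposition group fixes a point of order two and inertia has order exactly
two on `W[2]`, acting through `√Δ`; at the other primes inertia is trivial. Hence the cubic
character `cubicChar` of the subgroup fixing `√Δ` is trivial on every inertia group.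
-/

set_option autoImplicit false

noncomputable section

namespace Fermat.Agent.TwoAdic.Curve

open scoped Pointwise WeierstrassCurve.Affine
open Fermat.Agent.Arith
open WeierstrassCurve WeierstrassCurve.Affine

variable {W : WeierstrassCurve ℤ} {q : ℕ} {A : ValuationSubring QBar}

theorem nonunits_of_sq {z : QBar} (h : z ^ 2 ∈ A.nonunits) : z ∈ A.nonunits := by
  rw [ValuationSubring.mem_nonunits_iff, map_pow] at h
  rw [ValuationSubring.mem_nonunits_iff]
  exact (pow_lt_one_iff two_ne_zero).mp h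

theorem nonunits_or_of_mul {x y : QBar} (h : x * y ∈ A.nonunits) :
    x ∈ A.nonunits ∨ y ∈ A.nonunits := by
  simp only [ValuationSubring.mem_nonunits_iff, map_mul] at h ⊢
  exact not_and_or.mp (fun hh => absurd (one_le_mul hh.1 hh.2) (not_le.mpr h)) |>.imp
    not_le.mp not_le.mp

variable (W A) in
/-- The roots `i` and `j` have the same reduction at `A`. -/
def NearRoots (i j : Fin 3) : Prop := root W i - root W j ∈ A.nonunits

theorem NearRoots.refl (i : Fin 3) : NearRoots W A i i := by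
  simp [NearRoots, A.nonunits.zero_mem]

theorem NearRoots.symm {i j : Fin 3} (h : NearRoots W A i j) : NearRoots W A j i := by
  simpa [NearRoots] using nonunits_neg h

theorem root_mem (i : Fin 3) : root W i ∈ A := mem_of_isIntegral A (isIntegral_root W i)

theorem NearRoots.map (hΔ : W.Δ ≠ 0) {σ : GQ} (hσ : σ • A = A) {i j : Fin 3}
    (h : NearRoots W A i j) : NearRoots W A (perm hΔ σ i) (perm hΔ σ j) := by
  rw [NearRoots, root_perm, root_perm, ← map_sub]
  exact EC.AtP.map_mem_nonunits_of_smul_eq hσ h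

/-- At a bad semistable prime exactly two of the roots have the same reduction. -/
theorem exists_unique_far (hA : A.LiesOverPrime q) (hq : q.Prime) (hqΔ : (q : ℤ) ∣ W.Δ)
    (hqc : ¬ (q : ℤ) ∣ W.c₄) : ∃ i, (∀ j, j ≠ i → ¬ NearRoots W A i j) ∧
      ∀ j k, j ≠ i → k ≠ i → NearRoots W A j k := by
  have hc : (W.c₄ : QBar) ∉ A.nonunits := fun h => hqc ((intCast_mem_nonunits_iff hA hq _).mp h)
  have hall : ∀ a b : QBar, (W.c₄ : QBar) = a ^ 2 + b → a ∈ A.nonunits → b ∈ A.nonunits → False := by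
    intro a b e ha hb
    exact hc (e ▸ nonunits_add (sq a ▸ nonunits_mul_right ha (mem_of_mem_nonunits ha)) hb)
  have hnot : ¬ (NearRoots W A 0 1 ∧ NearRoots W A 0 2) := fun ⟨h01, h02⟩ =>
    hall _ _ (c₄_eq_roots W) h01
      (nonunits_mul_right h02 (sub_mem (root_mem 1) (root_mem 2)))
  have htr : ∀ i j k, NearRoots W A i j → NearRoots W A j k → NearRoots W A i k := by
    intro i j k a b
    simpa [NearRoots] using nonunits_add a b
  obtain h01 | h02 | h12 : NearRoots W A 0 1 ∨ NearRoots W A 0 2 ∨ NearRoots W A 1 2 := by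
    have : rootDiff W ^ 2 ∈ A.nonunits := by
      rw [rootDiff_sq]
      exact nonunits_mul_left (by exact_mod_cast natCast_mem A 256)
        ((intCast_mem_nonunits_iff hA hq _).mpr hqΔ)
    rcases nonunits_or_of_mul (nonunits_of_sq this) with h | h
    · exact (nonunits_or_of_mul h).elim Or.inl (fun h => Or.inr (Or.inl h))
    · exact Or.inr (Or.inr h)
  · have f0 : ¬ NearRoots W A 0 2 := fun h => hnot ⟨h01, h⟩
    have f1 : ¬ NearRoots W A 1 2 := fun h => f0 (htr _ _ _ h01 h)
    refine ⟨2, fun j hj => ?_, fun j k hj hk => ?_⟩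
    · fin_cases j
      · exact fun h => f0 h.symm
      · exact fun h => f1 h.symm
      · exact absurd rfl hj
    · fin_cases j <;> fin_cases k <;>
        first | exact NearRoots.refl _ | exact h01 | exact h01.symm | contradiction
  · have f0 : ¬ NearRoots W A 0 1 := fun h => hnot ⟨h, h02⟩
    have f1 : ¬ NearRoots W A 2 1 := fun h => f0 (htr _ _ _ h02 h)
    refine ⟨1, fun j hj => ?_, fun j k hj hk => ?_⟩
    · fin_cases j
      · exact fun h => f0 h.symm
      · exact absurd rfl hj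
      · exact fun h => f1 h.symm
    · fin_cases j <;> fin_cases k <;>
        first | exact NearRoots.refl _ | exact h02 | exact h02.symm | contradiction
  · have f0 : ¬ NearRoots W A 0 1 := fun h => hnot ⟨h, htr _ _ _ h h12⟩
    have f1 : ¬ NearRoots W A 0 2 := fun h => f0 (htr _ _ _ h h12.symm)
    refine ⟨0, fun j hj => ?_, fun j k hj hk => ?_⟩
    · fin_cases j
      · exact absurd rfl hj
      · exact f0
      · exact f1
    · fin_cases j <;> fin_cases k <;>
        first | exact NearRoots.refl _ | exact h12 | exact h12.symm | contradiction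

/-- The decomposition group at a bad semistable prime fixes one of the roots. -/
theorem exists_fixed_root (hΔ : W.Δ ≠ 0) (hA : A.LiesOverPrime q) (hq : q.Prime)
    (hqΔ : (q : ℤ) ∣ W.Δ) (hqc : ¬ (q : ℤ) ∣ W.c₄) :
    ∃ i, ∀ σ : GQ, σ • A = A → perm hΔ σ i = i := by
  obtain ⟨i, hfar, hnear⟩ := exists_unique_far hA hq hqΔ hqc
  refine ⟨i, fun σ hσ => ?_⟩
  by_contra hne
  set π := perm hΔ σ with hπ
  obtain ⟨j, hj⟩ : ∃ j, π j = i := π.surjective i
  have hji : j ≠ i := fun e => hne (e ▸ hj)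
  obtain ⟨k, hki, hkj⟩ : ∃ k, k ≠ i ∧ k ≠ j :=
    (show ∀ i j : Fin 3, ∃ k, k ≠ i ∧ k ≠ j by decide) i j
  have := (hnear j k hji hki).map hΔ hσ
  rw [← hπ, hj] at this
  exact hfar (π k) (fun e => hkj (π.injective (e.trans hj.symm))) this

/-- A decomposition element at a bad semistable prime fixing `√Δ` fixes all the roots. -/
theorem perm_eq_one_of_fix_sqrtDisc (hΔ : W.Δ ≠ 0) (hA : A.LiesOverPrime q) (hq : q.Prime)
    (hqΔ : (q : ℤ) ∣ W.Δ) (hqc : ¬ (q : ℤ) ∣ W.c₄) {σ : GQ} (hσ : σ • A = A)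
    (hs : σ (sqrtDisc W) = sqrtDisc W) : perm hΔ σ = 1 := by
  obtain ⟨i, hi⟩ := exists_fixed_root hΔ hA hq hqΔ hqc
  exact (show ∀ π : Equiv.Perm (Fin 3), Equiv.Perm.sign π = 1 → ∀ i, π i = i → π = 1 by decide)
    _ ((sign_perm_eq_one_iff hΔ).mpr hs) i (hi σ hσ)

/-- Inertia at an odd good prime fixes all the roots. -/
theorem perm_inertia_good (hΔ : W.Δ ≠ 0) (hA : A.LiesOverPrime q) (hq : q.Prime) (hq2 : q ≠ 2)
    (hqΔ : ¬ (q : ℤ) ∣ W.Δ) {σ : GQ} (hσ : σ ∈ A.inertiaSubgroupIn ℚ) : perm hΔ σ = 1 := by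
  refine Equiv.ext fun i => ?_
  by_contra hne
  have h : NearRoots W A (perm hΔ σ i) i := by
    rw [NearRoots, root_perm]
    exact (mem_inertia_iff_forall_mem.mp hσ).2 _ (root_mem i)
  have hdvd : rootDiff W ^ 2 ∈ A.nonunits := by
    have hd : rootDiff W ∈ A.nonunits := by
      obtain ⟨hm01, hm02, hm12⟩ : (root W 0 - root W 1 ∈ A) ∧ (root W 0 - root W 2 ∈ A) ∧
          (root W 1 - root W 2 ∈ A) :=
        ⟨sub_mem (root_mem 0) (root_mem 1), sub_mem (root_mem 0) (root_mem 2),
          sub_mem (root_mem 1) (root_mem 2)⟩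
      have key : NearRoots W A 0 1 ∨ NearRoots W A 0 2 ∨ NearRoots W A 1 2 := by
        generalize perm hΔ σ i = j at hne h
        fin_cases i <;> fin_cases j <;> first
          | exact absurd rfl hne | exact Or.inl h | exact Or.inl h.symm
          | exact Or.inr (Or.inl h) | exact Or.inr (Or.inl h.symm)
          | exact Or.inr (Or.inr h) | exact Or.inr (Or.inr h.symm)
      rcases key with k | k | k
      · exact nonunits_mul_right (nonunits_mul_right k hm02) hm12
      · exact nonunits_mul_right (nonunits_mul_left hm01 k) hm12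
      · exact nonunits_mul_left (mul_mem hm01 hm02) k
    rw [sq]
    exact nonunits_mul_right hd (mem_of_mem_nonunits hd)
  rw [rootDiff_sq, show (256 : QBar) * (W.Δ : QBar) = ((256 * W.Δ : ℤ) : QBar) by push_cast; rfl,
    intCast_mem_nonunits_iff hA hq] at hdvd
  rcases (Nat.prime_iff_prime_int.mp hq).dvd_or_dvd hdvd with hh | hh
  · have := (Nat.prime_iff_prime_int.mp hq).dvd_of_dvd_pow
      (show (q : ℤ) ∣ 2 ^ 8 by norm_num; exact hh)
    exact hq2 ((Nat.prime_dvd_prime_iff_eq hq Nat.prime_two).mp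
      (Int.natCast_dvd_natCast.mp (by exact_mod_cast this)))
  · exact hqΔ hh

variable (W) in
/-- The subgroup fixing `√Δ`. -/
def discSubgroup : Subgroup GQ := MulAction.stabilizer GQ (sqrtDisc W)

theorem mem_discSubgroup {σ : GQ} : σ ∈ discSubgroup W ↔ σ (sqrtDisc W) = sqrtDisc W := Iff.rfl

theorem map_sqrtDisc_eq_or (σ : GQ) :
    σ (sqrtDisc W) = sqrtDisc W ∨ σ (sqrtDisc W) = -sqrtDisc W :=
  sq_eq_sq_iff_eq_or_eq_neg.mp (by rw [← map_pow, sqrtDisc_sq, map_intCast])

instance discSubgroup_normal : (discSubgroup W).Normal := by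
  refine ⟨fun n hn g => ?_⟩
  rw [mem_discSubgroup] at hn ⊢
  rw [AlgEquiv.mul_apply, AlgEquiv.mul_apply]
  rcases map_sqrtDisc_eq_or (W := W) g⁻¹ with h | h <;> rw [h]
  · rw [hn]
    nth_rewrite 1 [← h]
    exact g.apply_symm_apply _
  · rw [map_neg n, hn, ← h]
    exact g.apply_symm_apply _

theorem isOpen_discSubgroup : IsOpen (discSubgroup W : Set GQ) := by
  have : FiniteDimensional ℚ (IntermediateField.adjoin ℚ {sqrtDisc W}) :=
    IntermediateField.adjoin.finiteDimensional (Algebra.IsIntegral.isIntegral _)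
  exact Subgroup.isOpen_mono (fun σ hσ => mem_discSubgroup.mpr
    ((IntermediateField.mem_fixingSubgroup_iff _ _).mp hσ _
      (IntermediateField.mem_adjoin_simple_self ℚ _)))
    (IntermediateField.fixingSubgroup_isOpen (IntermediateField.adjoin ℚ {sqrtDisc W}))

/-- Where `Δ` has odd valuation, inertia moves `√Δ`. -/
theorem exists_inertia_neg (hΔ : W.Δ ≠ 0) (hA : A.LiesOverPrime q) (hq : q.Prime)
    (hodd : Odd (padicValInt q W.Δ)) :
    ∃ σ ∈ A.inertiaSubgroupIn ℚ, σ (sqrtDisc W) = -sqrtDisc W := by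
  have := Fact.mk hq
  have hs0 := sqrtDisc_ne_zero hΔ
  obtain ⟨g, hg⟩ : ∃ g : GQ, g (sqrtDisc W) = -sqrtDisc W := by
    by_contra hall
    simp only [not_exists] at hall
    obtain ⟨x, hx⟩ := IntermediateField.mem_bot.mp
      ((InfiniteGalois.mem_bot_iff_fixed (k := ℚ) (sqrtDisc W)).mpr fun σ =>
        (map_sqrtDisc_eq_or σ).resolve_right (hall σ))
    have e := sqrtDisc_sq W
    rw [← hx, eq_ratCast, ← Rat.cast_pow, ← Rat.cast_intCast, Rat.cast_inj] at e
    have hv := congrArg (padicValRat q) e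
    rw [padicValRat.pow, padicValRat.of_int] at hv
    obtain ⟨m, hm⟩ := hodd
    omega
  obtain ⟨h, hh, hin⟩ := exists_inertia_lift hA hq (discSubgroup W)
    ((discSubgroup W).isClosed_of_isOpen isOpen_discSubgroup) g (fun x hxi hfix => by
      set z := g x - x with hz
      have hgx : ∀ n ∈ discSubgroup W, n (g x) = g x := fun n hn => by
        have := hfix _ (Subgroup.Normal.conj_mem' inferInstance n hn g)
        calc n (g x) = g ((g⁻¹ * n * g) x) := by
              rw [← AlgEquiv.mul_apply, ← AlgEquiv.mul_apply]; group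
          _ = g x := by rw [this]
      have hnz : ∀ n ∈ discSubgroup W, n z = z := fun n hn => by
        rw [hz, map_sub, hfix n hn, hgx n hn]
      have hg2 : g * g ∈ discSubgroup W := by
        rw [mem_discSubgroup, AlgEquiv.mul_apply, hg, map_neg, hg, neg_neg]
      have hgz : g z = -z := by
        rw [hz, map_sub, neg_sub, ← AlgEquiv.mul_apply g g, hfix _ hg2]
      set w := z / sqrtDisc W with hw
      obtain ⟨b, hb⟩ := IntermediateField.mem_bot.mp
        ((InfiniteGalois.mem_bot_iff_fixed (k := ℚ) w).mpr fun τ => by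
          have hfixH : ∀ n ∈ discSubgroup W, n w = w := fun n hn => by
            rw [hw, map_div₀, hnz n hn, mem_discSubgroup.mp hn]
          rcases map_sqrtDisc_eq_or (W := W) τ with ht | ht
          · exact hfixH τ (mem_discSubgroup.mpr ht)
          · have hn : g * τ ∈ discSubgroup W := by
              rw [mem_discSubgroup, AlgEquiv.mul_apply, ht, map_neg, hg, neg_neg]
            have hgw : g w = w := by rw [hw, map_div₀, hgz, hg, neg_div_neg_eq]
            exact g.injective (by rw [← AlgEquiv.mul_apply, hfixH _ hn, hgw]))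
      have hz2 : z ^ 2 = ((b ^ 2 * W.Δ : ℚ) : QBar) := by
        rw [Rat.cast_mul, Rat.cast_pow, Rat.cast_intCast, ← sqrtDisc_sq, ← eq_ratCast (algebraMap ℚ
          QBar) b, hb, hw, div_pow, div_mul_cancel₀ _ (pow_ne_zero 2 hs0)]
      have hint : IsIntegral ℤ (b ^ 2 * W.Δ : ℚ) := by
        refine (isIntegral_algebraMap_iff (algebraMap ℚ QBar).injective).mp ?_
        rw [eq_ratCast, ← hz2]
        exact ((hxi.map ((g : QBar →+* QBar).toIntAlgHom)).sub hxi).pow 2
      obtain ⟨N, hN⟩ := IsIntegrallyClosed.isIntegral_iff.mp hint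
      rw [eq_intCast] at hN
      refine nonunits_of_sq ?_
      rw [hz2, ← hN, Rat.cast_intCast, intCast_mem_nonunits_iff hA hq]
      by_contra hN0
      have hv := congrArg (padicValRat q) hN
      rw [padicValRat.of_int, padicValInt.eq_zero_of_not_dvd hN0, padicValRat.mul
        (pow_ne_zero 2 fun hb0 => hN0 (by
          rw [hb0, zero_pow two_ne_zero, zero_mul, Int.cast_eq_zero] at hN
          rw [hN]; exact dvd_zero _))
        (Int.cast_ne_zero.mpr hΔ), padicValRat.pow, padicValRat.of_int] at hv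
      obtain ⟨m, hm⟩ := hodd
      omega)
  refine ⟨h * g, hin, ?_⟩
  rw [AlgEquiv.mul_apply, hg, map_neg, mem_discSubgroup.mp hh]

namespace IsTwoAdicCurve

variable (h : IsTwoAdicCurve W)
include h

/-- Decomposition groups at the bad primes fix a point of order two. -/
theorem exists_fixed_root (hA : A.LiesOverPrime q) (hq : q.Prime) (hqΔ : (q : ℤ) ∣ W.Δ) :
    ∃ i, ∀ σ : GQ, σ • A = A → perm h.delta_ne_zero σ i = i :=
  Curve.exists_fixed_root h.delta_ne_zero hA hq hqΔ (h.semistable q hq hqΔ)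

/-- The same on the torsion module. -/
theorem exists_fixed_twoPoint (hA : A.LiesOverPrime q) (hq : q.Prime) (hqΔ : (q : ℤ) ∣ W.Δ) :
    ∃ P : Submodule.torsionBy ℤ ((W.map (Int.castRingHom ℚ)).toAffine⁄QBar).Point ((2 : ℕ) : ℤ),
      P ≠ 0 ∧ ∀ σ : GQ, σ • A = A → σ • P = P := by
  obtain ⟨i, hi⟩ := h.exists_fixed_root hA hq hqΔ
  exact ⟨twoPoint h.delta_ne_zero i, twoPoint_ne_zero _ i, fun σ hσ => by
    rw [smul_twoPoint, hi σ hσ]⟩

theorem perm_inertia_good (hA : A.LiesOverPrime q) (hq : q.Prime) (hqΔ : ¬ (q : ℤ) ∣ W.Δ)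
    {σ : GQ} (hσ : σ ∈ A.inertiaSubgroupIn ℚ) : perm h.delta_ne_zero σ = 1 :=
  Curve.perm_inertia_good h.delta_ne_zero hA hq (fun e => hqΔ (e ▸ h.two_dvd)) hqΔ hσ

/-- `W[2]` is unramified at every good prime. -/
theorem unramified_two (hq : q.Prime) (hqΔ : ¬ (q : ℤ) ∣ W.Δ) :
    Point.GaloisRepUnramifiedAt (K := QBar) ℚ (W.map (Int.castRingHom ℚ)).toAffine 2 q := by
  intro A hA σ hσ P
  rcases eq_zero_or_twoPoint h.delta_ne_zero P with rfl | ⟨i, rfl⟩
  · exact smul_zero σ
  · rw [smul_twoPoint, h.perm_inertia_good hA hq hqΔ hσ, Equiv.Perm.one_apply]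

/-- An inertia element fixing `√Δ` acts trivially on `W[2]`. -/
theorem perm_inertia_of_fix (hA : A.LiesOverPrime q) (hq : q.Prime) {σ : GQ}
    (hσ : σ ∈ A.inertiaSubgroupIn ℚ) (hs : σ (sqrtDisc W) = sqrtDisc W) :
    perm h.delta_ne_zero σ = 1 := by
  by_cases hqΔ : (q : ℤ) ∣ W.Δ
  · exact perm_eq_one_of_fix_sqrtDisc h.delta_ne_zero hA hq hqΔ (h.semistable q hq hqΔ)
      (mem_inertia_iff_forall_mem.mp hσ).1 hs
  · exact h.perm_inertia_good hA hq hqΔ hσ

/-- At a bad prime some inertia element is a transposition on `W[2]`. -/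
theorem exists_inertia_transposition (hA : A.LiesOverPrime q) (hq : q.Prime)
    (hqΔ : (q : ℤ) ∣ W.Δ) : ∃ σ ∈ A.inertiaSubgroupIn ℚ, σ (sqrtDisc W) = -sqrtDisc W ∧
      (perm h.delta_ne_zero σ).IsSwap := by
  obtain ⟨σ, hσ, hs⟩ := exists_inertia_neg h.delta_ne_zero hA hq (h.odd_val q hq hqΔ)
  refine ⟨σ, hσ, hs, ?_⟩
  have hsign : Equiv.Perm.sign (perm h.delta_ne_zero σ) ≠ 1 := fun e => by
    rw [sign_perm_eq_one_iff, hs] at e
    exact sqrtDisc_ne_zero h.delta_ne_zero (neg_eq_self.mp e)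
  obtain ⟨i, j, hij, e⟩ := (show ∀ π : Equiv.Perm (Fin 3), Equiv.Perm.sign π ≠ 1 →
    ∃ i j, i ≠ j ∧ π = Equiv.swap i j by decide) _ hsign
  exact ⟨i, j, hij, e⟩

/-- At `2` the fixed root is a unit and the other two are not. -/
theorem exists_unit_root_two (hA : A.LiesOverPrime 2) :
    ∃ i, root W i ∉ A.nonunits ∧ (∀ j, j ≠ i → root W j ∈ A.nonunits) ∧
      ∀ σ : GQ, σ • A = A → perm h.delta_ne_zero σ i = i := by
  have hc := h.semistable 2 Nat.prime_two h.two_dvd
  have hb2 : (W.b₂ : QBar) ∉ A.nonunits := by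
    rw [intCast_mem_nonunits_iff hA Nat.prime_two]
    intro hb
    exact hc (by
      rw [show W.c₄ = W.b₂ ^ 2 - 24 * W.b₄ from rfl]
      exact dvd_sub (dvd_pow hb two_ne_zero) (dvd_mul_of_dvd_left (by norm_num) _))
  have hor : ∀ j, root W j ∈ A.nonunits ∨ root W j + W.b₂ ∈ A.nonunits := fun j => by
    have e := twoCubic_root W j
    simp only [twoCubic] at e
    have h2 : (2 : QBar) ∈ A.nonunits := by simpa [ValuationSubring.LiesOverPrime] using hA
    have hm : root W j ^ 2 * (root W j + W.b₂) ∈ A.nonunits := by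
      rw [show root W j ^ 2 * (root W j + W.b₂)
        = 2 * -(4 * W.b₄ * root W j + 8 * W.b₆) by linear_combination e]
      exact nonunits_mul_right h2 (neg_mem (add_mem (mul_mem (mul_mem (natCast_mem A 4)
        (intCast_mem A _)) (root_mem j)) (mul_mem (natCast_mem A 8) (intCast_mem A _))))
    exact (nonunits_or_of_mul hm).imp_left nonunits_of_sq
  obtain ⟨i, hi⟩ : ∃ i, root W i ∉ A.nonunits := by
    by_contra hall
    simp only [not_exists, not_not] at hall
    have := nonunits_neg (nonunits_add (nonunits_add (hall 0) (hall 1)) (hall 2))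
    rw [(root_sum W).1, neg_neg] at this
    exact hb2 this
  obtain ⟨k, hfar, hnear⟩ := exists_unique_far (W := W) hA Nat.prime_two h.two_dvd hc
  -- two roots with the same kind of reduction are near
  have hsame : ∀ a b, root W a ∉ A.nonunits → root W b ∉ A.nonunits → NearRoots W A a b := by
    intro a b ha hb
    simpa [NearRoots] using nonunits_sub ((hor a).resolve_left ha) ((hor b).resolve_left hb)
  have hik : i = k := by
    by_contra hne
    obtain ⟨j, hji, hjk⟩ : ∃ j, j ≠ i ∧ j ≠ k :=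
      (show ∀ i k : Fin 3, ∃ j, j ≠ i ∧ j ≠ k by decide) i k
    have hu : root W j ∉ A.nonunits := fun hn => hi (by
      simpa using nonunits_add (hnear i j hne hjk) hn)
    have hk : root W k ∈ A.nonunits := by
      by_contra hk
      exact hfar i hne (hsame k i hk hi)
    have h2u := nonunits_add (nonunits_add ((hor i).resolve_left hi) ((hor j).resolve_left hu)) hk
    apply hb2
    have hall : root W i + root W j + root W k = -(W.b₂ : QBar) := by
      rw [← (root_sum W).1]
      fin_cases i <;> fin_cases j <;> fin_cases k <;>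
        first | exact absurd rfl hne | exact absurd rfl hji | exact absurd rfl hjk |
          (simp only [Fin.zero_eta, Fin.mk_one, Fin.reduceFinMk] <;> ring)
    rwa [show root W i + W.b₂ + (root W j + W.b₂) + root W k = W.b₂ by
      linear_combination hall] at h2u
  subst hik
  refine ⟨i, hi, fun j hj => ?_, fun σ hσ => ?_⟩
  · by_contra hn
    exact hfar j hj (hsame i j hi hn)
  · by_contra hne
    refine hfar _ hne (hsame i _ hi ?_)
    rw [root_perm]
    intro hn
    exact hi (by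
      simpa using EC.AtP.map_mem_nonunits_of_smul_eq (σ := σ⁻¹)
        (inv_smul_eq_iff.mpr hσ.symm) hn)

/-- Complex conjugation negates `√Δ`. -/
theorem complexConjugation_sqrtDisc :
    complexConjugation (sqrtDisc W) = -sqrtDisc W := by
  refine (map_sqrtDisc_eq_or _).resolve_left fun e => ?_
  have hc := complexEmbedding_complexConjugation (sqrtDisc W)
  rw [e, eq_comm, Complex.conj_eq_iff_re] at hc
  have hsq := congrArg complexEmbedding (sqrtDisc_sq W)
  rw [map_pow, map_intCast, ← hc, ← Complex.ofReal_pow, ← Complex.ofReal_intCast,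
    Complex.ofReal_inj] at hsq
  have : (W.Δ : ℝ) < 0 := by exact_mod_cast h.delta_neg
  nlinarith [sq_nonneg (complexEmbedding (sqrtDisc W)).re]

end IsTwoAdicCurve

theorem sign_eq_one_iff_translation : ∀ π : Equiv.Perm (Fin 3),
    Equiv.Perm.sign π = 1 ↔ ∀ i, π i = i + π 0 := by decide

/-- The cubic character of the subgroup fixing `√Δ`. -/
def cubicChar (hΔ : W.Δ ≠ 0) : discSubgroup W →* Multiplicative (ZMod 3) :=
  MonoidHom.mk' (fun σ => Multiplicative.ofAdd (show ZMod 3 from perm hΔ (σ : GQ) 0)) fun σ τ => by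
    apply Multiplicative.toAdd.injective
    show perm hΔ ((σ : GQ) * (τ : GQ)) 0 = (perm hΔ (σ : GQ) 0 + perm hΔ (τ : GQ) 0 : Fin 3)
    rw [map_mul, Equiv.Perm.mul_apply,
      (sign_eq_one_iff_translation _).mp ((sign_perm_eq_one_iff hΔ).mpr σ.2) (perm hΔ (τ : GQ) 0),
      add_comm]

theorem cubicChar_apply (hΔ : W.Δ ≠ 0) (σ : discSubgroup W) :
    cubicChar hΔ σ = Multiplicative.ofAdd (show ZMod 3 from perm hΔ (σ : GQ) 0) := rfl

theorem cubicChar_eq_one_iff (hΔ : W.Δ ≠ 0) (σ : discSubgroup W) :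
    cubicChar hΔ σ = 1 ↔ perm hΔ (σ : GQ) = 1 := by
  have := (sign_eq_one_iff_translation _).mp ((sign_perm_eq_one_iff hΔ).mpr σ.2)
  rw [cubicChar_apply, ofAdd_eq_one]
  constructor
  · intro e
    refine Equiv.ext fun i => (this i).trans ?_
    show i + perm hΔ (σ : GQ) 0 = i
    rw [show perm hΔ (σ : GQ) 0 = (0 : Fin 3) from e, add_zero]
  · intro e
    rw [e]; rfl

theorem isOpen_ker_cubicChar (hΔ : W.Δ ≠ 0) :
    IsOpen (((cubicChar hΔ).ker.map (discSubgroup W).subtype : Subgroup GQ) : Set GQ) := by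
  refine Subgroup.isOpen_mono ?_ (isOpen_ker_perm hΔ)
  intro σ hσ
  have hp : perm hΔ σ = 1 := MonoidHom.mem_ker.mp hσ
  have hmem : σ ∈ discSubgroup W :=
    mem_discSubgroup.mpr ((sign_perm_eq_one_iff hΔ).mp (by rw [hp, map_one]))
  exact ⟨⟨σ, hmem⟩, MonoidHom.mem_ker.mpr ((cubicChar_eq_one_iff hΔ ⟨σ, hmem⟩).mpr hp), rfl⟩

/-- Elements outside the subgroup invert the cubic character. -/
theorem cubicChar_conj (hΔ : W.Δ ≠ 0) {g : GQ} (hg : g ∉ discSubgroup W) (σ : discSubgroup W) :
    cubicChar hΔ ⟨g * σ * g⁻¹, discSubgroup_normal.conj_mem _ σ.2 g⟩ = (cubicChar hΔ σ)⁻¹ := by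
  apply Multiplicative.toAdd.injective
  show (perm hΔ (g * σ * g⁻¹) 0 : Fin 3) = -(perm hΔ (σ : GQ) 0)
  rw [map_mul, map_mul, map_inv]
  exact (show ∀ π ρ : Equiv.Perm (Fin 3), Equiv.Perm.sign π ≠ 1 ∧ Equiv.Perm.sign ρ = 1 →
    (π * ρ * π⁻¹) 0 = -(ρ 0) by decide) _ _
    ⟨fun e => hg (mem_discSubgroup.mpr ((sign_perm_eq_one_iff hΔ).mp e)),
      (sign_perm_eq_one_iff hΔ).mpr σ.2⟩

/-- The cubic character is onto. -/
theorem IsTwoAdicCurve.cubicChar_surjective (h : IsTwoAdicCurve W) :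
    Function.Surjective (cubicChar h.delta_ne_zero) := by
  intro c
  obtain ⟨π, hπ, hπc⟩ : ∃ π : Equiv.Perm (Fin 3),
      Equiv.Perm.sign π = 1 ∧ π 0 = (Multiplicative.toAdd c : ZMod 3) :=
    (show ∀ a : Fin 3, ∃ π : Equiv.Perm (Fin 3), Equiv.Perm.sign π = 1 ∧ π 0 = a by decide) _
  obtain ⟨σ, hσ⟩ := h.perm_surjective π
  refine ⟨⟨σ, mem_discSubgroup.mpr ((sign_perm_eq_one_iff h.delta_ne_zero).mp (hσ ▸ hπ))⟩, ?_⟩
  rw [cubicChar_apply]
  apply Multiplicative.toAdd.injective
  show perm h.delta_ne_zero σ 0 = _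
  rw [hσ]
  exact hπc

/-- The cubic character is unramified everywhere. -/
theorem IsTwoAdicCurve.cubicChar_inertia (h : IsTwoAdicCurve W) (hA : A.LiesOverPrime q)
    (hq : q.Prime) (σ : discSubgroup W) (hσ : (σ : GQ) ∈ A.inertiaSubgroupIn ℚ) :
    cubicChar h.delta_ne_zero σ = 1 :=
  (cubicChar_eq_one_iff _ σ).mpr (h.perm_inertia_of_fix hA hq hσ σ.2)

end Fermat.Agent.TwoAdic.Curve
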