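import Mathlib

/-!
# The binary forms of the mod 3 family (Rubin-Silverberg)

For the invariants `c₄ = a`, `c₆ = b` the members of the family of curves with the same
3-torsion have `c₄ = famC4 a b l n`, `c₆ = famC6 a b l n`, and
`famC4 ^ 3 - famC6 ^ 2 = (a ^ 3 - b ^ 2) * famD ^ 3`.
-/

set_option autoImplicit false

namespace Fermat.Agent.TwoAdic.Curve

variable {R S : Type*} [CommRing R] [CommRing S]

/-- The quartic of the mod 3 family. -/
def famD (a b l n : R) : R :=
  l ^ 4 - 6 * a * l ^ 2 * n ^ 2 - 8 * b * l * n ^ 3 - 3 * a ^ 2 * n ^ 4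

/-- The derivative of `famD` in `l`. -/
def famDl (a b l n : R) : R :=
  4 * l ^ 3 - 12 * a * l * n ^ 2 - 8 * b * n ^ 3

/-- The `c₄` of the mod 3 family. -/
def famC4 (a b l n : R) : R :=
  a * l ^ 4 + 4 * b * l ^ 3 * n + 6 * a ^ 2 * l ^ 2 * n ^ 2 + 4 * a * b * l * n ^ 3
    + (4 * b ^ 2 - 3 * a ^ 3) * n ^ 4

/-- The `c₆` of the mod 3 family. -/
def famC6 (a b l n : R) : R :=
  b * l ^ 6 + 6 * a ^ 2 * l ^ 5 * n + 15 * a * b * l ^ 4 * n ^ 2 + 20 * b ^ 2 * l ^ 3 * n ^ 3
    + 15 * a ^ 2 * b * l ^ 2 * n ^ 4 + 6 * (3 * a ^ 4 - 2 * a * b ^ 2) * l * n ^ 5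
    + (9 * a ^ 3 * b - 8 * b ^ 3) * n ^ 6

theorem famC4_cube_sub_famC6_sq (a b l n : R) :
    famC4 a b l n ^ 3 - famC6 a b l n ^ 2 = (a ^ 3 - b ^ 2) * famD a b l n ^ 3 := by
  simp only [famC4, famC6, famD]; ring

/-- `famC4` is the Hessian of `famD`. -/
theorem famC4_hessian (a b l n : R) :
    -48 * n ^ 2 * famC4 a b l n
      = 4 * famD a b l n * (12 * l ^ 2 - 12 * a * n ^ 2) - 3 * famDl a b l n ^ 2 := by
  simp only [famC4, famD, famDl]; ring

theorem map_famD (φ : R →+* S) (a b l n : R) :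
    φ (famD a b l n) = famD (φ a) (φ b) (φ l) (φ n) := by
  simp [famD, map_sub, map_mul, map_pow, map_ofNat]

theorem map_famDl (φ : R →+* S) (a b l n : R) :
    φ (famDl a b l n) = famDl (φ a) (φ b) (φ l) (φ n) := by
  simp [famDl, map_sub, map_mul, map_pow, map_ofNat]

theorem map_famC4 (φ : R →+* S) (a b l n : R) :
    φ (famC4 a b l n) = famC4 (φ a) (φ b) (φ l) (φ n) := by
  simp [famC4, map_sub, map_add, map_mul, map_pow, map_ofNat]

theorem map_famC6 (φ : R →+* S) (a b l n : R) :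
    φ (famC6 a b l n) = famC6 (φ a) (φ b) (φ l) (φ n) := by
  simp [famC6, map_sub, map_add, map_mul, map_pow, map_ofNat]

theorem famD_one_zero (a b : R) : famD a b 1 0 = 1 := by simp [famD]

theorem famC4_one_zero (a b : R) : famC4 a b 1 0 = a := by simp [famC4]

theorem famC6_one_zero (a b : R) : famC6 a b 1 0 = b := by simp [famC6]

theorem famD_smul (a b t l n : R) : famD a b (t * l) (t * n) = t ^ 4 * famD a b l n := by
  simp only [famD]; ring

/-- In a field of characteristic different from `2` and `3`, a double zero of `famD` forces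
`a ^ 3 = b ^ 2`. -/
theorem eq_of_famD_famDl {K : Type*} [Field K] (h2 : (2 : K) ≠ 0) (h3 : (3 : K) ≠ 0) {a b l n : K}
    (hn : n ≠ 0) (hD : famD a b l n = 0) (hDl : famDl a b l n = 0) : a ^ 3 = b ^ 2 := by
  simp only [famD] at hD
  simp only [famDl] at hDl
  have e : 3 * (l ^ 2 - a * n ^ 2) ^ 2 = 0 := by linear_combination l * hDl - hD
  have ea : a * n ^ 2 = l ^ 2 := by
    rcases mul_eq_zero.mp e with h | h
    · exact absurd h h3
    · linear_combination -(pow_eq_zero_iff (two_ne_zero)).mp h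
  have e8 : (2 : K) ^ 3 * (b * n ^ 3 + l ^ 3) = 0 := by
    linear_combination -hDl - 12 * l * ea
  have eb : b * n ^ 3 = -l ^ 3 := by
    rcases mul_eq_zero.mp e8 with h | h
    · exact absurd ((pow_eq_zero_iff three_ne_zero).mp h) h2
    · linear_combination h
  apply mul_right_cancel₀ (pow_ne_zero 6 hn)
  linear_combination ((a * n ^ 2) ^ 2 + a * n ^ 2 * l ^ 2 + l ^ 4) * ea
    - (b * n ^ 3 - l ^ 3) * eb

end Fermat.Agent.TwoAdic.Curve
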