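import Mathlib
import Fermat.Prelude.Def_FLTPrelim_Modularity

/-!
# Integral models with prescribed `c₄` and `c₆` when the discriminant is even

Kraus' conditions in the case of multiplicative reduction at `2`: a coefficient `b₂ = B` is built
from `-c₆ / c₄` modulo `2⁷` and from a given residue modulo `27`.
-/

set_option autoImplicit false

namespace Fermat.Agent.TwoAdic.Curve

open WeierstrassCurve

/-- The condition at `3` on a coefficient `b₂` compatible with the invariants `c4`, `c6`. -/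
def IsThreeAdmissible (B c4 c6 : ℤ) : Prop :=
  (3 : ℤ) ∣ B ^ 2 - c4 ∧ (27 : ℤ) ∣ B ^ 3 - 3 * B * c4 - 2 * c6

theorem isThreeAdmissible_b₂ (W : WeierstrassCurve ℤ) : IsThreeAdmissible W.b₂ W.c₄ W.c₆ := by
  refine ⟨⟨8 * W.b₄, ?_⟩, ⟨16 * W.b₆, ?_⟩⟩ <;>
    simp only [WeierstrassCurve.c₄, WeierstrassCurve.c₆] <;> ring

theorem IsThreeAdmissible.congr {B c4 c6 c4' c6' : ℤ} (h : IsThreeAdmissible B c4 c6)
    (h4 : (27 : ℤ) ∣ c4' - c4) (h6 : (27 : ℤ) ∣ c6' - c6) : IsThreeAdmissible B c4' c6' := by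
  refine ⟨?_, ?_⟩
  · have := dvd_sub h.1 ((show (3 : ℤ) ∣ 27 by norm_num).trans h4)
    rwa [show B ^ 2 - c4' = B ^ 2 - c4 - (c4' - c4) by ring]
  · have := dvd_sub (dvd_sub h.2 (h4.mul_left (3 * B))) (h6.mul_left 2)
    rwa [show B ^ 3 - 3 * B * c4' - 2 * c6'
      = B ^ 3 - 3 * B * c4 - 2 * c6 - 3 * B * (c4' - c4) - 2 * (c6' - c6) by ring]

/-- If `c4` is prime to `m` and `m ∣ c4 ^ 3 - c6 ^ 2`, then `B = -c6 / c4` satisfies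
`B ^ 2 ≡ c4` and `B ^ 3 ≡ -c6` modulo `m`. -/
theorem exists_ratio {m c4 c6 : ℤ} (hc : IsCoprime c4 m) (h : m ∣ c4 ^ 3 - c6 ^ 2) :
    ∃ B : ℤ, m ∣ B * c4 + c6 ∧ m ∣ B ^ 2 - c4 ∧ m ∣ B ^ 3 + c6 := by
  obtain ⟨x, y, hxy⟩ := hc
  refine ⟨-c6 * x, ⟨c6 * y, by linear_combination (-c6) * hxy⟩, ?_, ?_⟩
  · obtain ⟨k, hk⟩ := h
    refine ⟨-k * x ^ 2 - c4 * y * (c4 * x + 1), ?_⟩
    linear_combination (-x ^ 2) * hk + c4 * (c4 * x + 1) * hxy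
  · obtain ⟨k, hk⟩ := h
    refine ⟨c6 * (k * x ^ 3 + y * ((c4 * x) ^ 2 + c4 * x + 1)), ?_⟩
    linear_combination (c6 * x ^ 3) * hk - c6 * ((c4 * x) ^ 2 + c4 * x + 1) * hxy

theorem isThreeAdmissible_of_not_dvd {c4 c6 : ℤ} (h : ¬ (3 : ℤ) ∣ c4)
    (hd : (27 : ℤ) ∣ c4 ^ 3 - c6 ^ 2) : ∃ B, IsThreeAdmissible B c4 c6 := by
  have hc : IsCoprime c4 (27 : ℤ) := by
    rw [show (27 : ℤ) = 3 ^ 3 by norm_num]
    exact ((Int.prime_three.coprime_iff_not_dvd).mpr h).symm.pow_right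
  obtain ⟨B, h1, h2, h3⟩ := exists_ratio hc hd
  refine ⟨B, (show (3 : ℤ) ∣ 27 by norm_num).trans h2, ?_⟩
  have := dvd_sub h3 (h1.mul_left 3)
  rwa [show B ^ 3 - 3 * B * c4 - 2 * c6 = B ^ 3 + c6 - 3 * (B * c4 + c6) + 0 by ring, add_zero]

/-- An integral model with invariants `c4`, `c6`, `Δ`. -/
theorem exists_model {c4 c6 Δ : ℤ} (hrel : c4 ^ 3 - c6 ^ 2 = 1728 * Δ) (hΔ : (2 : ℤ) ∣ Δ)
    (h4 : Odd c4) (h6 : c6 % 4 = 3) (h3 : ∃ B, IsThreeAdmissible B c4 c6) :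
    ∃ W : WeierstrassCurve ℤ, W.c₄ = c4 ∧ W.c₆ = c6 ∧ W.Δ = Δ := by
  obtain ⟨B₃, h31, h32⟩ := h3
  have hc : IsCoprime c4 (128 : ℤ) := by
    rw [show (128 : ℤ) = 2 ^ 7 by norm_num]
    refine ((Int.prime_two.coprime_iff_not_dvd).mpr ?_).symm.pow_right
    rw [Int.two_dvd_ne_zero]
    exact Int.odd_iff.mp h4
  have hd : (128 : ℤ) ∣ c4 ^ 3 - c6 ^ 2 := by
    obtain ⟨d, hd⟩ := hΔ
    exact ⟨27 * d, by linear_combination hrel + 1728 * hd⟩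
  obtain ⟨B₂, k1, k2, k3⟩ := exists_ratio hc hd
  set B := B₂ + 128 * (23 * (B₃ - B₂)) with hB
  have b2 : (128 : ℤ) ∣ B - B₂ := ⟨23 * (B₃ - B₂), by rw [hB]; ring⟩
  have b3 : (27 : ℤ) ∣ B - B₃ := ⟨109 * (B₃ - B₂), by rw [hB]; ring⟩
  have e2 : (128 : ℤ) ∣ B ^ 2 - c4 := by
    have := dvd_add k2 (b2.mul_right (B + B₂))
    rwa [show B₂ ^ 2 - c4 + (B - B₂) * (B + B₂) = B ^ 2 - c4 by ring] at this
  have e3 : (128 : ℤ) ∣ B ^ 3 - 3 * B * c4 - 2 * c6 := by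
    have := dvd_add (dvd_sub k3 (k1.mul_left 3)) (b2.mul_right (B ^ 2 + B * B₂ + B₂ ^ 2 - 3 * c4))
    rwa [show B₂ ^ 3 + c6 - 3 * (B₂ * c4 + c6) + (B - B₂) * (B ^ 2 + B * B₂ + B₂ ^ 2 - 3 * c4)
      = B ^ 3 - 3 * B * c4 - 2 * c6 by ring] at this
  have f2 : (3 : ℤ) ∣ B ^ 2 - c4 := by
    have := dvd_add h31 (((show (3 : ℤ) ∣ 27 by norm_num).trans b3).mul_right (B + B₃))
    rwa [show B₃ ^ 2 - c4 + (B - B₃) * (B + B₃) = B ^ 2 - c4 by ring] at this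
  have f3 : (27 : ℤ) ∣ B ^ 3 - 3 * B * c4 - 2 * c6 := by
    have := dvd_add h32 (b3.mul_right (B ^ 2 + B * B₃ + B₃ ^ 2 - 3 * c4))
    rwa [show B₃ ^ 3 - 3 * B₃ * c4 - 2 * c6 + (B - B₃) * (B ^ 2 + B * B₃ + B₃ ^ 2 - 3 * c4)
      = B ^ 3 - 3 * B * c4 - 2 * c6 by ring] at this
  obtain ⟨k, hk⟩ : (48 : ℤ) ∣ B ^ 2 - c4 := by omega
  obtain ⟨e, he⟩ : (1728 : ℤ) ∣ B ^ 3 - 3 * B * c4 - 2 * c6 := by omega
  obtain ⟨a, ha⟩ : ∃ a, B = 1 + 4 * a := by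
    have h8 : (128 : ℤ) ∣ B ^ 3 + c6 := by
      obtain ⟨w, hw⟩ := k3
      obtain ⟨z, hz⟩ := b2
      exact ⟨w + z * (B ^ 2 + B * B₂ + B₂ ^ 2), by
        linear_combination hw + (B ^ 2 + B * B₂ + B₂ ^ 2) * hz⟩
    have h4' : ((B : ZMod 4)) ^ 3 + (c6 : ZMod 4) = 0 := by
      have := (ZMod.intCast_zmod_eq_zero_iff_dvd _ 4).mpr ((show (4 : ℤ) ∣ 128 by norm_num).trans h8)
      push_cast at this
      exact this
    rw [show (c6 : ZMod 4) = 3 by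
      rw [← ZMod.intCast_mod c6 4]; push_cast; rw [h6]; rfl] at h4'
    have : (B : ZMod 4) = 1 := by revert h4'; generalize (B : ZMod 4) = x; revert x; decide
    rw [← Int.cast_one, ZMod.intCast_eq_intCast_iff] at this
    obtain ⟨a, ha⟩ := this.symm.dvd
    exact ⟨a, by push_cast at ha; linarith⟩
  refine ⟨⟨1, a, 0, k, e⟩, ?_, ?_, ?_⟩
  · simp only [WeierstrassCurve.c₄, WeierstrassCurve.b₂, WeierstrassCurve.b₄]
    linear_combination hk - (B + 1 + 4 * a) * ha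
  · simp only [WeierstrassCurve.c₆, WeierstrassCurve.b₂, WeierstrassCurve.b₄,
      WeierstrassCurve.b₆]
    rw [ha] at hk he
    linarith [hk, he, show (1 + 4 * a) * ((1 + 4 * a) ^ 2 - c4) = (1 + 4 * a) * (48 * k) by
      rw [hk]]
  · apply mul_left_cancel₀ (show (1728 : ℤ) ≠ 0 by norm_num)
    rw [WeierstrassCurve.c_relation, ← hrel]
    congr 2
    · simp only [WeierstrassCurve.c₄, WeierstrassCurve.b₂, WeierstrassCurve.b₄]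
      linear_combination hk - (B + 1 + 4 * a) * ha
    · simp only [WeierstrassCurve.c₆, WeierstrassCurve.b₂, WeierstrassCurve.b₄,
        WeierstrassCurve.b₆]
      rw [ha] at hk he
      linarith [hk, he, show (1 + 4 * a) * ((1 + 4 * a) ^ 2 - c4) = (1 + 4 * a) * (48 * k) by
        rw [hk]]

end Fermat.Agent.TwoAdic.Curve
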