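import Mathlib
import Fermat.Agent.TwoAdic.Curve.Forms
import Fermat.Agent.TwoAdic.Curve.Model

/-!
# Local choices of the parameter of the mod 3 family

At an odd prime of multiplicative reduction the parameter is put at the simple zero `-3 u`,
`u = -c₆ / c₄`, of the quartic (valuation one); at `2` near the same zero, with any even value of
`famD / 2 ^ 8` modulo `2 ^ 8`.
-/

set_option autoImplicit false

namespace Fermat.Agent.TwoAdic.Curve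

section Congruence

variable {m a a' b b' l l' n n' : ℤ}

theorem famD_congr (ha : m ∣ a' - a) (hb : m ∣ b' - b) (hl : m ∣ l' - l) (hn : m ∣ n' - n) :
    m ∣ famD a' b' l' n' - famD a b l n := by
  rw [← Int.modEq_iff_dvd] at *
  simp only [famD]; gcongr

theorem famDl_congr (ha : m ∣ a' - a) (hb : m ∣ b' - b) (hl : m ∣ l' - l) (hn : m ∣ n' - n) :
    m ∣ famDl a' b' l' n' - famDl a b l n := by
  rw [← Int.modEq_iff_dvd] at *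
  simp only [famDl]; gcongr

theorem famC4_congr (ha : m ∣ a' - a) (hb : m ∣ b' - b) (hl : m ∣ l' - l) (hn : m ∣ n' - n) :
    m ∣ famC4 a' b' l' n' - famC4 a b l n := by
  rw [← Int.modEq_iff_dvd] at *
  simp only [famC4]; gcongr

theorem famC6_congr (ha : m ∣ a' - a) (hb : m ∣ b' - b) (hl : m ∣ l' - l) (hn : m ∣ n' - n) :
    m ∣ famC6 a' b' l' n' - famC6 a b l n := by
  rw [← Int.modEq_iff_dvd] at *
  simp only [famC6]; gcongr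

end Congruence

/-- At an odd multiplicative prime there is a class modulo `q ^ 2` on which `famD` has valuation
exactly one and `famC4` is a unit. -/
theorem exists_simple_class {q : ℕ} (hq : q.Prime) (hq2 : q ≠ 2) {a b : ℤ}
    (hd : (q : ℤ) ∣ a ^ 3 - b ^ 2) (ha : ¬ (q : ℤ) ∣ a) :
    ∃ l₀ : ℤ, ∀ l n : ℤ, (q : ℤ) ^ 2 ∣ l - l₀ → (q : ℤ) ^ 2 ∣ n - 1 →
      (q : ℤ) ∣ famD a b l n ∧ ¬ (q : ℤ) ^ 2 ∣ famD a b l n ∧ ¬ (q : ℤ) ∣ famC4 a b l n := by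
  have hp : Prime (q : ℤ) := Nat.prime_iff_prime_int.mp hq
  obtain ⟨u, k1, k2, k3⟩ := exists_ratio ((hp.coprime_iff_not_dvd).mpr ha).symm hd
  have hu : ¬ (q : ℤ) ∣ u := fun h => ha <| by
    simpa using dvd_sub (dvd_pow h two_ne_zero) k2
  have h2 : ¬ (q : ℤ) ∣ 2 := by
    rw [show (2 : ℤ) = ((2 : ℕ) : ℤ) from rfl, Int.natCast_dvd_natCast,
      Nat.prime_dvd_prime_iff_eq hq Nat.prime_two]
    exact hq2
  have e4 : (q : ℤ) ∣ a - u ^ 2 := by rw [dvd_sub_comm]; exact k2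
  have e6 : (q : ℤ) ∣ b - -u ^ 3 := by
    rw [sub_neg_eq_add, add_comm]; exact k3
  have zero : ∀ {x : ℤ}, (q : ℤ) ∣ x - x := fun {x} => by rw [sub_self]; exact dvd_zero _
  have hD : ∀ s : ℤ, (q : ℤ) ∣ famD a b (-3 * u + q * s) 1 := fun s => by
    have := famD_congr e4 e6 (show (q : ℤ) ∣ -3 * u + q * s - -3 * u from ⟨s, by ring⟩)
      (zero (x := 1))
    rwa [show famD (u ^ 2) (-u ^ 3) (-3 * u) 1 = 0 by simp only [famD]; ring, sub_zero] at this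
  have hC : ∀ s : ℤ, ¬ (q : ℤ) ∣ famC4 a b (-3 * u + q * s) 1 := fun s h => by
    have := dvd_sub h (famC4_congr e4 e6 (show (q : ℤ) ∣ -3 * u + q * s - -3 * u from ⟨s, by ring⟩)
      (zero (x := 1)))
    rw [sub_sub_cancel, show famC4 (u ^ 2) (-u ^ 3) (-3 * u) 1 = 2 ^ 8 * u ^ 6 by
      simp only [famC4]; ring] at this
    rcases hp.dvd_mul.mp this with h | h
    · exact h2 (hp.dvd_of_dvd_pow h)
    · exact hu (hp.dvd_of_dvd_pow h)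
  have hDl : ¬ (q : ℤ) ∣ famDl a b (-3 * u) 1 := fun h => by
    have := dvd_sub h (famDl_congr e4 e6 (zero (x := -3 * u)) (zero (x := 1)))
    rw [sub_sub_cancel, show famDl (u ^ 2) (-u ^ 3) (-3 * u) 1 = -(2 ^ 6 * u ^ 3) by
      simp only [famDl]; ring, dvd_neg] at this
    rcases hp.dvd_mul.mp this with h | h
    · exact h2 (hp.dvd_of_dvd_pow h)
    · exact hu (hp.dvd_of_dvd_pow h)
  obtain ⟨s, hs⟩ : ∃ s : ℤ, ¬ (q : ℤ) ^ 2 ∣ famD a b (-3 * u + q * s) 1 := by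
    by_contra hall
    simp only [not_exists, not_not] at hall
    have h := dvd_sub (hall 1) (hall 0)
    simp only [mul_zero, add_zero, mul_one] at h
    rw [show famD a b (-3 * u + q) 1 - famD a b (-3 * u) 1 = q * famDl a b (-3 * u) 1
      + q ^ 2 * (6 * (-3 * u) ^ 2 - 6 * a + 4 * (-3 * u) * q + q ^ 2) by
        simp only [famD, famDl]; ring, dvd_add_left (dvd_mul_right _ _), sq,
      mul_dvd_mul_iff_left hp.ne_zero] at h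
    exact hDl h
  refine ⟨-3 * u + q * s, fun l n hl hn => ?_⟩
  have h := famD_congr ((sub_self a).symm ▸ dvd_zero ((q : ℤ) ^ 2))
    ((sub_self b).symm ▸ dvd_zero _) hl hn
  have h1 : (q : ℤ) ∣ (q : ℤ) ^ 2 := dvd_pow_self _ two_ne_zero
  refine ⟨(dvd_sub_left (hD s)).mp (h1.trans h), fun hh => hs ?_, fun hh => hC s ?_⟩
  · exact (dvd_sub_right hh).mp h
  · exact (dvd_sub_right hh).mp (famC4_congr zero zero (h1.trans hl) (h1.trans hn))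

/-- The values of `famD / 2 ^ 8`, `famC4 / 2 ^ 8`, `famC6 / 2 ^ 12` at the parameter `-3 u + 4 x`. -/
theorem famForms_two (u f x : ℤ) :
    famD (u ^ 2 + 128 * f) (-u * (u ^ 2 + 128 * f)) (-3 * u + 4 * x) 1
        = 2 ^ 8 * (1 * x ^ 4 - 48 * f * x ^ 2 - 192 * f ^ 2 - 3 * u * x ^ 3 + 88 * u * f * x + 3 * u ^ 2 * x ^ 2 - 42 * u ^ 2 * f - 1 * u ^ 3 * x) ∧
    famC4 (u ^ 2 + 128 * f) (-u * (u ^ 2 + 128 * f)) (-3 * u + 4 * x) 1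
        = 2 ^ 8 * (128 * f * x ^ 4 + 6144 * f ^ 2 * x ^ 2 - 24576 * f ^ 3 - 512 * u * f * x ^ 3 - 10240 * u * f ^ 2 * x + 1 * u ^ 2 * x ^ 4 + 816 * u ^ 2 * f * x ^ 2 + 3904 * u ^ 2 * f ^ 2 - 4 * u ^ 3 * x ^ 3 - 592 * u ^ 3 * f * x + 6 * u ^ 4 * x ^ 2 + 160 * u ^ 4 * f - 4 * u ^ 5 * x + 1 * u ^ 6) ∧
    famC6 (u ^ 2 + 128 * f) (-u * (u ^ 2 + 128 * f)) (-3 * u + 4 * x) 1
        = 2 ^ 12 * (24576 * f ^ 2 * x ^ 5 + 4718592 * f ^ 4 * x - 128 * u * f * x ^ 6 - 107520 * u * f ^ 2 * x ^ 4 - 122880 * u * f ^ 3 * x ^ 2 - 4128768 * u * f ^ 4 + 960 * u ^ 2 * f * x ^ 5 + 189440 * u ^ 2 * f ^ 2 * x ^ 3 + 307200 * u ^ 2 * f ^ 3 * x - 1 * u ^ 3 * x ^ 6 - 2760 * u ^ 3 * f * x ^ 4 - 169920 * u ^ 3 * f ^ 2 * x ^ 2 - 175616 * u ^ 3 * f ^ 3 + 6 * u ^ 4 * x ^ 5 + 4040 * u ^ 4 * f * x ^ 3 + 78912 * u ^ 4 * f ^ 2 * x - 15 * u ^ 5 * x ^ 4 - 3240 * u ^ 5 * f * x ^ 2 -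 15456 * u ^ 5 * f ^ 2 + 20 * u ^ 6 * x ^ 3 + 1368 * u ^ 6 * f * x - 15 * u ^ 7 * x ^ 2 - 240 * u ^ 7 * f + 6 * u ^ 8 * x - 1 * u ^ 9) := by
  simp only [famD, famC4, famC6]
  refine ⟨?_, ?_, ?_⟩ <;> ring

/-- At `2`, a class of parameters on which `famD / 2 ^ 8` has a prescribed even value modulo
`2 ^ 8` and the rescaled invariants are `c₄` odd, `c₆ ≡ 3` modulo `4`. -/
theorem exists_two_class {a b t : ℤ} (h4 : Odd a) (h6 : b % 4 = 3)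
    (hd : (128 : ℤ) ∣ a ^ 3 - b ^ 2) (ht : (2 : ℤ) ∣ t) :
    ∃ l₀ : ℤ, ∀ l n : ℤ, (2 : ℤ) ^ 16 ∣ l - l₀ → (2 : ℤ) ^ 16 ∣ n - 1 →
      ∃ g e₄ e₆ : ℤ, famD a b l n = 2 ^ 8 * g ∧ famC4 a b l n = 2 ^ 8 * e₄ ∧
        famC6 a b l n = 2 ^ 12 * e₆ ∧ (2 : ℤ) ^ 8 ∣ g - t ∧ Odd e₄ ∧ e₆ % 4 = 3 := by
  obtain ⟨z, w, hzw⟩ : IsCoprime a ((2 : ℤ) ^ 20) := by
    refine ((Int.prime_two.coprime_iff_not_dvd).mpr ?_).symm.pow_right
    rw [Int.two_dvd_ne_zero]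
    exact Int.odd_iff.mp h4
  set u : ℤ := -b * z with hu
  have hub : (2 : ℤ) ^ 20 ∣ b - -u * a := ⟨b * w, by rw [hu]; linear_combination -b * hzw⟩
  have h4' := Int.odd_iff.mp h4
  have a4 : a % 4 = 1 := by
    have e : (((a ^ 3 - b ^ 2 : ℤ)) : ZMod 4) = 0 :=
      (ZMod.intCast_zmod_eq_zero_iff_dvd _ 4).mpr ((show (4 : ℤ) ∣ 128 by norm_num).trans hd)
    push_cast at e
    rw [← ZMod.intCast_mod a 4, ← ZMod.intCast_mod b 4] at e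
    push_cast at e
    rw [h6] at e
    rcases (show a % 4 = 1 ∨ a % 4 = 3 by omega) with h | h
    · exact h
    · rw [h] at e; exact absurd e (by decide)
  have u4 : u % 4 = 1 := by
    have e : (((b - -u * a : ℤ)) : ZMod 4) = 0 :=
      (ZMod.intCast_zmod_eq_zero_iff_dvd _ 4).mpr
        ((show (4 : ℤ) ∣ 2 ^ 20 by norm_num).trans hub)
    push_cast at e
    rw [← ZMod.intCast_mod a 4, ← ZMod.intCast_mod b 4, ← ZMod.intCast_mod u 4] at e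
    push_cast at e
    rw [h6, a4] at e
    have : u % 4 = 0 ∨ u % 4 = 1 ∨ u % 4 = 2 ∨ u % 4 = 3 := by omega
    rcases this with h | h | h | h <;> rw [h] at e <;> first | exact h | exact absurd e (by decide)
  obtain ⟨f, hf⟩ : (128 : ℤ) ∣ a - u ^ 2 := by
    have h7 : (128 : ℤ) ∣ b + u * a := by
      have := (show (128 : ℤ) ∣ 2 ^ 20 by norm_num).trans hub
      rwa [neg_mul, sub_neg_eq_add] at this
    have : (128 : ℤ) ∣ a ^ 2 * (a - u ^ 2) := by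
      have := dvd_add hd (h7.mul_right (b - u * a))
      rwa [show a ^ 3 - b ^ 2 + (b + u * a) * (b - u * a) = a ^ 2 * (a - u ^ 2) by ring] at this
    refine IsCoprime.dvd_of_dvd_mul_left ?_ this
    refine IsCoprime.pow_right ?_
    rw [show (128 : ℤ) = 2 ^ 7 by norm_num]
    refine ((Int.prime_two.coprime_iff_not_dvd).mpr ?_).pow_left
    rw [Int.two_dvd_ne_zero]
    exact h4'
  let G : ℤ → ℤ := fun x => 1 * x ^ 4 - 48 * f * x ^ 2 - 192 * f ^ 2 - 3 * u * x ^ 3 + 88 * u * f * x + 3 * u ^ 2 * x ^ 2 - 42 * u ^ 2 * f - 1 * u ^ 3 * x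
  have hG : Function.Bijective fun i : Fin 128 =>
      (⟨(G (2 * (i : ℤ)) % 256 / 2).toNat, by omega⟩ : Fin 128) := by
    rw [← Finite.injective_iff_bijective]
    intro i j hij
    simp only [Fin.mk.injEq] at hij
    have geven : ∀ y : ℤ, (2 : ℤ) ∣ G (2 * y) := fun y => ⟨G (2 * y) / 2, by
      have : G (2 * y) = 2 * (8 * y ^ 4 - 96 * f * y ^ 2 - 96 * f ^ 2 - 12 * u * y ^ 3
        + 88 * u * f * y + 6 * u ^ 2 * y ^ 2 - 21 * u ^ 2 * f - u ^ 3 * y) := by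
        simp only [G]; ring
      omega⟩
    obtain ⟨c, hc⟩ : (256 : ℤ) ∣ G (2 * (i : ℤ)) - G (2 * (j : ℤ)) := by
      have := geven i
      have := geven j
      omega
    set X : ℤ := 2 * (i : ℤ) with hX
    set Y : ℤ := 2 * (j : ℤ) with hY
    have e : G X - G Y = (X - Y) * (X ^ 3 + X ^ 2 * Y + X * Y ^ 2 + Y ^ 3 - 48 * f * (X + Y)
        - 3 * u * (X ^ 2 + X * Y + Y ^ 2) + 88 * u * f + 3 * u ^ 2 * (X + Y) - u ^ 3) := by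
      simp only [G]; ring
    have hodd : IsCoprime (256 : ℤ) (X ^ 3 + X ^ 2 * Y + X * Y ^ 2 + Y ^ 3 - 48 * f * (X + Y)
        - 3 * u * (X ^ 2 + X * Y + Y ^ 2) + 88 * u * f + 3 * u ^ 2 * (X + Y) - u ^ 3) := by
      rw [show (256 : ℤ) = 2 ^ 8 by norm_num]
      refine ((Int.prime_two.coprime_iff_not_dvd).mpr fun h => ?_).pow_left
      have := (ZMod.intCast_zmod_eq_zero_iff_dvd _ 2).mpr h
      rw [hX, hY] at this
      push_cast at this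
      rw [← ZMod.intCast_mod u 2, show u % (2 : ℕ) = 1 by omega] at this
      rw [show (2 : ZMod 2) = 0 from rfl, show (48 : ZMod 2) = 0 from rfl,
        show (88 : ZMod 2) = 0 from rfl] at this
      simp at this
    have := hodd.dvd_of_dvd_mul_right ⟨c, e ▸ hc⟩
    rw [hX, hY] at this
    exact Fin.ext (by omega)
  obtain ⟨i, hi⟩ := hG.2 ⟨(t % 256 / 2).toNat, by omega⟩
  simp only [Fin.mk.injEq] at hi
  set x : ℤ := 2 * (i : ℤ) with hx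
  have hGt : (2 : ℤ) ^ 8 ∣ G x - t := by
    have : (2 : ℤ) ∣ G x := ⟨8 * (i : ℤ) ^ 4 - 96 * f * (i : ℤ) ^ 2 - 96 * f ^ 2
      - 12 * u * (i : ℤ) ^ 3 + 88 * u * f * i + 6 * u ^ 2 * (i : ℤ) ^ 2 - 21 * u ^ 2 * f
      - u ^ 3 * i, by simp only [G, hx]; ring⟩
    norm_num
    omega
  refine ⟨-3 * u + 4 * x, fun l n hl hn => ?_⟩
  obtain ⟨eD, eC4, eC6⟩ := famForms_two u f x
  have hae : a = u ^ 2 + 128 * f := by linear_combination hf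
  have hb' : (2 : ℤ) ^ 16 ∣ b - -u * (u ^ 2 + 128 * f) := by
    rw [← hae]; exact (pow_dvd_pow _ (by norm_num)).trans hub
  have ha' : (2 : ℤ) ^ 16 ∣ a - (u ^ 2 + 128 * f) := by rw [hae, sub_self]; exact dvd_zero _
  obtain ⟨r, hr⟩ := famD_congr ha' hb' hl hn
  obtain ⟨r4, hr4⟩ := famC4_congr ha' hb' hl hn
  obtain ⟨r6, hr6⟩ := famC6_congr ha' hb' hl hn
  rw [eD] at hr
  rw [eC4] at hr4
  rw [eC6] at hr6
  refine ⟨G x + 2 ^ 8 * r, (128 * f * x ^ 4 + 6144 * f ^ 2 * x ^ 2 - 24576 * f ^ 3 - 512 * u * f * x ^ 3 - 10240 * u * f ^ 2 * x + 1 * u ^ 2 * x ^ 4 + 816 * u ^ 2 * f * x ^ 2 + 3904 * u ^ 2 * f ^ 2 - 4 * u ^ 3 * x ^ 3 - 592 * u ^ 3 * f * x + 6 * u ^ 4 * x ^ 2 + 160 * u ^ 4 * f - 4 * u ^ 5 * x + 1 * u ^ 6) + 2 ^ 8 * r4, (24576 * f ^ 2 * x ^ 5 + 4718592 * f ^ 4 * x - 128 * u * f * x ^ 6 - 107520 * u * f ^ 2 * x ^ 4 - 122880 * u * f ^ 3 * x ^ 2 -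 4128768 * u * f ^ 4 + 960 * u ^ 2 * f * x ^ 5 + 189440 * u ^ 2 * f ^ 2 * x ^ 3 + 307200 * u ^ 2 * f ^ 3 * x - 1 * u ^ 3 * x ^ 6 - 2760 * u ^ 3 * f * x ^ 4 - 169920 * u ^ 3 * f ^ 2 * x ^ 2 - 175616 * u ^ 3 * f ^ 3 + 6 * u ^ 4 * x ^ 5 + 4040 * u ^ 4 * f * x ^ 3 + 78912 * u ^ 4 * f ^ 2 * x - 15 * u ^ 5 * x ^ 4 - 3240 * u ^ 5 * f * x ^ 2 - 15456 * u ^ 5 * f ^ 2 + 20 * u ^ 6 * x ^ 3 + 1368 * u ^ 6 * f * x - 15 * u ^ 7 * x ^ 2 - 240 * u ^ 7 * f + 6 * u ^ 8 * x - 1 * u ^ 9) + 2 ^ 4 * r6,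
    by simp only [G]; linear_combination hr, by linear_combination hr4,
    by linear_combination hr6, ?_, ?_, ?_⟩
  · rw [show G x + 2 ^ 8 * r - t = G x - t + 2 ^ 8 * r by ring]
    exact dvd_add hGt (dvd_mul_right _ _)
  · rw [Int.odd_iff]
    suffices h : ((((128 * f * x ^ 4 + 6144 * f ^ 2 * x ^ 2 - 24576 * f ^ 3 - 512 * u * f * x ^ 3 - 10240 * u * f ^ 2 * x + 1 * u ^ 2 * x ^ 4 + 816 * u ^ 2 * f * x ^ 2 + 3904 * u ^ 2 * f ^ 2 - 4 * u ^ 3 * x ^ 3 - 592 * u ^ 3 * f * x + 6 * u ^ 4 * x ^ 2 + 160 * u ^ 4 * f - 4 * u ^ 5 * x + 1 * u ^ 6) + 2 ^ 8 * r4 : ℤ)) : ZMod 2) = 1 by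
      rw [← ZMod.intCast_mod _ 2] at h
      rcases Int.emod_two_eq ((128 * f * x ^ 4 + 6144 * f ^ 2 * x ^ 2 - 24576 * f ^ 3 - 512 * u * f * x ^ 3 - 10240 * u * f ^ 2 * x + 1 * u ^ 2 * x ^ 4 + 816 * u ^ 2 * f * x ^ 2 + 3904 * u ^ 2 * f ^ 2 - 4 * u ^ 3 * x ^ 3 - 592 * u ^ 3 * f * x + 6 * u ^ 4 * x ^ 2 + 160 * u ^ 4 * f - 4 * u ^ 5 * x + 1 * u ^ 6) + 2 ^ 8 * r4) with h' | h'
      · rw [show (((2 : ℕ) : ℤ)) = 2 from rfl, h'] at h; simp at h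
      · exact h'
    rw [hx]
    push_cast
    rw [← ZMod.intCast_mod u 2, show u % (2 : ℕ) = 1 by omega]
    generalize (f : ZMod 2) = F
    generalize ((i : ℕ) : ZMod 2) = I
    generalize (r4 : ZMod 2) = R
    revert F I R
    decide
  · suffices h : ((((24576 * f ^ 2 * x ^ 5 + 4718592 * f ^ 4 * x - 128 * u * f * x ^ 6 - 107520 * u * f ^ 2 * x ^ 4 - 122880 * u * f ^ 3 * x ^ 2 - 4128768 * u * f ^ 4 + 960 * u ^ 2 * f * x ^ 5 + 189440 * u ^ 2 * f ^ 2 * x ^ 3 + 307200 * u ^ 2 * f ^ 3 * x - 1 * u ^ 3 * x ^ 6 - 2760 * u ^ 3 * f * x ^ 4 - 169920 * u ^ 3 * f ^ 2 * x ^ 2 - 175616 * u ^ 3 * f ^ 3 + 6 * u ^ 4 * x ^ 5 + 4040 * u ^ 4 * f * x ^ 3 + 78912 * u ^ 4 * f ^ 2 * x - 15 * u ^ 5 * x ^ 4 - 3240 * u ^ 5 * f * x ^ 2 - 15456 * u ^ 5 * f ^ 2 + 20 * u ^ 6 * x ^ 3 + 1368 * u ^ 6 * f * x - 15 * u ^ 7 * x ^ 2 - 240 * u ^ 7 * f + 6 * u ^ 8 * x - 1 * u ^ 9)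 + 2 ^ 4 * r6 : ℤ)) : ZMod 4) = ((3 : ℤ) : ZMod 4) by
      rw [ZMod.intCast_eq_intCast_iff'] at h
      simpa using h
    rw [hx]
    push_cast
    rw [← ZMod.intCast_mod u 4, show u % (4 : ℕ) = 1 by omega]
    generalize (f : ZMod 4) = F
    generalize ((i : ℕ) : ZMod 4) = I
    generalize (r6 : ZMod 4) = R
    revert F I R
    decide

end Fermat.Agent.TwoAdic.Curve
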