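import Mathlib

/-!
# Counting lemmas for the sieve of squarefree values of a binary form

* `card_le_of_sub_mem_lattice`: points of a square of side `B` lying in one coset of a lattice
  of index `q` without nonzero vectors shorter than `L`: at most `8 B² / q + B / L + 1`.
* `eventually_count_primes_le`, `eventually_sum_prime_inv_sqrt_le`: the primes up to `c B²`
  number `o(B²)`, and the sum of `p ^ (-1/2)` over them is `o(B)`.
-/

set_option autoImplicit false

namespace Fermat.Agent.TwoAdic.Curve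

open Finset

/-- A set in a square of side `B`, all differences in the lattice `{(x, y) : x ≡ ρ y mod q}`,
with every nonzero difference of sup norm at least `L`. -/
theorem card_le_of_sub_mem_lattice (S : Finset (ℤ × ℤ)) (B q : ℕ) (ρ : ℤ) (L : ℝ) (hq : 0 < q)
    (hL : 0 < L) (hbox : ∀ s ∈ S, s.1 ∈ Set.Ico 0 (B : ℤ) ∧ s.2 ∈ Set.Ico 0 (B : ℤ))
    (hlat : ∀ s ∈ S, ∀ t ∈ S, (q : ℤ) ∣ (s.1 - t.1) - ρ * (s.2 - t.2))
    (hshort : ∀ s ∈ S, ∀ t ∈ S, s ≠ t → L ≤ (max |s.1 - t.1| |s.2 - t.2| : ℤ)) :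
    (S.card : ℝ) ≤ 8 * B ^ 2 / q + B / L + 1 := by
  classical
  set R : ℝ := 8 * B ^ 2 / q + B / L + 1 with hR
  by_cases htriv : S.card ≤ 1
  · have h1 : (S.card : ℝ) ≤ 1 := by exact_mod_cast htriv
    have h0 : 0 ≤ 8 * (B : ℝ) ^ 2 / q + B / L := by positivity
    linarith
  obtain ⟨a, ha, b, hb, hab⟩ := Finset.one_lt_card.mp (not_le.mp htriv)
  set D := (S ×ˢ S).filter fun w => w.1 ≠ w.2 with hD
  have hne : D.Nonempty := ⟨(a, b), by simp [hD, ha, hb, hab]⟩
  obtain ⟨⟨u, v⟩, huv, hmin⟩ :=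
    D.exists_min_image (fun w => max |w.1.1 - w.2.1| |w.1.2 - w.2.2|) hne
  obtain ⟨⟨hu, hv⟩, hne'⟩ : (u ∈ S ∧ v ∈ S) ∧ u ≠ v := by simpa [hD] using huv
  set x := u.1 - v.1 with hx
  set y := u.2 - v.2 with hy
  set m := max |x| |y| with hm
  have hm0 : 0 < m := by
    rcases eq_or_ne x 0 with h | h
    · have : y ≠ 0 := fun h' => hne' (Prod.ext (by omega) (by omega))
      exact lt_max_of_lt_right (abs_pos.mpr this)
    · exact lt_max_of_lt_left (abs_pos.mpr h)
  have hbu := hbox u hu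
  have hbv := hbox v hv
  simp only [Set.mem_Ico] at hbu hbv
  have hmB : m ≤ B := max_le (abs_le.mpr ⟨by omega, by omega⟩) (abs_le.mpr ⟨by omega, by omega⟩)
  have hmin' : ∀ s ∈ S, ∀ t ∈ S, |s.1 - t.1| < m → |s.2 - t.2| < m → s = t := by
    intro s hs t ht h1 h2
    by_contra hst
    have := hmin (s, t) (by simp [hD, hs, ht, hst])
    simp only at this
    rcases le_max_iff.mp this with h | h <;> omega
  -- the dominant coordinate
  set w : ℤ × ℤ → ℤ := fun s => if |y| ≤ |x| then s.1 else s.2 with hw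
  set cr : ℤ × ℤ → ℤ := fun s => (s.1 - a.1) * y - (s.2 - a.2) * x with hcr
  have hdvd : ∀ s ∈ S, (q : ℤ) ∣ cr s := by
    intro s hs
    have e : cr s = ((s.1 - a.1) - ρ * (s.2 - a.2)) * y - (s.2 - a.2) * (x - ρ * y) := by
      simp only [hcr]; ring
    rw [e]
    exact dvd_sub (dvd_mul_of_dvd_left (hlat s hs a ha) _) (dvd_mul_of_dvd_right (hlat u hu v hv) _)
  set K := 2 * B * m / q with hK
  set f : ℤ × ℤ → ℤ × ℤ := fun s => (cr s / q, w s / m) with hf
  have hmaps : ∀ s ∈ S, f s ∈ Finset.Icc (-K) K ×ˢ Finset.Icc 0 ((B : ℤ) / m) := by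
    intro s hs
    obtain ⟨k, hk⟩ := hdvd s hs
    have hbs := hbox s hs
    have hba := hbox a ha
    simp only [Set.mem_Ico] at hbs hba
    have hq' : (0 : ℤ) < q := by exact_mod_cast hq
    have hcb : |cr s| ≤ 2 * B * m := by
      have e1 : |(s.1 - a.1) * y| ≤ B * m := by
        rw [abs_mul]
        exact mul_le_mul (abs_le.mpr ⟨by omega, by omega⟩) (le_max_right _ _) (abs_nonneg _)
          (by positivity)
      have e2 : |(s.2 - a.2) * x| ≤ B * m := by
        rw [abs_mul]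
        exact mul_le_mul (abs_le.mpr ⟨by omega, by omega⟩) (le_max_left _ _) (abs_nonneg _)
          (by positivity)
      have := abs_sub ((s.1 - a.1) * y) ((s.2 - a.2) * x)
      simp only [hcr]
      linarith
    have hkK : |k| ≤ K := by
      rw [hK, Int.le_ediv_iff_mul_le hq']
      rw [hk, abs_mul, abs_of_pos hq', mul_comm] at hcb
      exact hcb
    have hws : 0 ≤ w s ∧ w s ≤ B := by
      simp only [hw]; split_ifs <;> omega
    simp only [hf, hk, Int.mul_ediv_cancel_left _ hq'.ne', Finset.mem_product, Finset.mem_Icc]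
    exact ⟨abs_le.mp hkK, Int.ediv_nonneg hws.1 hm0.le, Int.ediv_le_ediv hm0 hws.2⟩
  have hinj : Set.InjOn f S := by
    intro s hs t ht hst
    simp only [hf, Prod.mk.injEq] at hst
    have hc : cr s = cr t := by
      rw [← Int.ediv_mul_cancel (hdvd s hs), ← Int.ediv_mul_cancel (hdvd t ht), hst.1]
    have hpar : (s.1 - t.1) * y = (s.2 - t.2) * x := by
      simp only [hcr] at hc
      linear_combination hc
    have hwlt : |w s - w t| < m := by
      have e1 := Int.emod_add_mul_ediv (w s) m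
      have e2 := Int.emod_add_mul_ediv (w t) m
      have n1 := Int.emod_nonneg (w s) hm0.ne'
      have n2 := Int.emod_nonneg (w t) hm0.ne'
      have l1 := Int.emod_lt_of_pos (w s) hm0
      have l2 := Int.emod_lt_of_pos (w t) hm0
      rw [hst.2] at e1
      exact abs_lt.mpr ⟨by linarith, by linarith⟩
    by_cases hxy : |y| ≤ |x|
    · have hmx : m = |x| := max_eq_left hxy
      simp only [hw, if_pos hxy] at hwlt
      refine hmin' s hs t ht hwlt ?_
      by_contra hcon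
      have e : |s.1 - t.1| * |y| = |s.2 - t.2| * m := by
        rw [hmx, ← abs_mul, ← abs_mul, hpar]
      nlinarith [abs_nonneg (s.1 - t.1), abs_nonneg y, not_lt.mp hcon]
    · have hmy : m = |y| := max_eq_right (not_le.mp hxy).le
      simp only [hw, if_neg hxy] at hwlt
      refine hmin' s hs t ht ?_ hwlt
      by_contra hcon
      have e : |s.1 - t.1| * m = |s.2 - t.2| * |x| := by
        rw [hmy, ← abs_mul, ← abs_mul, hpar]
      nlinarith [abs_nonneg (s.2 - t.2), abs_nonneg x, not_lt.mp hcon, le_max_left |x| |y|]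
  have hcard := Finset.card_le_card_of_injOn f hmaps hinj
  have hK0 : 0 ≤ K := Int.ediv_nonneg (by positivity) (by positivity)
  have hB0 : 0 ≤ (B : ℤ) / m := Int.ediv_nonneg (by positivity) hm0.le
  have hcard' : (S.card : ℤ) ≤ (2 * K + 1) * ((B : ℤ) / m + 1) := by
    calc (S.card : ℤ) ≤ ((Finset.Icc (-K) K ×ˢ Finset.Icc 0 ((B : ℤ) / m)).card : ℤ) := by
          exact_mod_cast hcard
      _ = _ := by
          rw [Finset.card_product, Nat.cast_mul, Int.card_Icc, Int.card_Icc,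
            Int.toNat_of_nonneg (by omega), Int.toNat_of_nonneg (by omega)]
          ring
  have hm1 : (0 : ℝ) < (m : ℝ) := by exact_mod_cast hm0
  have hqR : (0 : ℝ) < q := by exact_mod_cast hq
  have hKR : (K : ℝ) ≤ 2 * B * m / q := by
    rw [le_div_iff₀ hqR]
    exact_mod_cast Int.ediv_mul_le (2 * B * m) (by omega : (q : ℤ) ≠ 0)
  have hBR : (((B : ℤ) / m : ℤ) : ℝ) ≤ B / m := by
    rw [le_div_iff₀ hm1]
    exact_mod_cast Int.ediv_mul_le (B : ℤ) hm0.ne'
  have hL' : L ≤ (m : ℝ) := hshort u hu v hv hne'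
  have hmBR : (m : ℝ) ≤ B := by exact_mod_cast hmB
  calc (S.card : ℝ) ≤ (2 * (K : ℝ) + 1) * ((((B : ℤ) / m : ℤ) : ℝ) + 1) := by exact_mod_cast hcard'
    _ ≤ (2 * (2 * B * m / q) + 1) * (B / m + 1) := by
        apply mul_le_mul (by linarith) (by linarith) _ (by positivity)
        exact_mod_cast (by omega : (0 : ℤ) ≤ (B : ℤ) / m + 1)
    _ = 4 * B ^ 2 / q + 4 * B * m / q + B / m + 1 := by
        field_simp
        ring
    _ ≤ R := by
        have e1 : 4 * (B : ℝ) * m / q ≤ 4 * B * B / q := by gcongr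
        have e2 : (B : ℝ) / m ≤ B / L := by gcongr
        rw [hR, show (8 * (B : ℝ) ^ 2 / q) = 4 * B ^ 2 / q + 4 * B * B / q by ring]
        linarith

/-- An interval of length `B` contains at most `B / p + 1` numbers in a given class mod `p`. -/
theorem card_le_of_dvd_sub (S : Finset ℤ) (B p : ℕ) (hp : 0 < p)
    (hbox : ∀ s ∈ S, s ∈ Set.Ico 0 (B : ℤ)) (hd : ∀ s ∈ S, ∀ t ∈ S, (p : ℤ) ∣ s - t) :
    (S.card : ℝ) ≤ B / p + 1 := by
  have hp' : (0 : ℤ) < p := by exact_mod_cast hp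
  have hinj : Set.InjOn (fun s : ℤ => s / (p : ℤ)) S := by
    intro s hs t ht hst
    simp only at hst
    have e1 := Int.emod_add_mul_ediv s p
    have e2 := Int.emod_add_mul_ediv t p
    have e3 : s % (p : ℤ) = t % p := (Int.emod_eq_emod_iff_emod_sub_eq_zero).mpr
      (Int.emod_eq_zero_of_dvd (hd s hs t ht))
    rw [hst, e3] at e1
    linarith
  have hmaps : ∀ s ∈ S, s / (p : ℤ) ∈ Finset.Icc (0 : ℤ) ((B / p : ℕ) : ℤ) := by
    intro s hs
    have h := hbox s hs
    simp only [Set.mem_Ico] at h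
    rw [Finset.mem_Icc, Int.natCast_div]
    exact ⟨Int.ediv_nonneg h.1 hp'.le, Int.ediv_le_ediv hp' h.2.le⟩
  have hcard := Finset.card_le_card_of_injOn _ hmaps hinj
  rw [Int.card_Icc] at hcard
  have e : (((B / p : ℕ) : ℤ) + 1 - 0).toNat = B / p + 1 := by
    rw [sub_zero, ← Nat.cast_succ, Int.toNat_natCast]
  have h : S.card ≤ B / p + 1 := hcard.trans e.le
  calc (S.card : ℝ) ≤ ((B / p + 1 : ℕ) : ℝ) := by exact_mod_cast h
    _ ≤ B / p + 1 := by push_cast; linarith [Nat.cast_div_le (α := ℝ) (m := B) (n := p)]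

/-- The number of primes up to `x` is `o(x)`. -/
theorem eventually_primeCounting_le_mul {ε : ℝ} (hε : 0 < ε) :
    ∀ᶠ x : ℝ in Filter.atTop, (Nat.primeCounting ⌊x⌋₊ : ℝ) ≤ ε * x := by
  have h := Chebyshev.eventually_primeCounting_le (ε := 1) one_pos
  have hlog : ∀ᶠ x : ℝ in Filter.atTop, (Real.log 4 + 1) / ε ≤ Real.log x :=
    Real.tendsto_log_atTop.eventually_ge_atTop _
  filter_upwards [h, hlog, Filter.eventually_gt_atTop 1] with x hx hx2 hx1
  have hl : 0 < Real.log x := Real.log_pos hx1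
  refine hx.trans ?_
  rw [div_le_iff₀ hl]
  rw [div_le_iff₀ hε] at hx2
  nlinarith

theorem sum_Icc_inv_sqrt_le (m : ℕ) :
    ∑ k ∈ Finset.Icc 1 m, (Real.sqrt k)⁻¹ ≤ 2 * Real.sqrt m := by
  induction m with
  | zero => simp
  | succ m ih =>
    rw [Finset.sum_Icc_succ_top (by omega)]
    have h1 : (0 : ℝ) < Real.sqrt (m + 1 : ℕ) := Real.sqrt_pos.mpr (by positivity)
    have e1 := Real.sq_sqrt (show (0 : ℝ) ≤ ((m + 1 : ℕ) : ℝ) by positivity)
    have e2 := Real.sq_sqrt (show (0 : ℝ) ≤ (m : ℝ) by positivity)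
    have key : (Real.sqrt (m + 1 : ℕ))⁻¹ ≤ 2 * Real.sqrt (m + 1 : ℕ) - 2 * Real.sqrt m := by
      rw [inv_eq_one_div, div_le_iff₀ h1]
      push_cast at e1 ⊢
      nlinarith [sq_nonneg (Real.sqrt ((m : ℝ) + 1) - Real.sqrt m)]
    linarith

/-- The primes up to `P` number `o(B²)` when `P = O(B²)`. -/
theorem eventually_count_primes_le {c η : ℝ} (hc : 0 < c) (hη : 0 < η) :
    ∀ᶠ B : ℕ in Filter.atTop, ∀ F : Finset ℕ,
      (∀ p ∈ F, p.Prime ∧ (p : ℝ) ≤ c * B ^ 2) → (F.card : ℝ) ≤ η * B ^ 2 := by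
  have h := eventually_primeCounting_le_mul (ε := η / c) (div_pos hη hc)
  have ht : Filter.Tendsto (fun B : ℕ => c * (B : ℝ) ^ 2) Filter.atTop Filter.atTop :=
    ((Filter.tendsto_pow_atTop two_ne_zero).comp tendsto_natCast_atTop_atTop).const_mul_atTop hc
  filter_upwards [ht.eventually h] with B hB F hF
  have hsub : F ⊆ (Finset.range (⌊c * (B : ℝ) ^ 2⌋₊ + 1)).filter Nat.Prime := by
    intro p hp
    rw [Finset.mem_filter, Finset.mem_range, Nat.lt_succ_iff]
    exact ⟨Nat.le_floor (hF p hp).2, (hF p hp).1⟩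
  have hcard := Finset.card_le_card hsub
  have e : ((Finset.range (⌊c * (B : ℝ) ^ 2⌋₊ + 1)).filter Nat.Prime).card
      = Nat.primeCounting ⌊c * (B : ℝ) ^ 2⌋₊ := by
    rw [Nat.primeCounting, Nat.primeCounting', Nat.count_eq_card_filter_range]
  rw [e] at hcard
  calc (F.card : ℝ) ≤ (Nat.primeCounting ⌊c * (B : ℝ) ^ 2⌋₊ : ℝ) := by exact_mod_cast hcard
    _ ≤ η / c * (c * (B : ℝ) ^ 2) := hB
    _ = η * B ^ 2 := by field_simp

/-- The sum of `p ^ (-1/2)` over the primes up to `O(B²)` is `o(B)`. -/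
theorem eventually_sum_prime_inv_sqrt_le {c η : ℝ} (hc : 0 < c) (hη : 0 < η) :
    ∀ᶠ B : ℕ in Filter.atTop, ∀ F : Finset ℕ,
      (∀ p ∈ F, p.Prime ∧ (p : ℝ) ≤ c * B ^ 2) →
      ∑ p ∈ F, (Real.sqrt p)⁻¹ ≤ η * B := by
  set δ := η / 4 with hδ
  have hδ0 : 0 < δ := by positivity
  filter_upwards [eventually_count_primes_le (η := η / 2 * δ) hc (by positivity),
    Filter.eventually_gt_atTop 0] with B hB hB0 F hF
  have hB' : (0 : ℝ) < B := by exact_mod_cast hB0
  rw [← Finset.sum_filter_add_sum_filter_not F (fun p : ℕ => (p : ℝ) ≤ (δ * B) ^ 2)]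
  have h1 : ∑ p ∈ F.filter (fun p : ℕ => (p : ℝ) ≤ (δ * B) ^ 2), (Real.sqrt p)⁻¹ ≤ 2 * (δ * B) := by
    calc _ ≤ ∑ k ∈ Finset.Icc 1 ⌊(δ * B) ^ 2⌋₊, (Real.sqrt k)⁻¹ := by
          apply Finset.sum_le_sum_of_subset_of_nonneg
          · intro p hp
            rw [Finset.mem_filter] at hp
            rw [Finset.mem_Icc]
            exact ⟨(hF p hp.1).1.one_le, Nat.le_floor hp.2⟩
          · intro k _ _
            positivity
      _ ≤ 2 * Real.sqrt (⌊(δ * B) ^ 2⌋₊ : ℕ) := sum_Icc_inv_sqrt_le _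
      _ ≤ 2 * (δ * B) := by
          gcongr
          rw [Real.sqrt_le_left (by positivity)]
          exact Nat.floor_le (by positivity)
  have h2 : ∑ p ∈ F.filter (fun p : ℕ => ¬ (p : ℝ) ≤ (δ * B) ^ 2), (Real.sqrt p)⁻¹
      ≤ η / 2 * B := by
    calc _ ≤ ∑ _p ∈ F.filter (fun p : ℕ => ¬ (p : ℝ) ≤ (δ * B) ^ 2), (δ * B)⁻¹ := by
          apply Finset.sum_le_sum
          intro p hp
          rw [Finset.mem_filter, not_le] at hp
          apply inv_anti₀ (by positivity)
          exact (Real.lt_sqrt (by positivity)).mpr hp.2 |>.le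
      _ = ((F.filter (fun p : ℕ => ¬ (p : ℝ) ≤ (δ * B) ^ 2)).card : ℝ) * (δ * B)⁻¹ := by
          rw [Finset.sum_const, nsmul_eq_mul]
      _ ≤ η / 2 * δ * B ^ 2 * (δ * B)⁻¹ := by
          gcongr
          exact hB _ fun p hp => hF p (Finset.mem_of_mem_filter p hp)
      _ = η / 2 * B := by field_simp
  have : 2 * (δ * B) + η / 2 * B = η * B := by rw [hδ]; ring
  linarith

end Fermat.Agent.TwoAdic.Curve
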