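import Fermat.Agent.TwoAdic.Curve.Forms
import Fermat.Agent.TwoAdic.Curve.SieveCount

/-!
# Squarefree values of the quartic of the mod 3 family

`exists_squarefree_famD`: for a residue class mod `M` (divisible by the primes of
`6 (a³ - b²)`) and a sign attained by the quartic, there is an integral point of the class with
that sign whose value is divisible by the square of no prime prime to `M`.

The proof is elementary: in a square of side `B` the points with `p ^ 2 ∣ famD` and `p` large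
lie in at most five lattices for each `p`, none of which has a short vector, as `famD` has no
rational zero.
-/

set_option autoImplicit false

namespace Fermat.Agent.TwoAdic.Curve

open Finset

theorem famD_taylor {R : Type*} [CommRing R] (a b r d : R) :
    famD a b (r + d) 1 = famD a b r 1 + d * famDl a b r 1
      + d ^ 2 * (6 * r ^ 2 - 6 * a + 4 * r * d + d ^ 2) := by
  simp only [famD, famDl]; ring

theorem dvd_famD_iff_of_dvd_sub {a b l l' n : ℤ} {q : ℤ} (h : q ∣ l - l') :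
    q ∣ famD a b l n ↔ q ∣ famD a b l' n := by
  have e : famD a b l n - famD a b l' n = (l - l') * ((l + l') * (l ^ 2 + l' ^ 2)
      - 6 * a * n ^ 2 * (l + l') - 8 * b * n ^ 3) := by
    simp only [famD]; ring
  exact dvd_iff_dvd_of_dvd_sub (e ▸ dvd_mul_of_dvd_left h _)

theorem famD_ne_zero_of_ne_zero {a b : ℤ} (hroot : ∀ l n : ℤ, n ≠ 0 → famD a b l n ≠ 0) {l n : ℤ}
    (h : l ≠ 0 ∨ n ≠ 0) : famD a b l n ≠ 0 := by
  by_cases hn : n = 0
  · subst hn
    simpa [famD] using (h.resolve_right (by simp))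
  · exact hroot l n hn

theorem abs_famD_le (a b l n : ℝ) :
    |famD a b l n| ≤ (1 + 6 * |a| + 8 * |b| + 3 * a ^ 2) * (max |l| |n|) ^ 4 := by
  set m := max |l| |n| with hm
  have hl : |l| ≤ m := le_max_left _ _
  have hn : |n| ≤ m := le_max_right _ _
  have hm0 : 0 ≤ m := (abs_nonneg l).trans hl
  have t1 : |l ^ 4| ≤ m ^ 4 := by rw [abs_pow]; gcongr
  have t2 : |6 * a * l ^ 2 * n ^ 2| ≤ 6 * |a| * m ^ 4 := by
    rw [abs_mul, abs_mul, abs_mul, abs_pow, abs_pow, abs_of_pos (by norm_num : (0 : ℝ) < 6)]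
    calc 6 * |a| * |l| ^ 2 * |n| ^ 2 ≤ 6 * |a| * m ^ 2 * m ^ 2 := by gcongr
      _ = _ := by ring
  have t3 : |8 * b * l * n ^ 3| ≤ 8 * |b| * m ^ 4 := by
    rw [abs_mul, abs_mul, abs_mul, abs_pow, abs_of_pos (by norm_num : (0 : ℝ) < 8)]
    calc 8 * |b| * |l| * |n| ^ 3 ≤ 8 * |b| * m * m ^ 3 := by gcongr
      _ = _ := by ring
  have t4 : |3 * a ^ 2 * n ^ 4| ≤ 3 * a ^ 2 * m ^ 4 := by
    rw [abs_mul, abs_mul, abs_of_pos (by norm_num : (0 : ℝ) < 3), abs_pow n,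
      abs_of_nonneg (sq_nonneg a)]
    gcongr
  simp only [famD]
  rw [abs_le]
  obtain ⟨p1, q1⟩ := abs_le.mp t1
  obtain ⟨p2, q2⟩ := abs_le.mp t2
  obtain ⟨p3, q3⟩ := abs_le.mp t3
  obtain ⟨p4, q4⟩ := abs_le.mp t4
  constructor <;> linarith

/-- The roots of the dehomogenised quartic modulo `p ^ 2`, as natural numbers below `p ^ 2`. -/
def famDRoots (a b : ℤ) (p : ℕ) : Finset ℕ :=
  (Finset.range (p ^ 2)).filter fun r => (p : ℤ) ^ 2 ∣ famD a b (r : ℤ) 1

theorem not_dvd_famDl {a b : ℤ} {p : ℕ} (hp : p.Prime) (hgood : ¬ (p : ℤ) ∣ 6 * (a ^ 3 - b ^ 2))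
    {r : ℤ} (hr : (p : ℤ) ∣ famD a b r 1) : ¬ (p : ℤ) ∣ famDl a b r 1 := by
  intro hl
  have : Fact p.Prime := ⟨hp⟩
  have h6 : ((6 * (a ^ 3 - b ^ 2) : ℤ) : ZMod p) ≠ 0 := by
    rwa [Ne, ZMod.intCast_zmod_eq_zero_iff_dvd]
  push_cast at h6
  obtain ⟨h6, hab⟩ := mul_ne_zero_iff.mp h6
  have h2 : (2 : ZMod p) ≠ 0 := fun h => h6 (by rw [show (6 : ZMod p) = 2 * 3 by norm_num, h, zero_mul])
  have h3 : (3 : ZMod p) ≠ 0 := fun h => h6 (by rw [show (6 : ZMod p) = 2 * 3 by norm_num, h, mul_zero])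
  have eD := (ZMod.intCast_zmod_eq_zero_iff_dvd _ p).mpr hr
  have eL := (ZMod.intCast_zmod_eq_zero_iff_dvd _ p).mpr hl
  rw [show ((famD a b r 1 : ℤ) : ZMod p) = famD (a : ZMod p) b r 1 by
    simpa using map_famD (Int.castRingHom (ZMod p)) a b r 1] at eD
  rw [show ((famDl a b r 1 : ℤ) : ZMod p) = famDl (a : ZMod p) b r 1 by
    simpa using map_famDl (Int.castRingHom (ZMod p)) a b r 1] at eL
  exact hab (sub_eq_zero.mpr (eq_of_famD_famDl h2 h3 one_ne_zero eD eL))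

open Polynomial in
theorem card_famDRoots_le {a b : ℤ} {p : ℕ} (hp : p.Prime)
    (hgood : ¬ (p : ℤ) ∣ 6 * (a ^ 3 - b ^ 2)) : (famDRoots a b p).card ≤ 4 := by
  classical
  have : Fact p.Prime := ⟨hp⟩
  set P : (ZMod p)[X] := X ^ 4 - C (6 * (a : ZMod p)) * X ^ 2 - C (8 * (b : ZMod p)) * X
    - C (3 * (a : ZMod p) ^ 2) with hP
  have hdeg : P.natDegree = 4 := by rw [hP]; compute_degree!
  have hP0 : P ≠ 0 := ne_zero_of_natDegree_gt (n := 0) (by omega)
  have hmaps : ∀ r ∈ famDRoots a b p, (r : ZMod p) ∈ P.roots.toFinset := by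
    intro r hr
    obtain ⟨-, hr⟩ := Finset.mem_filter.mp hr
    rw [Multiset.mem_toFinset, mem_roots hP0, IsRoot.def]
    have e := (ZMod.intCast_zmod_eq_zero_iff_dvd _ p).mpr ((dvd_pow_self _ two_ne_zero).trans hr)
    rw [show ((famD a b (r : ℤ) 1 : ℤ) : ZMod p) = famD (a : ZMod p) b r 1 by
      simpa using map_famD (Int.castRingHom (ZMod p)) a b r 1] at e
    rw [← e, hP]
    simp only [famD, eval_sub, eval_mul, eval_pow, eval_X, eval_C]
    ring
  have hinj : Set.InjOn (fun r : ℕ => (r : ZMod p)) (famDRoots a b p) := by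
    intro r hr s hs hrs
    simp only [Finset.mem_coe, famDRoots, Finset.mem_filter, Finset.mem_range] at hr hs
    obtain ⟨k, hk⟩ : (p : ℤ) ∣ (s : ℤ) - r := by
      rw [← ZMod.intCast_zmod_eq_zero_iff_dvd]
      push_cast
      simp only at hrs
      rw [hrs, sub_self]
    have e := famD_taylor a b (r : ℤ) (p * k)
    rw [show (r : ℤ) + p * k = s by omega] at e
    have h1 : (p : ℤ) ^ 2 ∣ p * k * famDl a b r 1 := by
      have e' : (p : ℤ) * k * famDl a b r 1 = famD a b s 1 - famD a b r 1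
          - (p : ℤ) ^ 2 * (k ^ 2 * (6 * (r : ℤ) ^ 2 - 6 * a + 4 * r * (p * k) + (p * k) ^ 2)) := by
        rw [e]; ring
      rw [e']
      exact dvd_sub (dvd_sub hs.2 hr.2) (dvd_mul_right _ _)
    rw [sq, mul_assoc, mul_dvd_mul_iff_left (by exact_mod_cast hp.ne_zero)] at h1
    obtain ⟨j, hj⟩ := ((Nat.prime_iff_prime_int.mp hp).dvd_or_dvd h1).resolve_right
      (not_dvd_famDl hp hgood ((dvd_pow_self _ two_ne_zero).trans hr.2))
    have h2 : ((p ^ 2 : ℕ) : ℤ) ∣ (s : ℤ) - r := ⟨j, by rw [hk, hj]; push_cast; ring⟩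
    exact Nat.ModEq.eq_of_lt_of_lt ((Nat.modEq_iff_dvd).mpr h2) hr.1 hs.1
  calc (famDRoots a b p).card ≤ P.roots.toFinset.card :=
        Finset.card_le_card_of_injOn _ hmaps hinj
    _ ≤ Multiset.card P.roots := P.roots.toFinset_card_le
    _ ≤ 4 := hdeg ▸ P.card_roots'

theorem sq_dvd_famD_cases {a b : ℤ} {p : ℕ} (hp : p.Prime) {l n : ℤ}
    (h : (p : ℤ) ^ 2 ∣ famD a b l n) :
    ((p : ℤ) ∣ l ∧ (p : ℤ) ∣ n) ∨ ∃ r ∈ famDRoots a b p, (p : ℤ) ^ 2 ∣ l - r * n := by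
  have hp' := Nat.prime_iff_prime_int.mp hp
  by_cases hn : (p : ℤ) ∣ n
  · refine Or.inl ⟨hp'.dvd_of_dvd_pow (n := 4) ?_, hn⟩
    have e : l ^ 4 = famD a b l n
        + n * (6 * a * l ^ 2 * n + 8 * b * l * n ^ 2 + 3 * a ^ 2 * n ^ 3) := by
      simp only [famD]; ring
    rw [e]
    exact dvd_add ((dvd_pow_self _ two_ne_zero).trans h) (dvd_mul_of_dvd_left hn _)
  · right
    have hco : IsCoprime n ((p : ℤ) ^ 2) :=
      ((Prime.coprime_iff_not_dvd hp').mpr hn).symm.pow_right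
    obtain ⟨u, v, huv⟩ := hco
    have hpos : (0 : ℤ) < (p : ℤ) ^ 2 := by positivity [hp.pos]
    set r : ℤ := (l * u) % (p : ℤ) ^ 2 with hr
    have hr0 : 0 ≤ r := Int.emod_nonneg _ hpos.ne'
    have hrlt : r < (p : ℤ) ^ 2 := Int.emod_lt_of_pos _ hpos
    have hd : (p : ℤ) ^ 2 ∣ l - r * n := by
      refine ⟨l * v + (l * u) / (p : ℤ) ^ 2 * n, ?_⟩
      have e := Int.emod_add_mul_ediv (l * u) ((p : ℤ) ^ 2)
      rw [← hr] at e
      linear_combination (-(n : ℤ)) * e - l * huv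
    have hD : (p : ℤ) ^ 2 ∣ famD a b r 1 := by
      have h1 := (dvd_famD_iff_of_dvd_sub hd).mp h
      rw [show famD a b (r * n) n = famD a b (n * r) (n * 1) by rw [mul_comm r n, mul_one],
        famD_smul] at h1
      exact ((IsCoprime.pow_right ((Prime.coprime_iff_not_dvd hp').mpr hn).symm).pow_left
        (m := 4)).symm.dvd_of_dvd_mul_left h1
    refine ⟨r.toNat, Finset.mem_filter.mpr ⟨Finset.mem_range.mpr ?_, ?_⟩, ?_⟩
    · have : ((r.toNat : ℕ) : ℤ) < ((p ^ 2 : ℕ) : ℤ) := by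
        push_cast; rwa [Int.toNat_of_nonneg hr0]
      exact_mod_cast this
    · rwa [Int.toNat_of_nonneg hr0]
    · rwa [Int.toNat_of_nonneg hr0]

theorem exists_cone {a b : ℤ} {ε : ℤ} (hcone : ∃ x y : ℤ, 0 < ε * famD a b x y) :
    ∃ X Y : ℤ, ∀ s t : ℝ, |s| ≤ 2 → |t| ≤ 2 →
      0 < (ε : ℝ) * famD (a : ℝ) b ((X : ℝ) + s) ((Y : ℝ) + t) := by
  obtain ⟨x, y, hxy⟩ := hcone
  set g : ℝ × ℝ → ℝ := fun w => (ε : ℝ) * famD (a : ℝ) b w.1 w.2 with hg
  have hcont : Continuous g := by simp only [hg, famD]; fun_prop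
  have h0 : 0 < g ((x : ℝ), (y : ℝ)) := by
    have e := map_famD (Int.castRingHom ℝ) a b x y
    simp only [eq_intCast] at e
    simp only [hg]
    rw [← e]
    exact_mod_cast hxy
  obtain ⟨δ, hδ, hball⟩ := Metric.mem_nhds_iff.mp
    ((isOpen_Ioi.preimage hcont).mem_nhds (show ((x : ℝ), (y : ℝ)) ∈ g ⁻¹' Set.Ioi 0 from h0))
  obtain ⟨N, hN⟩ := exists_nat_gt (2 / δ)
  have hN0 : (0 : ℝ) < N := lt_trans (by positivity) hN
  refine ⟨N * x, N * y, fun s t hs ht => ?_⟩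
  have key : ∀ u : ℝ, |u| ≤ 2 → |u / N| < δ := fun u hu => by
    rw [abs_div, abs_of_pos hN0, div_lt_iff₀ hN0]
    calc |u| ≤ 2 := hu
      _ = 2 / δ * δ := by field_simp
      _ < N * δ := by gcongr
      _ = δ * N := by ring
  have hmem : ((x : ℝ) + s / N, (y : ℝ) + t / N) ∈ Metric.ball ((x : ℝ), (y : ℝ)) δ := by
    rw [Metric.mem_ball, Prod.dist_eq, max_lt_iff, Real.dist_eq, Real.dist_eq]
    simp only [add_sub_cancel_left]
    exact ⟨key s hs, key t ht⟩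
  have h1 : 0 < g ((x : ℝ) + s / N, (y : ℝ) + t / N) := hball hmem
  simp only [hg] at h1
  rw [show ((N * x : ℤ) : ℝ) + s = (N : ℝ) * ((x : ℝ) + s / N) by push_cast; field_simp,
    show ((N * y : ℤ) : ℝ) + t = (N : ℝ) * ((y : ℝ) + t / N) by push_cast; field_simp, famD_smul,
    mul_left_comm]
  positivity

theorem exists_squarefree_famD (a b : ℤ) (hroot : ∀ l n : ℤ, n ≠ 0 → famD a b l n ≠ 0) (M : ℕ)
    (hM : 0 < M) (hbad : ∀ p : ℕ, p.Prime → (p : ℤ) ∣ 6 * (a ^ 3 - b ^ 2) → p ∣ M) (l0 n0 : ℤ)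
    (ε : ℤ) (hcone : ∃ x y : ℤ, 0 < ε * famD a b x y) :
    ∃ l n : ℤ, (M : ℤ) ∣ l - l0 ∧ (M : ℤ) ∣ n - n0 ∧ 0 < ε * famD a b l n ∧
      ∀ p : ℕ, p.Prime → ¬ p ∣ M → ¬ ((p : ℤ) ^ 2 ∣ famD a b l n) := by
  classical
  -- the small primes
  set Q := ∏ p ∈ (Finset.range 201).filter (fun p => p.Prime ∧ ¬ p ∣ M), p with hQ
  have hQ0 : 0 < Q := Finset.prod_pos fun p hp => (Finset.mem_filter.mp hp).2.1.pos
  have hMQ : Nat.Coprime M Q := Nat.Coprime.prod_right fun p hp =>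
    ((Finset.mem_filter.mp hp).2.1.coprime_iff_not_dvd.mpr (Finset.mem_filter.mp hp).2.2).symm
  obtain ⟨u, v, huv⟩ := Int.isCoprime_iff_gcd_eq_one.mpr
    (show Int.gcd (M : ℤ) (Q : ℤ) = 1 by simpa [Int.gcd_natCast_natCast] using hMQ)
  set l1 := l0 * (v * Q) + u * M with hl1
  set n1 := n0 * (v * Q) with hn1
  set M1 := M * Q with hM1
  have hM10 : 0 < M1 := Nat.mul_pos hM hQ0
  have hlarge : ∀ p : ℕ, p.Prime → ¬ p ∣ M1 → 200 < p := by
    intro p hp h
    by_contra hle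
    apply h
    exact Dvd.dvd.mul_left (Finset.dvd_prod_of_mem _ (Finset.mem_filter.mpr
      ⟨Finset.mem_range.mpr (by omega), hp, fun h' => h (h'.mul_right Q)⟩)) M
  -- the box
  obtain ⟨X, Y, hXY⟩ := exists_cone hcone
  set K : ℝ := |(X : ℝ)| + |(Y : ℝ)| + 2 with hK
  set Cd : ℝ := 1 + 6 * |(a : ℝ)| + 8 * |(b : ℝ)| + 3 * (a : ℝ) ^ 2 with hCd
  have hCd1 : 1 ≤ Cd := by
    have h1 : 0 ≤ 6 * |(a : ℝ)| + 8 * |(b : ℝ)| + 3 * (a : ℝ) ^ 2 := by positivity
    linarith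
  set κ : ℝ := Cd * ((M1 : ℝ) * K) ^ 2 with hκ
  have hκ0 : 0 < κ := by positivity
  obtain ⟨B, ⟨hπ, hsq⟩, hBl, hBn, hB0⟩ :=
    ((Filter.Eventually.and (eventually_count_primes_le (η := 1 / 48) hκ0 (by norm_num))
      (eventually_sum_prime_inv_sqrt_le (η := 1 / (32 * Cd)) hκ0 (by positivity))).and
      ((Filter.eventually_ge_atTop l1.natAbs).and ((Filter.eventually_ge_atTop n1.natAbs).and
        (Filter.eventually_gt_atTop 0)))).exists
  have hBR : (0 : ℝ) < B := by exact_mod_cast hB0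
  set L : ℤ → ℤ := fun i => l1 + M1 * (X * B + i) with hL
  set N : ℤ → ℤ := fun j => n1 + M1 * (Y * B + j) with hN
  set G := Finset.Ico (0 : ℤ) B ×ˢ Finset.Ico (0 : ℤ) B with hG
  have hscale : ∀ w ∈ G, ∃ s t : ℝ, |s| ≤ 2 ∧ |t| ≤ 2 ∧
      (L w.1 : ℝ) = (M1 : ℝ) * B * ((X : ℝ) + s) ∧ (N w.2 : ℝ) = (M1 : ℝ) * B * ((Y : ℝ) + t) := by
    intro w hw
    simp only [hG, Finset.mem_product, Finset.mem_Ico] at hw
    have key : ∀ (c i : ℤ), c.natAbs ≤ B → 0 ≤ i → i < B →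
        |((c : ℝ) / (M1 * B) + (i : ℝ) / B)| ≤ 2 := by
      intro c i hc hi hi'
      have e1 : |(c : ℝ) / (M1 * B)| ≤ 1 := by
        rw [abs_div, abs_of_pos (show (0 : ℝ) < M1 * B by positivity), div_le_one (by positivity)]
        calc |(c : ℝ)| = (c.natAbs : ℝ) := by rw [Nat.cast_natAbs, Int.cast_abs]
          _ ≤ (B : ℝ) := by exact_mod_cast hc
          _ ≤ M1 * B := le_mul_of_one_le_left hBR.le (by exact_mod_cast hM10)
      have e2 : |(i : ℝ) / B| ≤ 1 := by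
        rw [abs_div, abs_of_pos hBR, div_le_one hBR, abs_of_nonneg (by exact_mod_cast hi)]
        exact_mod_cast hi'.le
      linarith [abs_add_le ((c : ℝ) / (M1 * B)) ((i : ℝ) / B)]
    refine ⟨_, _, key l1 w.1 hBl hw.1.1 hw.1.2, key n1 w.2 hBn hw.2.1 hw.2.2, ?_, ?_⟩ <;>
      (simp only [hL, hN]; push_cast; field_simp; ring)
  have hpos : ∀ w ∈ G, 0 < ε * famD a b (L w.1) (N w.2) := by
    intro w hw
    obtain ⟨s, t, hs, ht, eL, eN⟩ := hscale w hw
    have h := hXY s t hs ht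
    have e : ((ε * famD a b (L w.1) (N w.2) : ℤ) : ℝ)
        = ((M1 : ℝ) * B) ^ 4 * ((ε : ℝ) * famD (a : ℝ) b ((X : ℝ) + s) ((Y : ℝ) + t)) := by
      have em := map_famD (Int.castRingHom ℝ) a b (L w.1) (N w.2)
      simp only [eq_intCast] at em
      rw [Int.cast_mul, em, eL, eN, famD_smul]
      ring
    have : (0 : ℝ) < ((ε * famD a b (L w.1) (N w.2) : ℤ) : ℝ) := by rw [e]; positivity
    exact_mod_cast this
  -- a point avoiding all squares
  suffices h : ∃ w ∈ G, ∀ p : ℕ, p.Prime → ¬ p ∣ M1 →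
      ¬ (p : ℤ) ^ 2 ∣ famD a b (L w.1) (N w.2) by
    obtain ⟨w, hw, hsf⟩ := h
    refine ⟨L w.1, N w.2, ⟨(1 - l0) * u + Q * (X * B + w.1), ?_⟩,
      ⟨-n0 * u + Q * (Y * B + w.2), ?_⟩, hpos w hw, fun p hp hpM hdvd => ?_⟩
    · simp only [hL, hl1, hM1]; push_cast; linear_combination l0 * huv
    · simp only [hN, hn1, hM1]; push_cast; linear_combination n0 * huv
    · by_cases h : p ∣ M1
      · have hpQ : (p : ℤ) ∣ (Q : ℤ) :=
          Int.natCast_dvd_natCast.mpr ((hp.dvd_mul.mp h).resolve_left hpM)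
        have hn : (p : ℤ) ∣ N w.2 := by
          simp only [hN, hn1, hM1]; push_cast
          exact dvd_add (dvd_mul_of_dvd_right (dvd_mul_of_dvd_right hpQ _) _)
            (dvd_mul_of_dvd_left (dvd_mul_of_dvd_right hpQ _) _)
        have hl : (p : ℤ) ∣ L w.1 - 1 := by
          rw [show L w.1 - 1 = (Q : ℤ) * ((l0 - 1) * v + M * (X * B + w.1)) by
            simp only [hL, hl1, hM1]; push_cast; linear_combination huv]
          exact dvd_mul_of_dvd_left hpQ _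
        have hl4 : (p : ℤ) ∣ L w.1 ^ 4 := by
          have e : L w.1 ^ 4 = famD a b (L w.1) (N w.2) + N w.2 * (6 * a * L w.1 ^ 2 * N w.2
              + 8 * b * L w.1 * N w.2 ^ 2 + 3 * a ^ 2 * N w.2 ^ 3) := by
            simp only [famD]; ring
          rw [e]
          exact dvd_add ((dvd_pow_self _ two_ne_zero).trans hdvd) (dvd_mul_of_dvd_left hn _)
        have hl' := (Nat.prime_iff_prime_int.mp hp).dvd_of_dvd_pow hl4
        exact (Nat.prime_iff_prime_int.mp hp).not_isUnit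
          (isUnit_of_dvd_one (by simpa using dvd_sub hl' hl))
      · exact hsf p hp h hdvd
  by_contra hno
  simp only [not_exists, not_and, not_forall, not_not] at hno
  -- count
  set F := (Finset.range (⌊κ * (B : ℝ) ^ 2⌋₊ + 1)).filter fun p => p.Prime ∧ ¬ p ∣ M1 with hF
  set R : ℕ → ℕ → Finset (ℤ × ℤ) :=
    fun p r => G.filter fun w => (p : ℤ) ^ 2 ∣ L w.1 - r * N w.2 with hR
  set C : ℕ → Finset (ℤ × ℤ) := fun p =>
    ((Finset.Ico (0 : ℤ) B).filter fun i => (p : ℤ) ∣ L i) ×ˢ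
      ((Finset.Ico (0 : ℤ) B).filter fun j => (p : ℤ) ∣ N j) with hC
  have hcover : G ⊆ F.biUnion fun p => C p ∪ (famDRoots a b p).biUnion (R p) := by
    intro w hw
    obtain ⟨p, hp, hpM, hdvd⟩ := hno w hw
    obtain ⟨s, t, hs, ht, eL, eN⟩ := hscale w hw
    have hne : famD a b (L w.1) (N w.2) ≠ 0 := fun h0 => by simpa [h0] using hpos w hw
    have hp2 : (p : ℝ) ^ 2 ≤ Cd * ((M1 : ℝ) * K * B) ^ 4 := by
      have h1 : ((p : ℤ) ^ 2 : ℤ) ≤ |famD a b (L w.1) (N w.2)| :=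
        Int.le_of_dvd (abs_pos.mpr hne) ((dvd_abs _ _).mpr hdvd)
      have em := map_famD (Int.castRingHom ℝ) a b (L w.1) (N w.2)
      simp only [eq_intCast] at em
      calc (p : ℝ) ^ 2 = (((p : ℤ) ^ 2 : ℤ) : ℝ) := by push_cast; rfl
        _ ≤ ((|famD a b (L w.1) (N w.2)| : ℤ) : ℝ) := by exact_mod_cast h1
        _ = |famD (a : ℝ) b (L w.1) (N w.2)| := by rw [Int.cast_abs, em]
        _ ≤ Cd * (max |(L w.1 : ℝ)| |(N w.2 : ℝ)|) ^ 4 := abs_famD_le _ _ _ _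
        _ ≤ _ := by
          gcongr
          rw [eL, eN, mul_right_comm (M1 : ℝ) K, abs_mul, abs_mul (_ * _),
            abs_of_pos (show (0 : ℝ) < M1 * B by positivity)]
          refine max_le ?_ ?_ <;> gcongr <;> rw [hK]
          · linarith [abs_add_le (X : ℝ) s, abs_nonneg (Y : ℝ)]
          · linarith [abs_add_le (Y : ℝ) t, abs_nonneg (X : ℝ)]
    have hpκ : (p : ℝ) ≤ κ * B ^ 2 := by
      apply le_of_pow_le_pow_left₀ two_ne_zero (by positivity)
      refine hp2.trans ?_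
      rw [hκ, show (Cd * ((M1 : ℝ) * K) ^ 2 * (B : ℝ) ^ 2) ^ 2
        = Cd ^ 2 * ((M1 : ℝ) * K * B) ^ 4 by ring]
      gcongr
      nlinarith
    rw [Finset.mem_biUnion]
    refine ⟨p, Finset.mem_filter.mpr
      ⟨Finset.mem_range.mpr (Nat.lt_succ_iff.mpr (Nat.le_floor hpκ)), hp, hpM⟩, ?_⟩
    rw [Finset.mem_union]
    rcases sq_dvd_famD_cases hp hdvd with ⟨h1, h2⟩ | ⟨r, hr, h1⟩
    · left
      simp only [hG, Finset.mem_product] at hw
      simp only [hC, Finset.mem_product, Finset.mem_filter]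
      exact ⟨⟨hw.1, h1⟩, hw.2, h2⟩
    · right
      exact Finset.mem_biUnion.mpr ⟨r, hr, Finset.mem_filter.mpr ⟨hw, h1⟩⟩
  have hbound : ∀ p ∈ F, ((C p ∪ (famDRoots a b p).biUnion (R p)).card : ℝ)
      ≤ 34 * B ^ 2 * ((p : ℝ) ^ 2)⁻¹ + 4 * Cd * B * (Real.sqrt p)⁻¹ + 6 := by
    intro p hpF
    obtain ⟨-, hp, hpM⟩ := Finset.mem_filter.mp hpF
    have hpR : (0 : ℝ) < p := by exact_mod_cast hp.pos
    have hp' := Nat.prime_iff_prime_int.mp hp
    have hcop : IsCoprime ((p : ℤ) ^ 2) (M1 : ℤ) :=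
      ((Prime.coprime_iff_not_dvd hp').mpr (by exact_mod_cast hpM)).pow_left
    have hcopp : IsCoprime (p : ℤ) (M1 : ℤ) :=
      (Prime.coprime_iff_not_dvd hp').mpr (by exact_mod_cast hpM)
    have hgood : ¬ (p : ℤ) ∣ 6 * (a ^ 3 - b ^ 2) := fun h => hpM ((hbad p hp h).mul_right Q)
    have hC' : ((C p).card : ℝ) ≤ 2 * B ^ 2 * ((p : ℝ) ^ 2)⁻¹ + 2 := by
      simp only [hC, Finset.card_product, Nat.cast_mul]
      have e : ∀ (T : ℤ → ℤ), (∀ i j, T i - T j = M1 * (i - j)) →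
          (((Finset.Ico (0 : ℤ) B).filter fun i => (p : ℤ) ∣ T i).card : ℝ) ≤ B / p + 1 := by
        intro T hT
        refine card_le_of_dvd_sub _ B p hp.pos (fun i hi => ?_) fun i hi j hj => ?_
        · exact Finset.mem_Ico.mp (Finset.mem_filter.mp hi).1
        · have h := dvd_sub (Finset.mem_filter.mp hi).2 (Finset.mem_filter.mp hj).2
          rw [hT] at h
          exact hcopp.dvd_of_dvd_mul_left h
      calc _ ≤ ((B : ℝ) / p + 1) * (B / p + 1) :=
            mul_le_mul (e L fun i j => by simp only [hL]; ring)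
              (e N fun i j => by simp only [hN]; ring) (by positivity) (by positivity)
        _ ≤ 2 * ((B : ℝ) / p) ^ 2 + 2 := by nlinarith [sq_nonneg ((B : ℝ) / p - 1)]
        _ = _ := by field_simp
    have hR' : ∀ r ∈ famDRoots a b p, ((R p r).card : ℝ)
        ≤ 8 * B ^ 2 * ((p : ℝ) ^ 2)⁻¹ + Cd * B * (Real.sqrt p)⁻¹ + 1 := by
      intro r hr
      have hr2 := (Finset.mem_filter.mp hr).2
      have hlat : ∀ s ∈ R p r, ∀ t ∈ R p r,
          (p : ℤ) ^ 2 ∣ (s.1 - t.1) - (r : ℤ) * (s.2 - t.2) := by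
        intro s hs t ht
        have h := dvd_sub (Finset.mem_filter.mp hs).2 (Finset.mem_filter.mp ht).2
        rw [show L s.1 - r * N s.2 - (L t.1 - r * N t.2)
          = (M1 : ℤ) * ((s.1 - t.1) - (r : ℤ) * (s.2 - t.2)) by simp only [hL, hN]; ring] at h
        exact hcop.dvd_of_dvd_mul_left h
      have h := card_le_of_sub_mem_lattice (R p r) B (p ^ 2) r (Real.sqrt p / Cd)
        (by positivity [hp.pos]) (by positivity) (fun s hs => by
          have := (Finset.mem_filter.mp hs).1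
          simp only [hG, Finset.mem_product, Finset.mem_Ico] at this
          exact this)
        (fun s hs t ht => by exact_mod_cast hlat s hs t ht) ?_
      · refine h.trans (le_of_eq ?_)
        push_cast
        rw [div_div_eq_mul_div]
        ring
      intro s hs t ht hst
      set x := s.1 - t.1 with hx
      set y := s.2 - t.2 with hy
      have hne : x ≠ 0 ∨ y ≠ 0 := by
        by_contra h
        simp only [not_or, not_not, hx, hy, sub_eq_zero] at h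
        exact hst (Prod.ext h.1 h.2)
      have hD : (p : ℤ) ^ 2 ∣ famD a b x y := by
        refine (dvd_famD_iff_of_dvd_sub (hlat s hs t ht)).mpr ?_
        rw [show famD a b (↑r * y) y = famD a b (y * r) (y * 1) by rw [mul_comm, mul_one],
          famD_smul]
        exact dvd_mul_of_dvd_right hr2 _
      have hne' := famD_ne_zero_of_ne_zero hroot hne
      set m : ℝ := max |(x : ℝ)| |(y : ℝ)| with hm
      have hp2 : (p : ℝ) ^ 2 ≤ Cd * m ^ 4 := by
        have h1 : ((p : ℤ) ^ 2 : ℤ) ≤ |famD a b x y| :=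
          Int.le_of_dvd (abs_pos.mpr hne') ((dvd_abs _ _).mpr hD)
        have em := map_famD (Int.castRingHom ℝ) a b x y
        simp only [eq_intCast] at em
        calc (p : ℝ) ^ 2 = (((p : ℤ) ^ 2 : ℤ) : ℝ) := by push_cast; rfl
          _ ≤ ((|famD a b x y| : ℤ) : ℝ) := by exact_mod_cast h1
          _ = |famD (a : ℝ) b x y| := by rw [Int.cast_abs, em]
          _ ≤ _ := abs_famD_le _ _ _ _
      have hm0 : 0 ≤ m := (abs_nonneg _).trans (le_max_left _ _)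
      rw [div_le_iff₀ (by positivity), Int.cast_max, Int.cast_abs, Int.cast_abs, ← hm,
        Real.sqrt_le_left (by positivity)]
      apply le_of_pow_le_pow_left₀ two_ne_zero (by positivity)
      calc (p : ℝ) ^ 2 ≤ Cd * m ^ 4 := hp2
        _ ≤ Cd ^ 4 * m ^ 4 := by gcongr; exact le_self_pow₀ hCd1 (by norm_num)
        _ = ((m * Cd) ^ 2) ^ 2 := by ring
    calc ((C p ∪ (famDRoots a b p).biUnion (R p)).card : ℝ)
        ≤ (C p).card + ∑ r ∈ famDRoots a b p, ((R p r).card : ℝ) := by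
          exact_mod_cast (Finset.card_union_le _ _).trans
            (Nat.add_le_add_left Finset.card_biUnion_le _)
      _ ≤ (2 * B ^ 2 * ((p : ℝ) ^ 2)⁻¹ + 2) + (famDRoots a b p).card
            • (8 * B ^ 2 * ((p : ℝ) ^ 2)⁻¹ + Cd * B * (Real.sqrt p)⁻¹ + 1) :=
          add_le_add hC' (Finset.sum_le_card_nsmul _ _ _ hR')
      _ ≤ (2 * B ^ 2 * ((p : ℝ) ^ 2)⁻¹ + 2) + 4
            * (8 * B ^ 2 * ((p : ℝ) ^ 2)⁻¹ + Cd * B * (Real.sqrt p)⁻¹ + 1) := by
          rw [nsmul_eq_mul]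
          gcongr
          exact_mod_cast card_famDRoots_le hp hgood
      _ = _ := by ring
  have hmem : ∀ p ∈ F, p.Prime ∧ (p : ℝ) ≤ κ * B ^ 2 := by
    intro p hpF
    obtain ⟨h1, h2, -⟩ := Finset.mem_filter.mp hpF
    exact ⟨h2, (Nat.cast_le.mpr (Nat.lt_succ_iff.mp (Finset.mem_range.mp h1))).trans
      (Nat.floor_le (by positivity))⟩
  have hS1 : ∑ p ∈ F, ((p : ℝ) ^ 2)⁻¹ ≤ 2 / 201 := by
    calc _ ≤ ∑ p ∈ Finset.Ioo 200 (⌊κ * (B : ℝ) ^ 2⌋₊ + 1), ((p : ℝ) ^ 2)⁻¹ := by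
          apply Finset.sum_le_sum_of_subset_of_nonneg
          · intro p hpF
            obtain ⟨h1, h2, h3⟩ := Finset.mem_filter.mp hpF
            exact Finset.mem_Ioo.mpr ⟨hlarge p h2 h3, Finset.mem_range.mp h1⟩
          · intro k _ _
            positivity
      _ ≤ _ := (sum_Ioo_inv_sq_le _ _).trans (by norm_num)
  have hS2 := hsq F hmem
  have hS3 := hπ F hmem
  have hcardG : (G.card : ℝ) = (B : ℝ) ^ 2 := by simp [hG, sq]
  have hS2' : 4 * Cd * B * ∑ p ∈ F, (Real.sqrt p)⁻¹ ≤ 1 / 8 * (B : ℝ) ^ 2 := by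
    calc _ ≤ 4 * Cd * B * (1 / (32 * Cd) * B) := by gcongr
      _ = _ := by field_simp; ring
  have htot : (G.card : ℝ) ≤ 34 * B ^ 2 * ∑ p ∈ F, ((p : ℝ) ^ 2)⁻¹
      + 4 * Cd * B * ∑ p ∈ F, (Real.sqrt p)⁻¹ + 6 * F.card := by
    calc (G.card : ℝ)
        ≤ ((F.biUnion fun p => C p ∪ (famDRoots a b p).biUnion (R p)).card : ℝ) := by
          exact_mod_cast Finset.card_le_card hcover
      _ ≤ ∑ p ∈ F, ((C p ∪ (famDRoots a b p).biUnion (R p)).card : ℝ) := by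
          exact_mod_cast Finset.card_biUnion_le
      _ ≤ _ := Finset.sum_le_sum hbound
      _ = _ := by
          rw [Finset.sum_add_distrib, Finset.sum_add_distrib, Finset.sum_const, ← Finset.mul_sum,
            ← Finset.mul_sum, nsmul_eq_mul, mul_comm (6 : ℝ)]
  have hS1' : 34 * (B : ℝ) ^ 2 * ∑ p ∈ F, ((p : ℝ) ^ 2)⁻¹ ≤ 68 / 201 * (B : ℝ) ^ 2 := by
    calc _ ≤ 34 * (B : ℝ) ^ 2 * (2 / 201) := by gcongr
      _ = _ := by ring
  nlinarith

end Fermat.Agent.TwoAdic.Curve
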