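import Mathlib
import Fermat.Agent.TwoAdic.Curve.Basic
import Fermat.Agent.TwoAdic.Curve.Sieve
import Fermat.Agent.TwoAdic.Curve.Local

/-!
# A member of the mod 3 family to which the 2-adic theorem applies

The parameter is prescribed at `2`, `3` and the bad primes and squarefree elsewhere; the member
then has negative discriminant, odd valuations at all bad primes and a bad prime `±3` modulo `8`.
-/

set_option autoImplicit false

open WeierstrassCurve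

namespace Fermat.Agent.TwoAdic.Curve

theorem exists_crt (S : Finset ℕ) (hS : ∀ q ∈ S, q.Prime) (e : ℕ) (r : ℕ → ℤ) :
    ∃ x : ℤ, ∀ q ∈ S, (q : ℤ) ^ e ∣ x - r q := by
  induction S using Finset.induction_on with
  | empty => exact ⟨0, fun q hq => absurd hq (Finset.notMem_empty q)⟩
  | @insert q S hq ih =>
    obtain ⟨x, hx⟩ := ih fun p hp => hS p (Finset.mem_insert_of_mem hp)
    have hqp := Nat.prime_iff_prime_int.mp (hS q (Finset.mem_insert_self q S))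
    obtain ⟨a, b, hab⟩ : IsCoprime (∏ p ∈ S, (p : ℤ) ^ e) ((q : ℤ) ^ e) := by
      refine IsCoprime.prod_left fun p hp => (IsCoprime.pow ?_)
      refine ((hqp.coprime_iff_not_dvd).mpr fun h => hq ?_).symm
      rw [Int.natCast_dvd_natCast, Nat.prime_dvd_prime_iff_eq (hS q (Finset.mem_insert_self q S))
        (hS p (Finset.mem_insert_of_mem hp))] at h
      exact h ▸ hp
    refine ⟨x + (∏ p ∈ S, (p : ℤ) ^ e) * a * (r q - x), fun p hp => ?_⟩
    rcases Finset.mem_insert.mp hp with rfl | hp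
    · exact ⟨-b * (r p - x), by linear_combination (r p - x) * hab⟩
    · rw [show x + (∏ p ∈ S, (p : ℤ) ^ e) * a * (r q - x) - r p
        = (x - r p) + (∏ p ∈ S, (p : ℤ) ^ e) * (a * (r q - x)) by ring]
      exact dvd_add (hx p hp) ((Finset.dvd_prod_of_mem (fun p : ℕ => (p : ℤ) ^ e) hp).mul_right _)

theorem exists_prime_three_five (n : ℕ) (h : n % 8 = 3 ∨ n % 8 = 5) :
    ∃ p : ℕ, p.Prime ∧ p ∣ n ∧ (p % 8 = 3 ∨ p % 8 = 5) := by
  induction n using Nat.strong_induction_on with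
  | _ n ih =>
    have hp : n.minFac.Prime := Nat.minFac_prime (by omega)
    by_cases hc : n.minFac % 8 = 3 ∨ n.minFac % 8 = 5
    · exact ⟨_, hp, n.minFac_dvd, hc⟩
    obtain ⟨m, hm⟩ := n.minFac_dvd
    have hm0 : m ≠ 0 := by rintro rfl; omega
    have hlt : m < n := by
      have := Nat.mul_le_mul_right m hp.two_le
      omega
    have h8 : n % 8 = n.minFac % 8 * (m % 8) % 8 := by
      conv_lhs => rw [hm, Nat.mul_mod]
    have hl : n.minFac % 8 < 8 := Nat.mod_lt _ (by norm_num)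
    have hodd : n.minFac % 2 = 1 := by
      rcases hp.eq_two_or_odd with h' | h'
      · rw [h'] at h8; omega
      · exact h'
    have : n.minFac % 8 = 1 ∨ n.minFac % 8 = 7 := by omega
    obtain ⟨p, hp1, hp2, hp3⟩ := ih m hlt (by
      rcases this with h' | h' <;> rw [h'] at h8 <;> omega)
    exact ⟨p, hp1, hp2.trans ⟨n.minFac, by rw [mul_comm]; exact hm⟩, hp3⟩

theorem padicValInt_eq_of_pow_dvd {p : ℕ} [Fact p.Prime] {x : ℤ} {k : ℕ}
    (h : (p : ℤ) ^ k ∣ x) (h' : ¬ (p : ℤ) ^ (k + 1) ∣ x) : padicValInt p x = k := by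
  rw [padicValInt_dvd_iff] at h h'
  rw [not_or] at h'
  rcases h with h | h
  · exact absurd h h'.1
  · omega

theorem c₆_emod_four {W : WeierstrassCurve ℤ} (h : ¬ (2 : ℤ) ∣ W.c₄) : W.c₆ % 4 = 3 := by
  have h1 : ¬ (2 : ℤ) ∣ W.a₁ := fun ⟨a, ha⟩ => h <| by
    refine ⟨8 * (a ^ 2 + W.a₂) ^ 2 - 24 * W.a₄ - 24 * a * W.a₃, ?_⟩
    simp only [WeierstrassCurve.c₄, WeierstrassCurve.b₂, WeierstrassCurve.b₄]
    rw [ha]; ring
  obtain ⟨a, ha⟩ : ∃ a, W.a₁ = 2 * a + 1 := ⟨W.a₁ / 2, by omega⟩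
  obtain ⟨s, hs⟩ : ∃ s, W.b₂ = 4 * s + 1 :=
    ⟨a ^ 2 + a + W.a₂, by simp only [WeierstrassCurve.b₂]; rw [ha]; ring⟩
  obtain ⟨k, hk⟩ : (4 : ℤ) ∣ W.c₆ + 1 :=
    ⟨-(16 * s ^ 3 + 12 * s ^ 2 + 3 * s) + 9 * W.b₂ * W.b₄ - 54 * W.b₆, by
      simp only [WeierstrassCurve.c₆]; rw [hs]; ring⟩
  omega

section Primes

variable {q : ℕ} {a b l n : ℤ}

theorem famD_congr_const {m c : ℤ} (hl : m ∣ l - c) (hn : m ∣ n) :
    m ∣ famD a b l n - c ^ 4 ∧ m ∣ famC4 a b l n - c ^ 4 * a ∧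
      m ∣ famC6 a b l n - c ^ 6 * b := by
  have hn' : m ∣ n - 0 := by rwa [sub_zero]
  have z : ∀ x : ℤ, m ∣ x - x := fun x => by rw [sub_self]; exact dvd_zero _
  refine ⟨?_, ?_, ?_⟩
  · simpa [famD] using famD_congr (z a) (z b) hl hn'
  · simpa [famC4, mul_comm] using famC4_congr (z a) (z b) hl hn'
  · simpa [famC6, mul_comm] using famC6_congr (z a) (z b) hl hn'

/-- At a prime not dividing `6 (a ^ 3 - b ^ 2)`, where `famD` is squarefree, it is prime to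
`famC4`. -/
theorem not_dvd_famC4 (hq : q.Prime) (h : ¬ (q : ℤ) ∣ 6 * (a ^ 3 - b ^ 2))
    (hD : (q : ℤ) ∣ famD a b l n) (hD2 : ¬ (q : ℤ) ^ 2 ∣ famD a b l n) :
    ¬ (q : ℤ) ∣ famC4 a b l n := by
  intro hC
  have hp := Nat.prime_iff_prime_int.mp hq
  have h2 : ¬ (q : ℤ) ∣ 2 := fun h' => h <| (h'.trans (by norm_num : (2 : ℤ) ∣ 6)).mul_right _
  have h3 : ¬ (q : ℤ) ∣ 3 := fun h' => h <| (h'.trans (by norm_num : (3 : ℤ) ∣ 6)).mul_right _
  have hn : ¬ (q : ℤ) ∣ n := fun hn => hD2 <| by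
    have hl : (q : ℤ) ∣ l := by
      refine hp.dvd_of_dvd_pow (n := 4) ?_
      have := dvd_sub hD (famD_congr_const (a := a) (b := b) (m := (q : ℤ)) (c := l) (l := l)
        (by rw [sub_self]; exact dvd_zero _) hn).1
      rwa [sub_sub_cancel] at this
    obtain ⟨l', rfl⟩ := hl
    obtain ⟨n', rfl⟩ := hn
    rw [famD_smul]
    exact dvd_mul_of_dvd_left (pow_dvd_pow _ (by norm_num)) _
  have hDl : (q : ℤ) ∣ famDl a b l n := by
    have : (q : ℤ) ∣ 3 * famDl a b l n ^ 2 := by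
      have := dvd_sub ((hD.mul_left 4).mul_right (12 * l ^ 2 - 12 * a * n ^ 2))
        (hC.mul_left (-48 * n ^ 2))
      rwa [famC4_hessian, sub_sub_cancel] at this
    exact hp.dvd_of_dvd_pow ((hp.dvd_mul.mp this).resolve_left h3)
  have : Fact q.Prime := ⟨hq⟩
  apply h
  refine dvd_mul_of_dvd_right ?_ _
  rw [← ZMod.intCast_zmod_eq_zero_iff_dvd, Int.cast_sub, Int.cast_pow, Int.cast_pow, sub_eq_zero]
  rw [← ZMod.intCast_zmod_eq_zero_iff_dvd] at h2 h3 hn hD hDl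
  refine eq_of_famD_famDl (l := (l : ZMod q)) (n := (n : ZMod q)) ?_ ?_ hn ?_ ?_
  · exact_mod_cast h2
  · exact_mod_cast h3
  · rw [← hD]; exact (map_famD (Int.castRingHom (ZMod q)) a b l n).symm
  · rw [← hDl]; exact (map_famDl (Int.castRingHom (ZMod q)) a b l n).symm

end Primes

/-- A member of the mod 3 family satisfying the hypotheses of the 2-adic theorem, from a class of
parameters at `2` on which `famD / 2 ^ (8 + i)` takes any given even value modulo `2 ^ 8`. -/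
theorem exists_member_of_two_class (W : WeierstrassCurve ℤ) (hΔ : W.Δ ≠ 0)
    (hW : W.IsSemistableModel) (hroot : ∀ l n : ℤ, n ≠ 0 → famD W.c₄ W.c₆ l n ≠ 0) (i : ℕ)
    (hclass : ∀ t : ℤ, (2 : ℤ) ∣ t → ∃ l₂ : ℤ, ∀ l n : ℤ,
      (2 : ℤ) ^ 16 ∣ l - l₂ → (2 : ℤ) ^ 16 ∣ n - 1 →
      ∃ g e₄ e₆ : ℤ, famD W.c₄ W.c₆ l n = 2 ^ (8 + i) * g ∧ famC4 W.c₄ W.c₆ l n = 2 ^ 8 * e₄ ∧
        famC6 W.c₄ W.c₆ l n = 2 ^ 12 * e₆ ∧ (2 : ℤ) ^ 8 ∣ g - t ∧ Odd e₄ ∧ e₆ % 4 = 3) :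
    ∃ (W' : WeierstrassCurve ℤ) (l n : ℤ), IsTwoAdicCurve W' ∧
      2 ^ 8 * W'.c₄ = famC4 W.c₄ W.c₆ l n ∧ 2 ^ 12 * W'.c₆ = famC6 W.c₄ W.c₆ l n ∧
      ((3 : ℤ) ∣ W'.Δ ↔ (3 : ℤ) ∣ W.Δ) ∧ (∀ q : ℕ, (q : ℤ) ∣ W.Δ → (q : ℤ) ∣ W'.Δ) ∧
      ∀ q : ℕ, q.Prime → padicValInt q W'.Δ % 3 = padicValInt q W.Δ % 3 := by
  have hrel := W.c_relation
  -- the target value at `2`
  obtain ⟨ε, hε, hneg, hcone⟩ : ∃ ε : ℤ, (ε = 1 ∨ ε = -1) ∧ ε * W.Δ < 0 ∧
      ∃ x y : ℤ, 0 < ε * famD W.c₄ W.c₆ x y := by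
    rcases lt_or_gt_of_ne hΔ with h | h
    · exact ⟨1, Or.inl rfl, by linarith, 1, 0, by simp [famD_one_zero]⟩
    · refine ⟨-1, Or.inr rfl, by linarith, 3 * W.c₆, W.c₄, ?_⟩
      have h1 : 0 < W.c₄ ^ 3 + 27 * W.c₆ ^ 2 := by nlinarith [sq_nonneg W.c₆]
      rw [show famD W.c₄ W.c₆ (3 * W.c₆) W.c₄
        = -3 * (W.c₄ ^ 3 - W.c₆ ^ 2) * (W.c₄ ^ 3 + 27 * W.c₆ ^ 2) by simp only [famD]; ring,
        ← hrel]
      linarith [mul_pos (mul_pos (show (0 : ℤ) < 5184 by norm_num) h) h1]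
  obtain ⟨j, hj1, hj2, hjodd⟩ :
      ∃ j : ℕ, 1 ≤ j ∧ j ≤ 2 ∧ Odd (padicValInt 2 W.Δ + 3 * i + 3 * j) := by
    rcases Nat.even_or_odd (padicValInt 2 W.Δ + 3 * i) with h | h
    · exact ⟨1, le_rfl, by norm_num, h.add_odd (by decide)⟩
    · exact ⟨2, by norm_num, le_rfl, h.add_even (by decide)⟩
  set S : Finset ℕ := W.Δ.natAbs.primeFactors ∪ {2, 3} with hSdef
  have hS : ∀ q ∈ S, q.Prime := fun q hq => by
    rcases Finset.mem_union.mp hq with h | h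
    · exact Nat.prime_of_mem_primeFactors h
    · simp only [Finset.mem_insert, Finset.mem_singleton] at h
      rcases h with rfl | rfl <;> norm_num
  have memS : ∀ q : ℕ, q.Prime → (q : ℤ) ∣ W.Δ → q ∈ S := fun q hq hd => Finset.mem_union_left _
    (Nat.mem_primeFactors.mpr ⟨hq, Int.natCast_dvd.mp hd, Int.natAbs_ne_zero.mpr hΔ⟩)
  let T : Finset ℕ := S.filter fun q => q ≠ 2 ∧ (q : ℤ) ∣ W.Δ ∧ Even (padicValInt q W.Δ)
  have hT : ∀ q, q ∈ T ↔ q ∈ S ∧ q ≠ 2 ∧ (q : ℤ) ∣ W.Δ ∧ Even (padicValInt q W.Δ) := fun q =>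
    Finset.mem_filter
  set t : ℤ := ε * 2 ^ j * (∏ q ∈ T, (q : ℤ)) * 3 with ht
  obtain ⟨l₂, hl₂⟩ := hclass t
    (((dvd_mul_of_dvd_right (dvd_pow_self 2 (by omega)) ε).mul_right _).mul_right _)
  have hsimple : ∀ q : ℕ, ∃ lq : ℤ, q ∈ T → ∀ l n : ℤ, (q : ℤ) ^ 2 ∣ l - lq →
      (q : ℤ) ^ 2 ∣ n - 1 → (q : ℤ) ∣ famD W.c₄ W.c₆ l n ∧
        ¬ (q : ℤ) ^ 2 ∣ famD W.c₄ W.c₆ l n ∧ ¬ (q : ℤ) ∣ famC4 W.c₄ W.c₆ l n := fun q => by
    by_cases hq : q ∈ T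
    · obtain ⟨hqS, hq2, hqd, -⟩ := (hT q).mp hq
      obtain ⟨lq, hlq⟩ := exists_simple_class (hS q hqS) hq2
        (show (q : ℤ) ∣ W.c₄ ^ 3 - W.c₆ ^ 2 by rw [← hrel]; exact hqd.mul_left _)
        (hW q (hS q hqS) hqd)
      exact ⟨lq, fun _ => hlq⟩
    · exact ⟨0, fun h => absurd h hq⟩
  choose lT hlT using hsimple
  obtain ⟨l₀, hl₀⟩ := exists_crt S hS 16
    (fun q => if q = 2 then l₂ else if q ∈ T then lT q else 4)
  obtain ⟨n₀, hn₀⟩ := exists_crt S hS 16 (fun q => if q = 2 ∨ q ∈ T then 1 else 0)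
  set M : ℕ := ∏ q ∈ S, q ^ 16 with hM
  have hMpos : 0 < M := Finset.prod_pos fun q hq => pow_pos (hS q hq).pos _
  have h2S : 2 ∈ S := Finset.mem_union_right _ (by simp)
  have h3S : 3 ∈ S := Finset.mem_union_right _ (by simp)
  have hMdvd : ∀ q ∈ S, (q : ℤ) ^ 16 ∣ (M : ℤ) := fun q hq => by
    rw [← Nat.cast_pow, Int.natCast_dvd_natCast]
    exact Finset.dvd_prod_of_mem _ hq
  have hMS : ∀ p : ℕ, p.Prime → p ∣ M → p ∈ S := fun p hp hd => by
    obtain ⟨q, hq, hdq⟩ := (Nat.prime_iff.mp hp).exists_mem_finset_dvd hd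
    rwa [(Nat.prime_dvd_prime_iff_eq hp (hS q hq)).mp (hp.dvd_of_dvd_pow hdq)]
  have hbad : ∀ p : ℕ, p.Prime → (p : ℤ) ∣ 6 * (W.c₄ ^ 3 - W.c₆ ^ 2) → p ∈ S := by
    intro p hp hd
    rw [← hrel, show (6 : ℤ) * (1728 * W.Δ) = ((2 : ℕ) : ℤ) ^ 7 * ((3 : ℕ) : ℤ) ^ 4 * W.Δ by
      push_cast; ring] at hd
    have hp' := Nat.prime_iff_prime_int.mp hp
    rcases hp'.dvd_mul.mp hd with h | h
    · rcases hp'.dvd_mul.mp h with h | h <;>
        have := Int.natCast_dvd_natCast.mp (hp'.dvd_of_dvd_pow h)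
      · rwa [(Nat.prime_dvd_prime_iff_eq hp Nat.prime_two).mp this]
      · rwa [(Nat.prime_dvd_prime_iff_eq hp Nat.prime_three).mp this]
    · exact memS p hp h
  obtain ⟨l, n, hl, hn, hpos, hsq⟩ := exists_squarefree_famD W.c₄ W.c₆ hroot M hMpos
    (fun p hp hd => (dvd_pow_self p (by norm_num : (16 : ℕ) ≠ 0)).trans
      (Finset.dvd_prod_of_mem _ (hbad p hp hd))) l₀ n₀ ε hcone
  have atq : ∀ q ∈ S, ∀ e, e ≤ 16 →
      (q : ℤ) ^ e ∣ l - (if q = 2 then l₂ else if q ∈ T then lT q else 4) ∧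
      (q : ℤ) ^ e ∣ n - (if q = 2 ∨ q ∈ T then 1 else 0) := fun q hq e he => by
    have hM' := (pow_dvd_pow (q : ℤ) he).trans (hMdvd q hq)
    constructor
    · have := dvd_add (hM'.trans hl) ((pow_dvd_pow (q : ℤ) he).trans (hl₀ q hq))
      rwa [sub_add_sub_cancel] at this
    · have := dvd_add (hM'.trans hn) ((pow_dvd_pow (q : ℤ) he).trans (hn₀ q hq))
      rwa [sub_add_sub_cancel] at this
  obtain ⟨g, e₄, e₆, hD, hC4, hC6, hg, he4, he6⟩ : ∃ g e₄ e₆ : ℤ,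
      famD W.c₄ W.c₆ l n = 2 ^ (8 + i) * g ∧ famC4 W.c₄ W.c₆ l n = 2 ^ 8 * e₄ ∧
      famC6 W.c₄ W.c₆ l n = 2 ^ 12 * e₆ ∧ (2 : ℤ) ^ 8 ∣ g - t ∧ Odd e₄ ∧ e₆ % 4 = 3 := by
    have := atq 2 h2S 16 le_rfl
    simp only [if_true, true_or, Nat.cast_ofNat] at this
    exact hl₂ l n this.1 this.2
  -- behaviour at the odd primes of `S`
  have inT : ∀ q ∈ T, (q : ℤ) ∣ famD W.c₄ W.c₆ l n ∧ ¬ (q : ℤ) ^ 2 ∣ famD W.c₄ W.c₆ l n ∧
      ¬ (q : ℤ) ∣ famC4 W.c₄ W.c₆ l n := fun q hq => by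
    obtain ⟨hqS, hq2, -, -⟩ := (hT q).mp hq
    have := atq q hqS 2 (by norm_num)
    simp only [hq2, hq, if_false, if_true, false_or] at this
    exact hlT q hq l n this.1 this.2
  have offT : ∀ q ∈ S, q ≠ 2 → q ∉ T → ∀ e, e ≤ 16 →
      (q : ℤ) ^ e ∣ famD W.c₄ W.c₆ l n - 256 ∧
      (q : ℤ) ^ e ∣ famC4 W.c₄ W.c₆ l n - 256 * W.c₄ ∧
      (q : ℤ) ^ e ∣ famC6 W.c₄ W.c₆ l n - 4096 * W.c₆ := fun q hq hq2 hqT e he => by
    have := atq q hq e he
    simp only [hq2, hqT, if_false, false_or, sub_zero] at this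
    simpa using famD_congr_const this.1 this.2
  have hodd_pow : ∀ q : ℕ, q.Prime → q ≠ 2 → ∀ k : ℕ, ¬ (q : ℤ) ∣ 2 ^ k := fun q hq hq2 k h => by
    have := (Nat.prime_iff_prime_int.mp hq).dvd_of_dvd_pow h
    rw [show (2 : ℤ) = ((2 : ℕ) : ℤ) from rfl, Int.natCast_dvd_natCast,
      Nat.prime_dvd_prime_iff_eq hq Nat.prime_two] at this
    exact hq2 this
  have hgD : ∀ q : ℕ, q.Prime → q ≠ 2 → ∀ e, ((q : ℤ) ^ e ∣ g ↔
      (q : ℤ) ^ e ∣ famD W.c₄ W.c₆ l n) := fun q hq hq2 e => by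
    rw [hD]
    refine ⟨fun h => h.mul_left _, fun h => IsCoprime.dvd_of_dvd_mul_left ?_ h⟩
    exact (((Nat.prime_iff_prime_int.mp hq).coprime_iff_not_dvd).mpr (hodd_pow q hq hq2 (8 + i))).pow_left
  have hval : ∀ q : ℕ, q.Prime → q ≠ 2 → padicValInt q g = 0 ∨ padicValInt q g = 1 := by
    intro q hq hq2
    have : Fact q.Prime := ⟨hq⟩
    by_cases hq' : (q : ℤ) ∣ g
    · refine Or.inr (padicValInt_eq_of_pow_dvd (by rwa [pow_one]) fun h => ?_)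
      rw [hgD q hq hq2] at h
      by_cases hqS : q ∈ S
      · by_cases hqT : q ∈ T
        · exact (inT q hqT).2.1 h
        · have := dvd_sub ((dvd_pow_self (q : ℤ) two_ne_zero).trans h)
            (by simpa using (offT q hqS hq2 hqT 1 (by norm_num)).1)
          rw [sub_sub_cancel] at this
          exact hodd_pow q hq hq2 8 (by simpa using this)
      · exact hsq q hq (fun hd => hqS (hMS q hq hd)) h
    · exact Or.inl (padicValInt.eq_zero_of_not_dvd hq')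
  -- the sign and the value at `2`
  have hεg : 0 < ε * g := by
    rw [hD, ← mul_assoc, mul_comm ε, mul_assoc] at hpos
    exact (mul_pos_iff_of_pos_left (pow_pos (by norm_num) _)).mp hpos
  have hg0 : g ≠ 0 := fun h => by simp [h] at hεg
  have hPodd : ¬ (2 : ℤ) ∣ ∏ q ∈ T, (q : ℤ) := fun h => by
    obtain ⟨q, hq, hdq⟩ := Int.prime_two.exists_mem_finset_dvd h
    obtain ⟨hqS, hq2, -, -⟩ := (hT q).mp hq
    rw [show (2 : ℤ) = ((2 : ℕ) : ℤ) from rfl, Int.natCast_dvd_natCast,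
      Nat.prime_dvd_prime_iff_eq Nat.prime_two (hS q hqS)] at hdq
    exact hq2 hdq.symm
  have hεt : ε * t = 2 ^ j * ((∏ q ∈ T, (q : ℤ)) * 3) := by
    rw [ht]; rcases hε with rfl | rfl <;> ring
  obtain ⟨R, hR⟩ : 2 ^ j * (∏ q ∈ T, (q : ℤ)) ∣ ε * g := by
    refine IsCoprime.mul_dvd ?_ ?_ ?_
    · exact ((Int.prime_two.coprime_iff_not_dvd).mpr hPodd).pow_left
    · have := dvd_add (((pow_dvd_pow 2 (by omega : j ≤ 8)).trans hg).mul_left ε)
        (show (2 : ℤ) ^ j ∣ ε * t from hεt ▸ dvd_mul_right _ _)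
      rwa [← mul_add, sub_add_cancel] at this
    · refine dvd_mul_of_dvd_right (Finset.prod_dvd_of_coprime ?_ ?_) _
      · intro q hq q' hq' hne
        obtain ⟨hqS, -, -, -⟩ := (hT q).mp hq
        obtain ⟨hqS', -, -, -⟩ := (hT q').mp hq'
        show IsCoprime (q : ℤ) (q' : ℤ)
        rw [Int.isCoprime_iff_nat_coprime]
        simpa using (Nat.coprime_primes (hS q hqS) (hS q' hqS')).mpr hne
      · intro q hq
        obtain ⟨hqS, hq2, -, -⟩ := (hT q).mp hq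
        simpa using (hgD q (hS q hqS) hq2 1).mpr (by simpa using (inT q hq).1)
  have hPpos : 0 < ∏ q ∈ T, (q : ℤ) :=
    Finset.prod_pos fun q hq => by exact_mod_cast (hS q ((hT q).mp hq).1).pos
  have hRpos : 0 < R := by
    rw [hR] at hεg
    exact (mul_pos_iff_of_pos_left (mul_pos (pow_pos (by norm_num) j) hPpos)).mp hεg
  have hR8 : (8 : ℤ) ∣ R - 3 := by
    have h1 : (2 : ℤ) ^ 8 ∣ 2 ^ j * ((∏ q ∈ T, (q : ℤ)) * (R - 3)) := by
      have := hg.mul_left ε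
      rwa [mul_sub, hR, hεt, show (2 : ℤ) ^ j * (∏ q ∈ T, (q : ℤ)) * R
        - 2 ^ j * ((∏ q ∈ T, (q : ℤ)) * 3) = 2 ^ j * ((∏ q ∈ T, (q : ℤ)) * (R - 3)) by ring] at this
    rw [show (2 : ℤ) ^ 8 = 2 ^ j * 2 ^ (8 - j) by rw [← pow_add]; congr 1; omega,
      mul_dvd_mul_iff_left (pow_ne_zero _ two_ne_zero)] at h1
    have h8 : (8 : ℤ) = 2 ^ 3 := by norm_num
    rw [h8]
    exact IsCoprime.dvd_of_dvd_mul_left
      (((Int.prime_two.coprime_iff_not_dvd).mpr hPodd).pow_left)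
      ((pow_dvd_pow _ (by omega)).trans h1)
  have hg2 : padicValInt 2 g = j := by
    refine padicValInt_eq_of_pow_dvd ?_ ?_
    · have : (2 : ℤ) ^ j ∣ ε * g := hR ▸ (dvd_mul_right _ _).mul_right R
      rcases hε with rfl | rfl <;> simpa using this
    · intro h
      have h' : (2 : ℤ) ^ j * 2 ∣ 2 ^ j * ((∏ q ∈ T, (q : ℤ)) * R) := by
        rw [← pow_succ, ← mul_assoc, ← hR]; exact h.mul_left ε
      rw [mul_dvd_mul_iff_left (pow_ne_zero _ two_ne_zero)] at h'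
      rcases Int.prime_two.dvd_mul.mp h' with h'' | h''
      · exact hPodd h''
      · omega
  -- the model
  set Δ' : ℤ := W.Δ * (2 ^ i * g) ^ 3 with hΔ'
  have hrel' : e₄ ^ 3 - e₆ ^ 2 = 1728 * Δ' := by
    apply mul_left_cancel₀ (show (2 : ℤ) ^ 24 ≠ 0 by norm_num)
    have := famC4_cube_sub_famC6_sq W.c₄ W.c₆ l n
    rw [hC4, hC6, hD, ← hrel] at this
    rw [hΔ']
    rw [pow_add] at this
    linear_combination this
  have h3adm : ∃ B, IsThreeAdmissible B e₄ e₆ := by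
    by_cases h : (3 : ℤ) ∣ e₄
    · have h3T : 3 ∉ T := fun h' => (inT 3 h').2.2 (hC4 ▸ (h.mul_left _))
      obtain ⟨-, k4, k6⟩ := offT 3 h3S (by norm_num) h3T 3 (by norm_num)
      rw [hC4] at k4
      rw [hC6] at k6
      refine ⟨W.b₂, (isThreeAdmissible_b₂ W).congr ?_ ?_⟩
      · refine IsCoprime.dvd_of_dvd_mul_left (show IsCoprime (27 : ℤ) 256 from ⟨19, -2, by norm_num⟩) ?_
        rw [mul_sub]
        norm_num at k4
        exact k4
      · refine IsCoprime.dvd_of_dvd_mul_left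
          (show IsCoprime (27 : ℤ) 4096 from ⟨-1517, 10, by norm_num⟩) ?_
        rw [mul_sub]
        norm_num at k6
        exact k6
    · exact isThreeAdmissible_of_not_dvd h ⟨64 * Δ', by linear_combination hrel'⟩
  have hg2dvd : (2 : ℤ) ∣ g := by
    have : (2 : ℤ) ^ 1 ∣ g := (padicValInt_dvd_iff 1 g).mpr (Or.inr (hg2 ▸ hj1))
    simpa using this
  have h2' : (2 : ℤ) ∣ Δ' :=
    dvd_mul_of_dvd_right (dvd_pow (hg2dvd.mul_left _) three_ne_zero) _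
  obtain ⟨W', e4', e6', eΔ'⟩ := exists_model hrel' h2' he4 he6 h3adm
  have hvmul : ∀ q : ℕ, q.Prime → padicValInt q W'.Δ
      = padicValInt q W.Δ + 3 * (padicValInt q (2 ^ i) + padicValInt q g) := fun q hq => by
    have : Fact q.Prime := ⟨hq⟩
    have hp0 : (2 : ℤ) ^ i ≠ 0 := pow_ne_zero _ two_ne_zero
    have hx : (2 : ℤ) ^ i * g ≠ 0 := mul_ne_zero hp0 hg0
    rw [eΔ', hΔ', show ((2 : ℤ) ^ i * g) ^ 3 = (2 ^ i * g) * ((2 ^ i * g) * (2 ^ i * g)) by ring,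
      padicValInt.mul hΔ (mul_ne_zero hx (mul_ne_zero hx hx)),
      padicValInt.mul hx (mul_ne_zero hx hx), padicValInt.mul hx hx, padicValInt.mul hp0 hg0]
    ring
  have hbad' : ∀ q : ℕ, q.Prime → q ≠ 2 → (q : ℤ) ∣ W'.Δ → ¬ (q : ℤ) ∣ W.Δ →
      q ∉ S ∧ (q : ℤ) ∣ famD W.c₄ W.c₆ l n := fun q hq hq2 hd hnd => by
    have hp := Nat.prime_iff_prime_int.mp hq
    rw [eΔ', hΔ'] at hd
    have hD' : (q : ℤ) ∣ famD W.c₄ W.c₆ l n :=
      hD ▸ ((hp.dvd_mul.mp (hp.dvd_of_dvd_pow ((hp.dvd_mul.mp hd).resolve_left hnd))).resolve_left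
        (hodd_pow q hq hq2 i)).mul_left _
    refine ⟨fun hqS => ?_, hD'⟩
    have := dvd_sub hD' (by
      simpa using (offT q hqS hq2 (fun hqT => hnd ((hT q).mp hqT).2.2.1) 1 (by norm_num)).1)
    rw [sub_sub_cancel] at this
    exact hodd_pow q hq hq2 8 (by simpa using this)
  refine ⟨W', l, n, ⟨?_, ?_, ?_, ?_, ?_⟩, by rw [e4', hC4], by rw [e6', hC6], ?_, ?_, ?_⟩
  · rw [eΔ', hΔ', show W.Δ * (2 ^ i * g) ^ 3 = (ε * W.Δ) * (ε * g) * ((2 ^ i) ^ 3 * g ^ 2) by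
      rcases hε with rfl | rfl <;> ring]
    exact mul_neg_of_neg_of_pos (mul_neg_of_neg_of_pos hneg hεg) (by positivity)
  · intro q hq hqd hqc
    rw [e4'] at hqc
    by_cases hq2 : q = 2
    · subst hq2; rw [Int.odd_iff] at he4; omega
    have hqC : (q : ℤ) ∣ famC4 W.c₄ W.c₆ l n := hC4 ▸ hqc.mul_left _
    by_cases hqΔ : (q : ℤ) ∣ W.Δ
    · have hqS := memS q hq hqΔ
      by_cases hqT : q ∈ T
      · exact (inT q hqT).2.2 hqC
      · have := dvd_sub hqC (by simpa using (offT q hqS hq2 hqT 1 (by norm_num)).2.1)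
        rw [sub_sub_cancel] at this
        rcases (Nat.prime_iff_prime_int.mp hq).dvd_mul.mp this with h | h
        · exact hodd_pow q hq hq2 8 (by simpa using h)
        · exact hW q hq hqΔ h
    · obtain ⟨hqS, hqD⟩ := hbad' q hq hq2 hqd hqΔ
      exact not_dvd_famC4 hq (fun h => hqS (hbad q hq h)) hqD
        (hsq q hq fun h => hqS (hMS q hq h)) hqC
  · rw [eΔ']; exact h2'
  · intro q hq hqd
    rw [hvmul q hq]
    by_cases hq2 : q = 2
    · subst hq2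
      rw [hg2, show padicValInt 2 ((2 : ℤ) ^ i) = i from
        padicValInt_eq_of_pow_dvd (p := 2) (by norm_num) fun h => ?_, mul_add, ← add_assoc]
      · exact hjodd
      · have := (pow_dvd_pow_iff two_ne_zero Int.prime_two.not_isUnit).mp h
        omega
    have : Fact q.Prime := ⟨hq⟩
    rw [show padicValInt q ((2 : ℤ) ^ i) = 0 from
      padicValInt.eq_zero_of_not_dvd (hodd_pow q hq hq2 i), zero_add]
    by_cases hqΔ : (q : ℤ) ∣ W.Δ
    · rcases Nat.even_or_odd (padicValInt q W.Δ) with he | ho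
      · have hqT : q ∈ T := (hT q).mpr ⟨memS q hq hqΔ, hq2, hqΔ, he⟩
        rw [(hval q hq hq2).resolve_left fun h0 => by
          have := (hgD q hq hq2 1).mpr (by simpa using (inT q hqT).1)
          rw [padicValInt_dvd_iff, h0] at this
          simp [hg0] at this]
        exact he.add_odd (by decide)
      · rw [show padicValInt q g = 0 from padicValInt.eq_zero_of_not_dvd fun h => ?_, mul_zero,
          add_zero]
        · exact ho
        · have hqT : q ∉ T := fun h' => Nat.not_even_iff_odd.mpr ho ((hT q).mp h').2.2.2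
          have h' := (hgD q hq hq2 1).mp (by simpa using h)
          have := dvd_sub h' (offT q (memS q hq hqΔ) hq2 hqT 1 (by norm_num)).1
          rw [sub_sub_cancel] at this
          exact hodd_pow q hq hq2 8 (by simpa using this)
    · obtain ⟨hqS, hqD⟩ := hbad' q hq hq2 hqd hqΔ
      rw [padicValInt.eq_zero_of_not_dvd hqΔ, zero_add, (hval q hq hq2).resolve_left fun h0 => by
        have := (hgD q hq hq2 1).mpr (by simpa using hqD)
        rw [padicValInt_dvd_iff, h0] at this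
        simp [hg0] at this]
      decide
  · obtain ⟨p, hp, hpR, hp8⟩ := exists_prime_three_five R.toNat (by left; omega)
    refine ⟨p, hp, ?_, hp8⟩
    have hpg : (p : ℤ) ∣ ε * g := hR ▸ Dvd.dvd.mul_left (by
      rw [← Int.toNat_of_nonneg hRpos.le]; exact_mod_cast hpR) _
    have : (p : ℤ) ∣ g := by rcases hε with rfl | rfl <;> simpa using hpg
    rw [eΔ', hΔ']
    exact dvd_mul_of_dvd_right (dvd_pow (this.mul_left _) three_ne_zero) _
  · refine ⟨fun h => ?_, fun h => eΔ' ▸ h.mul_right _⟩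
    by_contra h'
    exact (hbad' 3 Nat.prime_three (by norm_num) (by simpa using h) (by simpa using h')).1 h3S
  · exact fun q h => eΔ' ▸ h.mul_right _
  · intro q hq
    rw [hvmul q hq]
    omega

/-- A member of the mod 3 family satisfying the hypotheses of the 2-adic theorem. -/
theorem exists_member (W : WeierstrassCurve ℤ) (hΔ : W.Δ ≠ 0) (hW : W.IsSemistableModel)
    (h2 : (2 : ℤ) ∣ W.Δ) (hroot : ∀ l n : ℤ, n ≠ 0 → famD W.c₄ W.c₆ l n ≠ 0) :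
    ∃ (W' : WeierstrassCurve ℤ) (l n : ℤ), IsTwoAdicCurve W' ∧
      2 ^ 8 * W'.c₄ = famC4 W.c₄ W.c₆ l n ∧ 2 ^ 12 * W'.c₆ = famC6 W.c₄ W.c₆ l n ∧
      ((3 : ℤ) ∣ W'.Δ ↔ (3 : ℤ) ∣ W.Δ) ∧ (∀ q : ℕ, (q : ℤ) ∣ W.Δ → (q : ℤ) ∣ W'.Δ) ∧
      ∀ q : ℕ, q.Prime → padicValInt q W'.Δ % 3 = padicValInt q W.Δ % 3 := by
  have hc2 : ¬ (2 : ℤ) ∣ W.c₄ := by exact_mod_cast hW 2 Nat.prime_two (by exact_mod_cast h2)
  have h128 : (128 : ℤ) ∣ W.c₄ ^ 3 - W.c₆ ^ 2 := by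
    obtain ⟨d, hd⟩ := h2
    exact ⟨27 * d, by rw [← W.c_relation, hd]; ring⟩
  exact exists_member_of_two_class W hΔ hW hroot 0 fun t ht =>
    exists_two_class (by rw [Int.odd_iff]; omega) (c₆_emod_four hc2) h128 ht

end Fermat.Agent.TwoAdic.Curve
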