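import Fermat.Agent.Switch.Main
import Fermat.Agent.EC.Reduction.Frey
import Fermat.Agent.TwoAdic.Curve.Basic

/-!
# The 3-5 switch with control at the primes `2`, `3` and `5`

The switched curve keeps the exact valuation of the discriminant at `2`, `3` and `5`, hence is
multiplicative at `2` when the original curve is, and of the same type at `3` and `5`.
-/

set_option autoImplicit false

open WeierstrassCurve WeierstrassCurve.Affine

namespace Fermat.Agent.TwoAdic.Curve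

open Switch

local notation "Qb" => AlgebraicClosure ℚ

theorem delta_modEq_of_family {W : WeierstrassCurve ℤ} (F : FamilyData W) (n : ℤ) :
    30 * W.Δ ∣ (F.curve n).Δ - W.Δ := by
  rw [← Int.modEq_iff_dvd]
  have e4 : W.a₄ ≡ W.a₄ + F.d4 n [ZMOD 30 * W.Δ] := by
    rw [Int.modEq_iff_dvd, add_sub_cancel_left]; exact F.d4_dvd n
  have e6 : W.a₆ ≡ W.a₆ + F.d6 n [ZMOD 30 * W.Δ] := by
    rw [Int.modEq_iff_dvd, add_sub_cancel_left]; exact F.d6_dvd n
  generalize 30 * W.Δ = m at e4 e6 ⊢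
  simp only [FamilyData.curve, WeierstrassCurve.Δ, WeierstrassCurve.b₂, WeierstrassCurve.b₄,
    WeierstrassCurve.b₆, WeierstrassCurve.b₈]
  gcongr

theorem padicValInt_eq_of_dvd {a b m : ℤ} {p : ℕ} (hp : p.Prime) (hpm : (p : ℤ) ∣ m) (ha : a ≠ 0)
    (h : m * a ∣ b - a) : padicValInt p b = padicValInt p a := by
  have : Fact p.Prime := ⟨hp⟩
  obtain ⟨k, hk⟩ := h
  have hb : b = a * (1 + m * k) := by linear_combination hk
  have hu : ¬ (p : ℤ) ∣ 1 + m * k := fun hd =>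
    (Nat.prime_iff_prime_int.mp hp).not_dvd_one ((dvd_add_left (hpm.mul_right k)).mp hd)
  have hne : 1 + m * k ≠ 0 := fun h0 => hu (h0 ▸ dvd_zero _)
  rw [hb, padicValInt.mul ha hne, padicValInt.eq_zero_of_not_dvd hu, add_zero]

/-- The switch for a semistable curve, with traces on the 5-torsion and valuations at 2, 3, 5. -/
theorem exists_switch_of_semistable [Fact (Nat.Prime 5)] (W : WeierstrassCurve ℤ) (hΔ : W.Δ ≠ 0)
    (hW : W.IsSemistableModel) :
    ∃ W' : WeierstrassCurve ℤ, W'.Δ ≠ 0 ∧ W'.IsSemistableModel ∧ W'.ModRepIsIrreducible 3 ∧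
      SameTrace W W' 5 ∧
      (∀ p : ℕ, p = 2 ∨ p = 3 ∨ p = 5 → padicValInt p W'.Δ = padicValInt p W.Δ) ∧
      (∀ q : ℕ, q.Prime → (q : ℤ) ∣ W.Δ → (q : ℤ) ∣ W'.Δ) ∧
      ∀ ℓ : ℕ, ℓ.Prime → W.IsGoodPrimeFor ℓ → W'.IsGoodPrimeFor ℓ → ℓ ≠ 5 →
        (5 : ℤ) ∣ (W'.apOfModel ℓ - W.apOfModel ℓ) := by
  obtain ⟨F⟩ := exists_familyData hΔ hW
  obtain ⟨n, hn, hirr⟩ := F.exists_irreducible hW (c₄_ne_zero_of_semistable hΔ hW)
  have hfib := fib_curve F n hn
  rw [show F.par n = (((F.M * n : ℤ) : ℚ) : Qb) by simp [FamilyData.par]] at hfib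
  have key : SameTrace W (F.curve n) 5 := F.galoisTrace_eq (W.map (Int.castRingHom ℚ))
    ((F.curve n).map (Int.castRingHom ℚ)) 0 ((F.M * n : ℤ) : ℚ)
    (fun V hV => by
      rcases hV with rfl | hV
      · exact ⟨by simp, by simp, by simp⟩
      · rw [Set.mem_singleton_iff] at hV
        subst hV
        exact ⟨by simp [FamilyData.curve], by simp [FamilyData.curve], by simp [FamilyData.curve]⟩)
    (fib_base F) hfib
  refine ⟨F.curve n, hn, F.isSemistableModel hW n, hirr, key, fun p hp => ?_,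
    fun q hq hqd => ?_, fun ℓ hℓ hg hg' h5 => ?_⟩
  · exact padicValInt_eq_of_dvd (by rcases hp with rfl | rfl | rfl <;> norm_num)
      (by rcases hp with rfl | rfl | rfl <;> norm_num) hΔ (delta_modEq_of_family F n)
  · have := dvd_add ((hqd.mul_left 30).trans (delta_modEq_of_family F n)) hqd
    simpa using this
  · obtain ⟨A, hA⟩ := Arith.exists_liesOverPrime hℓ
    obtain ⟨σ, hσ⟩ := Arith.exists_isFrobeniusAt hA hℓ
    have e := EC.FrobTrace.galoisTrace_frobenius (p := 5) W hℓ hg h5 hA hσ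
    have e' := EC.FrobTrace.galoisTrace_frobenius (p := 5) (F.curve n) hℓ hg' h5 hA hσ
    have k := key σ
    rw [show (W.map (Int.castRingHom ℚ)).toAffine = W.map (Int.castRingHom ℚ) from rfl, e] at k
    rw [show ((F.curve n).map (Int.castRingHom ℚ)).toAffine
      = (F.curve n).map (Int.castRingHom ℚ) from rfl, e'] at k
    exact (ZMod.intCast_zmod_eq_zero_iff_dvd _ 5).mp (by push_cast; rw [k, sub_self])

theorem two_dvd_delta_freyCurveInt (P : FreyPackage) : (2 : ℤ) ∣ P.freyCurveInt.Δ := by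
  have hb : (2 : ℤ) ^ 5 ∣ P.b ^ P.p := EC.Reduction.Frey.two_pow_dvd_pow_b P
  have h : (2 : ℤ) ^ 8 * 2 ∣ (P.a * P.b * P.c) ^ (2 * P.p) := by
    rw [show (P.a * P.b * P.c) ^ (2 * P.p) = (P.a * P.c) ^ (2 * P.p) * (P.b ^ P.p) ^ 2 by ring]
    exact (show (2 : ℤ) ^ 8 * 2 ∣ (2 ^ 5) ^ 2 by norm_num).trans
      ((pow_dvd_pow_of_dvd hb 2).mul_left _)
  rw [← EC.Reduction.Frey.Δ_eq] at h
  exact (mul_dvd_mul_iff_left (by norm_num)).mp h

theorem freyCurveInt_isSemistableModel (P : FreyPackage) : P.freyCurveInt.IsSemistableModel :=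
  fun _ hq hΔ => EC.Reduction.Frey.not_dvd_c₄ P hq
    (by_contra fun h => EC.Reduction.Frey.not_dvd_Δ P hq h hΔ)

/-- The switched Frey curve: semistable, multiplicative at `2`, irreducible mod `3`, of the type of
the Frey curve at `3` and `5`, with the same traces mod `5`. -/
theorem exists_switch [Fact (Nat.Prime 5)] (P : FreyPackage) :
    ∃ W' : WeierstrassCurve ℤ, W'.Δ ≠ 0 ∧ W'.IsSemistableModel ∧ W'.ModRepIsIrreducible 3 ∧
      (2 : ℤ) ∣ W'.Δ ∧ SameTrace P.freyCurveInt W' 5 ∧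
      (∀ p : ℕ, p = 2 ∨ p = 3 ∨ p = 5 →
        padicValInt p W'.Δ = padicValInt p P.freyCurveInt.Δ) ∧
      (∀ q : ℕ, q.Prime → (q : ℤ) ∣ P.freyCurveInt.Δ → (q : ℤ) ∣ W'.Δ) ∧
      ∀ ℓ : ℕ, ℓ.Prime → P.freyCurveInt.IsGoodPrimeFor ℓ → W'.IsGoodPrimeFor ℓ → ℓ ≠ 5 →
        (5 : ℤ) ∣ (W'.apOfModel ℓ - P.freyCurveInt.apOfModel ℓ) := by
  obtain ⟨W', h0, hs, hirr, htr, hv, hbad, hap⟩ := exists_switch_of_semistable P.freyCurveInt
    (EC.Reduction.Frey.Δ_ne_zero P) (freyCurveInt_isSemistableModel P)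
  exact ⟨W', h0, hs, hirr, hbad 2 Nat.prime_two (two_dvd_delta_freyCurveInt P), htr, hv, hbad,
    hap⟩

end Fermat.Agent.TwoAdic.Curve
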