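import Mathlib
import Fermat.Agent.Mazur.Fifteen.Three

/-!
# Points of order three and collinear points on a Weierstrass curve

`flexPoly V x` is the third division polynomial. Its roots are abscissae of points of order three,
and three collinear points with distinct abscissae add up to zero.
-/

set_option autoImplicit false

open WeierstrassCurve WeierstrassCurve.Affine

namespace Fermat.Agent.TwoAdic.Curve

variable {K : Type*} [Field K]

/-- The third division polynomial at `x`. -/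
def flexPoly (V : WeierstrassCurve K) (x : K) : K :=
  3 * x ^ 4 + V.b₂ * x ^ 3 + 3 * V.b₄ * x ^ 2 + 3 * V.b₆ * x + V.b₈

variable [CharZero K] [DecidableEq K] {V : WeierstrassCurve K}

theorem flexPoly_eq_zero {x y : K} (h : V.toAffine.Nonsingular x y)
    (h3 : (3 : ℕ) • (Point.some x y h : V.toAffine.Point) = 0) : flexPoly V x = 0 := by
  obtain ⟨hη, hL⟩ := Mazur.Fifteen.three_torsion_coords V h h3
  have hl : Mazur.Fifteen.tangentSlope V x y * (2 * y + V.a₁ * x + V.a₃)
      = 3 * x ^ 2 + 2 * V.a₂ * x + V.a₄ - V.a₁ * y := by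
    rw [Mazur.Fifteen.tangentSlope, div_mul_cancel₀ _ hη]
  have he := (Affine.equation_iff ..).mp h.1
  set L := Mazur.Fifteen.tangentSlope V x y
  have key : (6 * x ^ 2 + V.b₂ * x + V.b₄) ^ 2
      = (V.b₂ + 12 * x) * (4 * x ^ 3 + V.b₂ * x ^ 2 + 2 * V.b₄ * x + V.b₆) := by
    have hnum : (2 * L + V.a₁) * (2 * y + V.a₁ * x + V.a₃) = 6 * x ^ 2 + V.b₂ * x + V.b₄ := by
      simp only [WeierstrassCurve.b₂, WeierstrassCurve.b₄]
      linear_combination 2 * hl
    have hsq : (2 * L + V.a₁) ^ 2 = V.b₂ + 12 * x := by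
      simp only [WeierstrassCurve.b₂]
      linear_combination 4 * hL
    have hη2 : (2 * y + V.a₁ * x + V.a₃) ^ 2
        = 4 * x ^ 3 + V.b₂ * x ^ 2 + 2 * V.b₄ * x + V.b₆ := by
      simp only [WeierstrassCurve.b₂, WeierstrassCurve.b₄, WeierstrassCurve.b₆]
      linear_combination 4 * he
    rw [← hnum, ← hsq, ← hη2]; ring
  simp only [flexPoly]
  apply mul_left_cancel₀ (show (-4 : K) ≠ 0 by norm_num)
  rw [mul_zero]
  linear_combination key - V.b_relation

theorem three_nsmul_eq_zero_of_flexPoly {x y : K} (h : V.toAffine.Nonsingular x y)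
    (hp : flexPoly V x = 0) : (3 : ℕ) • (Point.some x y h : V.toAffine.Point) = 0 := by
  have he := (Affine.equation_iff ..).mp h.1
  have hη2 : (2 * y + V.a₁ * x + V.a₃) ^ 2
      = 4 * x ^ 3 + V.b₂ * x ^ 2 + 2 * V.b₄ * x + V.b₆ := by
    simp only [WeierstrassCurve.b₂, WeierstrassCurve.b₄, WeierstrassCurve.b₆]
    linear_combination 4 * he
  have key : (6 * x ^ 2 + V.b₂ * x + V.b₄) ^ 2
      = (V.b₂ + 12 * x) * (2 * y + V.a₁ * x + V.a₃) ^ 2 := by
    simp only [flexPoly] at hp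
    linear_combination V.b_relation - 4 * hp - (V.b₂ + 12 * x) * hη2
  have hη : 2 * y + V.a₁ * x + V.a₃ ≠ 0 := by
    intro h0
    rw [h0, zero_pow two_ne_zero, mul_zero] at key
    have hn := (pow_eq_zero_iff two_ne_zero).mp key
    simp only [WeierstrassCurve.b₂, WeierstrassCurve.b₄] at hn
    obtain ⟨-, hs⟩ := (Affine.nonsingular_iff' ..).mp h
    rcases hs with hs | hs
    · exact hs (by linear_combination (-1 / 2 : K) * hn + V.a₁ / 2 * h0)
    · exact hs (by linear_combination h0)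
  have hy : y ≠ V.toAffine.negY x y := fun e => hη (by
    rw [Affine.negY] at e; linear_combination e)
  set P : V.toAffine.Point := Point.some x y h with hP
  set L := V.toAffine.slope x x y y with hL
  have hLη : L * (2 * y + V.a₁ * x + V.a₃) = 3 * x ^ 2 + 2 * V.a₂ * x + V.a₄ - V.a₁ * y := by
    rw [hL, Affine.slope_of_Y_ne rfl hy, Affine.negY]
    rw [show y - (-y - V.a₁ * x - V.a₃) = 2 * y + V.a₁ * x + V.a₃ by ring,
      div_mul_cancel₀ _ hη]
  have hx : V.toAffine.addX x x L = x := by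
    have e : ((2 * L + V.a₁) ^ 2 - (V.b₂ + 12 * x)) * (2 * y + V.a₁ * x + V.a₃) ^ 2 = 0 := by
      have hnum : (2 * L + V.a₁) * (2 * y + V.a₁ * x + V.a₃) = 6 * x ^ 2 + V.b₂ * x + V.b₄ := by
        simp only [WeierstrassCurve.b₂, WeierstrassCurve.b₄]
        linear_combination 2 * hLη
      rw [sub_mul, ← mul_pow, hnum, key, sub_self]
    have e2 := (mul_eq_zero.mp e).resolve_right (pow_ne_zero _ hη)
    simp only [Affine.addX]
    simp only [WeierstrassCurve.b₂] at e2
    linear_combination e2 / 4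
  have h2 : P + P = -P := by
    rw [hP, Affine.Point.add_self_of_Y_ne hy, Point.neg_some]
    simp only [Point.some.injEq]
    refine ⟨hx, ?_⟩
    rw [Affine.addY, Affine.negAddY, ← hL, hx, sub_self, mul_zero, zero_add]
  rw [succ_nsmul, two_nsmul, h2, neg_add_cancel]

/-- Three collinear points with distinct abscissae add up to zero. -/
theorem add_add_eq_zero_of_collinear {x₁ y₁ x₂ y₂ x₃ y₃ : K}
    (h₁ : V.toAffine.Nonsingular x₁ y₁) (h₂ : V.toAffine.Nonsingular x₂ y₂)
    (h₃ : V.toAffine.Nonsingular x₃ y₃) (h12 : x₁ ≠ x₂) (h13 : x₁ ≠ x₃) (h23 : x₂ ≠ x₃)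
    (hc : (y₃ - y₁) * (x₁ - x₂) = (y₁ - y₂) * (x₃ - x₁)) :
    (Point.some x₁ y₁ h₁ + Point.some x₂ y₂ h₂ + Point.some x₃ y₃ h₃ : V.toAffine.Point) = 0 := by
  set L := V.toAffine.slope x₁ x₂ y₁ y₂ with hL
  have hy3 : y₃ = L * (x₃ - x₁) + y₁ := by
    rw [hL, Affine.slope_of_X_ne h12]
    have : x₁ - x₂ ≠ 0 := sub_ne_zero.mpr h12
    field_simp
    linear_combination hc
  have hp := congrArg (Polynomial.eval x₃)
    (Affine.addPolynomial_slope h₁.1 h₂.1 (fun h => h12 h.1))
  have hz : (V.toAffine.addPolynomial x₁ y₁ L).eval x₃ = 0 := by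
    set u := L ^ 2 + V.a₁ * L - V.a₂ - x₁ - x₃ with hu
    have e : V.toAffine.addX x₁ u L = x₃ := by rw [Affine.addX, hu]; ring
    have k := Affine.equation_add_iff (W' := V.toAffine) x₁ u y₁ L
    rw [Affine.negAddY, e, ← hy3] at k
    exact k.mp h₃.1
  rw [← hL, hz] at hp
  simp only [Polynomial.eval_neg, Polynomial.eval_mul, Polynomial.eval_sub, Polynomial.eval_X,
    Polynomial.eval_C] at hp
  have hx : V.toAffine.addX x₁ x₂ L = x₃ := by
    rcases mul_eq_zero.mp (neg_eq_zero.mp hp.symm) with h | h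
    · rcases mul_eq_zero.mp h with h | h
      · exact absurd (sub_eq_zero.mp h).symm h13
      · exact absurd (sub_eq_zero.mp h).symm h23
    · exact (sub_eq_zero.mp h).symm
  rw [Affine.Point.add_of_X_ne h12, add_eq_zero_iff_eq_neg, Point.neg_some]
  simp only [Point.some.injEq]
  refine ⟨hx, ?_⟩
  rw [Affine.addY, Affine.negAddY, ← hL, hx, ← hy3]

/-- The third intersection point of a chord. -/
theorem exists_third_point {x₁ y₁ x₂ y₂ : K} (h₁ : V.toAffine.Nonsingular x₁ y₁)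
    (h₂ : V.toAffine.Nonsingular x₂ y₂) (h12 : x₁ ≠ x₂) :
    ∃ x₃ y₃, ∃ h₃ : V.toAffine.Nonsingular x₃ y₃,
      (y₃ - y₁) * (x₁ - x₂) = (y₁ - y₂) * (x₃ - x₁) ∧
      (Point.some x₁ y₁ h₁ + Point.some x₂ y₂ h₂ + Point.some x₃ y₃ h₃ : V.toAffine.Point) = 0 := by
  set L := V.toAffine.slope x₁ x₂ y₁ y₂ with hL
  refine ⟨V.toAffine.addX x₁ x₂ L, V.toAffine.negAddY x₁ x₂ y₁ L,
    Affine.nonsingular_negAdd h₁ h₂ (fun h => h12 h.1), ?_, ?_⟩
  · rw [Affine.negAddY, hL, Affine.slope_of_X_ne h12]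
    have : x₁ - x₂ ≠ 0 := sub_ne_zero.mpr h12
    field_simp
    ring
  · rw [Affine.Point.add_of_X_ne h12, add_eq_zero_iff_eq_neg, Point.neg_some]
    rfl

end Fermat.Agent.TwoAdic.Curve
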