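import Mathlib
import Fermat.Agent.TwoAdic.Curve.Forms
import Fermat.Agent.TwoAdic.Curve.FlexPoints

/-!
# The linear identification of the flexes along the mod 3 family

If `E` has invariants `(a, b)` and `E'` has invariants `(t⁴ famC4, t⁶ famC6)` at `(l, n)`, then on
the short models `X' = t² (k₁ X + k₂) / (3 l - n X)`, `Y' = 3 t³ D Y / (3 l - n X)` maps the
points of order three of `E` to those of `E'` additively.
-/

set_option autoImplicit false

open WeierstrassCurve WeierstrassCurve.Affine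

namespace Fermat.Agent.TwoAdic.Curve

variable {K : Type*} [Field K]

/-- `E'` is a member of the mod 3 family of `E` at `(l, n)`, scaled by `t`. -/
structure IsFamMember (E E' : WeierstrassCurve K) (l n t : K) : Prop where
  delta_ne : E.Δ ≠ 0
  delta_ne' : E'.Δ ≠ 0
  t_ne : t ≠ 0
  c4_eq : E'.c₄ = t ^ 4 * famC4 E.c₄ E.c₆ l n
  c6_eq : E'.c₆ = t ^ 6 * famC6 E.c₄ E.c₆ l n

section Formulas

variable (E E' : WeierstrassCurve K) (l n t x y : K)

/-- The short model abscissa. -/
def shortX : K := 36 * x + 3 * E.b₂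

/-- The short model ordinate. -/
def shortY : K := 108 * (2 * y + E.a₁ * x + E.a₃)

/-- The numerator of the map. -/
def flexNum : K :=
  (3 * l ^ 3 - 9 * E.c₄ * l * n ^ 2 - 6 * E.c₆ * n ^ 3) * shortX E x
    - 27 * E.c₄ * l ^ 2 * n - 54 * E.c₆ * l * n ^ 2 - 27 * E.c₄ ^ 2 * n ^ 3

/-- The denominator of the map. -/
def flexDen : K := 3 * l - n * shortX E x

/-- The abscissa of the image. -/
def imgX : K := (t ^ 2 * (flexNum E l n x / flexDen E l n x) - 3 * E'.b₂) / 36

/-- The ordinate of the image. -/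
def imgY : K :=
  (t ^ 3 * (3 * famD E.c₄ E.c₆ l n * shortY E x y / flexDen E l n x) / 108
    - E'.a₁ * imgX E E' l n t x - E'.a₃) / 2

end Formulas

theorem short_equation {E : WeierstrassCurve K} {x y : K} (h : E.toAffine.Equation x y) :
    shortY E x y ^ 2 = shortX E x ^ 3 - 27 * E.c₄ * shortX E x - 54 * E.c₆ := by
  have he := (Affine.equation_iff ..).mp h
  simp only [shortX, shortY, WeierstrassCurve.c₄, WeierstrassCurve.c₆, WeierstrassCurve.b₂,
    WeierstrassCurve.b₄, WeierstrassCurve.b₆]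
  linear_combination 46656 * he

theorem short_flexPoly (E : WeierstrassCurve K) (x : K) :
    3 * shortX E x ^ 4 + 6 * (-27 * E.c₄) * shortX E x ^ 2 + 12 * (-54 * E.c₆) * shortX E x
      - (-27 * E.c₄) ^ 2 = 1679616 * flexPoly E x := by
  simp only [shortX, flexPoly, WeierstrassCurve.c₄, WeierstrassCurve.c₆]
  linear_combination -419904 * E.b_relation

/-- The image satisfies the short equation up to the flex polynomial. -/
theorem cubic_identity (a b l n X : K) :
    9 * famD a b l n ^ 2 * (X ^ 3 - 27 * a * X - 54 * b) * (3 * l - n * X)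
      - (((3 * l ^ 3 - 9 * a * l * n ^ 2 - 6 * b * n ^ 3) * X
            - 27 * a * l ^ 2 * n - 54 * b * l * n ^ 2 - 27 * a ^ 2 * n ^ 3) ^ 3
        - 27 * famC4 a b l n * ((3 * l ^ 3 - 9 * a * l * n ^ 2 - 6 * b * n ^ 3) * X
            - 27 * a * l ^ 2 * n - 54 * b * l * n ^ 2 - 27 * a ^ 2 * n ^ 3) * (3 * l - n * X) ^ 2
        - 54 * famC6 a b l n * (3 * l - n * X) ^ 3)
    = -3 * n * famD a b l n ^ 2
        * (3 * X ^ 4 + 6 * (-27 * a) * X ^ 2 + 12 * (-54 * b) * X - (-27 * a) ^ 2) := by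
  simp only [famD, famC4, famC6]; ring

/-- The image is a flex. -/
theorem flex_identity (a b l n X : K) :
    3 * ((3 * l ^ 3 - 9 * a * l * n ^ 2 - 6 * b * n ^ 3) * X
          - 27 * a * l ^ 2 * n - 54 * b * l * n ^ 2 - 27 * a ^ 2 * n ^ 3) ^ 4
      + 6 * (-27 * famC4 a b l n) * ((3 * l ^ 3 - 9 * a * l * n ^ 2 - 6 * b * n ^ 3) * X
          - 27 * a * l ^ 2 * n - 54 * b * l * n ^ 2 - 27 * a ^ 2 * n ^ 3) ^ 2
          * (3 * l - n * X) ^ 2
      + 12 * (-54 * famC6 a b l n) * ((3 * l ^ 3 - 9 * a * l * n ^ 2 - 6 * b * n ^ 3) * X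
          - 27 * a * l ^ 2 * n - 54 * b * l * n ^ 2 - 27 * a ^ 2 * n ^ 3) * (3 * l - n * X) ^ 3
      - (-27 * famC4 a b l n) ^ 2 * (3 * l - n * X) ^ 4
    = 81 * famD a b l n ^ 3
        * (3 * X ^ 4 + 6 * (-27 * a) * X ^ 2 + 12 * (-54 * b) * X - (-27 * a) ^ 2) := by
  simp only [famD, famC4, famC6]; ring

variable [CharZero K] {E E' : WeierstrassCurve K} {l n t : K}

theorem IsFamMember.famD_ne (h : IsFamMember E E' l n t) : famD E.c₄ E.c₆ l n ≠ 0 := by
  intro h0
  apply h.delta_ne'
  have e : (1728 : K) * E'.Δ = 0 := by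
    rw [E'.c_relation, h.c4_eq, h.c6_eq]
    linear_combination t ^ 12 * famC4_cube_sub_famC6_sq E.c₄ E.c₆ l n
      + t ^ 12 * (E.c₄ ^ 3 - E.c₆ ^ 2) * famD E.c₄ E.c₆ l n ^ 2 * h0
  simpa using e

theorem IsFamMember.flexDen_ne (h : IsFamMember E E' l n t) {x : K} (hx : flexPoly E x = 0) :
    flexDen E l n x ≠ 0 := by
  intro h0
  have e := short_flexPoly E x
  rw [hx, mul_zero] at e
  have hl : n * shortX E x = 3 * l := by
    simp only [flexDen] at h0; linear_combination -h0
  apply h.famD_ne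
  apply mul_left_cancel₀ (show (243 : K) ≠ 0 by norm_num)
  rw [mul_zero]
  simp only [famD]
  linear_combination n ^ 4 * e - (3 * ((n * shortX E x) ^ 3 + (n * shortX E x) ^ 2 * (3 * l)
    + n * shortX E x * (3 * l) ^ 2 + (3 * l) ^ 3) - 162 * E.c₄ * n ^ 2 * (n * shortX E x + 3 * l)
    - 648 * E.c₆ * n ^ 3) * hl

theorem shortX_imgX (x : K) :
    shortX E' (imgX E E' l n t x) = t ^ 2 * (flexNum E l n x / flexDen E l n x) := by
  simp only [shortX, imgX]; ring

theorem shortY_imgY (x y : K) :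
    shortY E' (imgX E E' l n t x) (imgY E E' l n t x y)
      = t ^ 3 * (3 * famD E.c₄ E.c₆ l n * shortY E x y / flexDen E l n x) := by
  simp only [shortY, imgY]; ring

theorem IsFamMember.equation_img (h : IsFamMember E E' l n t) {x y : K}
    (he : E.toAffine.Equation x y) (hx : flexPoly E x = 0) :
    E'.toAffine.Nonsingular (imgX E E' l n t x) (imgY E E' l n t x y) := by
  refine (Affine.equation_iff_nonsingular_of_Δ_ne_zero h.delta_ne').mp
    ((Affine.equation_iff ..).mpr ?_)
  have hL := h.flexDen_ne hx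
  have e1 := short_equation he
  have ef := short_flexPoly E x
  rw [hx, mul_zero] at ef
  have ec := cubic_identity E.c₄ E.c₆ l n (shortX E x)
  rw [ef, mul_zero] at ec
  have key : shortY E' (imgX E E' l n t x) (imgY E E' l n t x y) ^ 2
      = shortX E' (imgX E E' l n t x) ^ 3 - 27 * E'.c₄ * shortX E' (imgX E E' l n t x)
        - 54 * E'.c₆ := by
    rw [shortX_imgX, shortY_imgY, h.c4_eq, h.c6_eq]
    set L := flexDen E l n x with hLdef
    set N := flexNum E l n x with hNdef
    have core : 9 * famD E.c₄ E.c₆ l n ^ 2 * shortY E x y ^ 2 * L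
        = N ^ 3 - 27 * famC4 E.c₄ E.c₆ l n * N * L ^ 2 - 54 * famC6 E.c₄ E.c₆ l n * L ^ 3 := by
      simp only [hLdef, hNdef, flexNum, flexDen]
      linear_combination ec
        + 9 * famD E.c₄ E.c₆ l n ^ 2 * (3 * l - n * shortX E x) * e1
    have hk : (t ^ 3 * (3 * famD E.c₄ E.c₆ l n * shortY E x y / L)) ^ 2
        - ((t ^ 2 * (N / L)) ^ 3 - 27 * (t ^ 4 * famC4 E.c₄ E.c₆ l n) * (t ^ 2 * (N / L))
          - 54 * (t ^ 6 * famC6 E.c₄ E.c₆ l n))
        = t ^ 6 / L ^ 3 * (9 * famD E.c₄ E.c₆ l n ^ 2 * shortY E x y ^ 2 * L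
          - (N ^ 3 - 27 * famC4 E.c₄ E.c₆ l n * N * L ^ 2
            - 54 * famC6 E.c₄ E.c₆ l n * L ^ 3)) := by
      field_simp
      ring
    rwa [core, sub_self, mul_zero, sub_eq_zero] at hk
  simp only [shortX, shortY, WeierstrassCurve.c₄, WeierstrassCurve.c₆, WeierstrassCurve.b₂,
    WeierstrassCurve.b₄, WeierstrassCurve.b₆] at key
  linear_combination key / 46656

theorem IsFamMember.flexPoly_img (h : IsFamMember E E' l n t) {x : K} (hx : flexPoly E x = 0) :
    flexPoly E' (imgX E E' l n t x) = 0 := by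
  have hL := h.flexDen_ne hx
  have ef := short_flexPoly E x
  rw [hx, mul_zero] at ef
  have ec := flex_identity E.c₄ E.c₆ l n (shortX E x)
  rw [ef, mul_zero] at ec
  have key := short_flexPoly E' (imgX E E' l n t x)
  rw [shortX_imgX, h.c4_eq, h.c6_eq] at key
  have z : (1679616 : K) * flexPoly E' (imgX E E' l n t x) = 0 := by
    rw [← key]
    field_simp
    simp only [flexNum, flexDen]
    linear_combination t ^ 8 * ec
  simpa using z

theorem IsFamMember.imgX_injective (h : IsFamMember E E' l n t) {x x' : K}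
    (hx : flexPoly E x = 0) (hx' : flexPoly E x' = 0)
    (e : imgX E E' l n t x = imgX E E' l n t x') : x = x' := by
  have hL := h.flexDen_ne hx
  have hL' := h.flexDen_ne hx'
  have e2 := congrArg (shortX E') e
  rw [shortX_imgX, shortX_imgX] at e2
  have e3 := mul_left_cancel₀ (pow_ne_zero 2 h.t_ne) e2
  rw [div_eq_div_iff hL hL'] at e3
  simp only [flexNum, flexDen] at e3
  have z : (324 : K) * famD E.c₄ E.c₆ l n * (x - x') = 0 := by
    simp only [shortX] at e3
    simp only [famD]
    linear_combination e3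
  simpa [h.famD_ne, sub_eq_zero] using z

theorem IsFamMember.collinear_img (h : IsFamMember E E' l n t) {x₁ y₁ x₂ y₂ x₃ y₃ : K}
    (h₁ : flexPoly E x₁ = 0) (h₂ : flexPoly E x₂ = 0) (h₃ : flexPoly E x₃ = 0)
    (hc : (y₃ - y₁) * (x₁ - x₂) = (y₁ - y₂) * (x₃ - x₁)) :
    (imgY E E' l n t x₃ y₃ - imgY E E' l n t x₁ y₁) * (imgX E E' l n t x₁ - imgX E E' l n t x₂)
      = (imgY E E' l n t x₁ y₁ - imgY E E' l n t x₂ y₂)
        * (imgX E E' l n t x₃ - imgX E E' l n t x₁) := by
  have hL₁ := h.flexDen_ne h₁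
  have hL₂ := h.flexDen_ne h₂
  have hL₃ := h.flexDen_ne h₃
  set D := famD E.c₄ E.c₆ l n with hD
  -- the determinant of the images on the short models
  have hdet : (shortY E x₃ y₃ * flexDen E l n x₁ - shortY E x₁ y₁ * flexDen E l n x₃)
        * (flexNum E l n x₁ * flexDen E l n x₂ - flexNum E l n x₂ * flexDen E l n x₁)
      = (shortY E x₁ y₁ * flexDen E l n x₂ - shortY E x₂ y₂ * flexDen E l n x₁)
        * (flexNum E l n x₃ * flexDen E l n x₁ - flexNum E l n x₁ * flexDen E l n x₃) := by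
    simp only [flexNum, flexDen, shortX, shortY]
    linear_combination
      (216 * 36 * 9 * (l ^ 4 - 6 * E.c₄ * l ^ 2 * n ^ 2 - 8 * E.c₆ * l * n ^ 3
        - 3 * E.c₄ ^ 2 * n ^ 4) * (3 * l - n * (36 * x₁ + 3 * E.b₂))) * hc
  have e : ∀ u v : K, imgY E E' l n t u v = (t ^ 3 * (3 * D * shortY E u v / flexDen E l n u) / 108
      - E'.a₁ * imgX E E' l n t u - E'.a₃) / 2 := fun u v => rfl
  have hk : (imgY E E' l n t x₃ y₃ - imgY E E' l n t x₁ y₁)
        * (imgX E E' l n t x₁ - imgX E E' l n t x₂)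
      - (imgY E E' l n t x₁ y₁ - imgY E E' l n t x₂ y₂)
        * (imgX E E' l n t x₃ - imgX E E' l n t x₁)
      = t ^ 5 * D / (2592 * flexDen E l n x₁ ^ 2 * flexDen E l n x₂ * flexDen E l n x₃)
        * ((shortY E x₃ y₃ * flexDen E l n x₁ - shortY E x₁ y₁ * flexDen E l n x₃)
            * (flexNum E l n x₁ * flexDen E l n x₂ - flexNum E l n x₂ * flexDen E l n x₁)
          - (shortY E x₁ y₁ * flexDen E l n x₂ - shortY E x₂ y₂ * flexDen E l n x₁)
            * (flexNum E l n x₃ * flexDen E l n x₁ - flexNum E l n x₁ * flexDen E l n x₃)) := by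
    simp only [e, imgX]
    field_simp
    ring
  rwa [hdet, sub_self, mul_zero, sub_eq_zero] at hk

variable [DecidableEq K]

open scoped Classical in
/-- The map on points; only its values on points of order three matter. -/
noncomputable def flexMap (E E' : WeierstrassCurve K) (l n t : K) :
    E.toAffine.Point → E'.toAffine.Point
  | .zero => 0
  | .some x y _ =>
    if hn : E'.toAffine.Nonsingular (imgX E E' l n t x) (imgY E E' l n t x y)
    then .some _ _ hn else 0

theorem flexMap_zero : flexMap E E' l n t 0 = 0 := rfl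

theorem IsFamMember.flexMap_some (h : IsFamMember E E' l n t) {x y : K}
    (hns : E.toAffine.Nonsingular x y) (hx : flexPoly E x = 0) :
    flexMap E E' l n t (.some x y hns) = .some _ _ (h.equation_img hns.1 hx) := by
  simp only [flexMap, dif_pos (h.equation_img hns.1 hx)]

theorem IsFamMember.three_nsmul_flexMap (h : IsFamMember E E' l n t) {P : E.toAffine.Point}
    (hP : 3 • P = 0) : 3 • flexMap E E' l n t P = 0 := by
  obtain _ | ⟨x, y, hns⟩ := P
  · rfl
  · have hx := flexPoly_eq_zero hns hP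
    rw [h.flexMap_some hns hx]
    exact three_nsmul_eq_zero_of_flexPoly _ (h.flexPoly_img hx)

theorem IsFamMember.flexMap_eq_zero (h : IsFamMember E E' l n t) {P : E.toAffine.Point}
    (hP : 3 • P = 0) (e : flexMap E E' l n t P = 0) : P = 0 := by
  obtain _ | ⟨x, y, hns⟩ := P
  · rfl
  · rw [h.flexMap_some hns (flexPoly_eq_zero hns hP)] at e
    exact absurd e (Point.some_ne_zero _)

theorem IsFamMember.flexMap_neg (h : IsFamMember E E' l n t) {P : E.toAffine.Point}
    (hP : 3 • P = 0) : flexMap E E' l n t (-P) = -flexMap E E' l n t P := by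
  obtain _ | ⟨x, y, hns⟩ := P
  · simp [← Point.zero_def, flexMap_zero]
  · have hx := flexPoly_eq_zero hns hP
    rw [Point.neg_some, h.flexMap_some _ hx, h.flexMap_some _ hx, Point.neg_some]
    simp only [Point.some.injEq, true_and]
    simp only [Affine.negY, imgY, shortY]
    ring

theorem IsFamMember.flexMap_add (h : IsFamMember E E' l n t) {P Q : E.toAffine.Point}
    (hP : 3 • P = 0) (hQ : 3 • Q = 0) :
    flexMap E E' l n t (P + Q) = flexMap E E' l n t P + flexMap E E' l n t Q := by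
  have hsum : 3 • (P + Q) = 0 := by rw [nsmul_add, hP, hQ, add_zero]
  have hd : ∀ {G : Type _} [AddCommGroup G] {R : G}, 3 • R = 0 → R + R = -R := fun {G} _ R hR => by
    rw [eq_neg_iff_add_eq_zero, ← two_nsmul, ← succ_nsmul]; exact hR
  obtain _ | ⟨x₁, y₁, h₁⟩ := P
  · simp [← Point.zero_def, flexMap_zero]
  obtain _ | ⟨x₂, y₂, h₂⟩ := Q
  · simp [← Point.zero_def, flexMap_zero]
  have f₁ := flexPoly_eq_zero h₁ hP
  have f₂ := flexPoly_eq_zero h₂ hQ
  by_cases h12 : x₁ = x₂
  · subst h12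
    rcases Affine.Y_eq_of_X_eq h₁.1 h₂.1 rfl with e | e
    · subst e
      rw [hd hP, h.flexMap_neg hP, hd (h.three_nsmul_flexMap hP)]
    · have eQ : (Point.some x₁ y₂ h₂ : E.toAffine.Point) = -Point.some x₁ y₁ h₁ := by
        simp only [Point.neg_some, Point.some.injEq, true_and]
        rw [e, Affine.negY_negY]
      rw [eQ, add_neg_cancel, h.flexMap_neg hP, add_neg_cancel, flexMap_zero]
  · obtain ⟨x₃, y₃, h₃, hc, hz⟩ := exists_third_point h₁ h₂ h12
    have hS := eq_neg_of_add_eq_zero_left hz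
    have hR : 3 • (Point.some x₃ y₃ h₃ : E.toAffine.Point) = 0 := by
      rw [hS, smul_neg, neg_eq_zero] at hsum
      exact hsum
    have f₃ := flexPoly_eq_zero h₃ hR
    have hne : ∀ {x y x' y' : K} (k : E.toAffine.Nonsingular x y)
        (k' : E.toAffine.Nonsingular x' y') (u : E.toAffine.Point),
        3 • (Point.some x y k : E.toAffine.Point) = 0 →
        (Point.some x y k + u + Point.some x' y' k' : E.toAffine.Point) = 0 →
        (∀ v w hv, u = Point.some v w hv → x ≠ v) → u ≠ 0 → x ≠ x' := by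
      intro x y x' y' k k' u h3 hs hu hu0 e
      subst e
      rcases Affine.Y_eq_of_X_eq k.1 k'.1 rfl with e | e
      · subst e
        have : u = (Point.some x y k : E.toAffine.Point) := by
          rw [add_right_comm, hd h3, neg_add_eq_zero] at hs
          exact hs.symm
        exact hu _ _ _ this rfl
      · have : (Point.some x y' k' : E.toAffine.Point) = -Point.some x y k := by
          simp only [Point.neg_some, Point.some.injEq, true_and]
          rw [e, Affine.negY_negY]
        rw [this, add_right_comm, add_neg_cancel, zero_add] at hs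
        exact hu0 hs
    have h13 : x₁ ≠ x₃ := hne h₁ h₃ (Point.some x₂ y₂ h₂) hP hz
      (fun v w hv e => by obtain ⟨rfl, -⟩ := Point.some.inj e; exact h12) (Point.some_ne_zero _)
    have h23 : x₂ ≠ x₃ := hne h₂ h₃ (Point.some x₁ y₁ h₁) hQ
      (by rw [add_comm (Point.some x₂ y₂ h₂) (Point.some x₁ y₁ h₁)]; exact hz)
      (fun v w hv e => by obtain ⟨rfl, -⟩ := Point.some.inj e; exact fun k => h12 k.symm)
      (Point.some_ne_zero _)
    rw [hS, h.flexMap_neg hR, h.flexMap_some h₁ f₁, h.flexMap_some h₂ f₂, h.flexMap_some h₃ f₃]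
    refine (eq_neg_of_add_eq_zero_left (add_add_eq_zero_of_collinear _ _ _
      (fun e => h12 (h.imgX_injective f₁ f₂ e)) (fun e => h13 (h.imgX_injective f₁ f₃ e))
      (fun e => h23 (h.imgX_injective f₂ f₃ e)) (h.collinear_img f₁ f₂ f₃ hc))).symm

end Fermat.Agent.TwoAdic.Curve
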