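import Mathlib
import Fermat.Agent.TwoAdic.Curve.Basic
import Fermat.Agent.TwoAdic.Curve.FlexMap
import Fermat.Agent.EC.Torsion.Galois

/-!
# The mod 3 family has constant 3-torsion

`sameTrace_three_of_family`: a curve with invariants `(t⁴ famC4, t⁶ famC6)` at a rational
`(l, n)` has the same traces on 3-torsion. `famD_ne_zero_of_irreducible`: for irreducible
3-torsion the quartic has no rational zero.
-/

set_option autoImplicit false

open WeierstrassCurve WeierstrassCurve.Affine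
open scoped WeierstrassCurve.Affine

namespace Fermat.Agent.TwoAdic.Curve

local notation "Qb" => AlgebraicClosure ℚ

variable {V V' : WeierstrassCurve ℚ} {l n t : ℚ}

theorem isFamMember_baseChange (hΔ : V.Δ ≠ 0) (hΔ' : V'.Δ ≠ 0) (ht : t ≠ 0)
    (h4 : V'.c₄ = t ^ 4 * famC4 V.c₄ V.c₆ l n) (h6 : V'.c₆ = t ^ 6 * famC6 V.c₄ V.c₆ l n) :
    IsFamMember (V⁄Qb) (V'⁄Qb) (l : Qb) (n : Qb) (t : Qb) := by
  refine ⟨by simpa [WeierstrassCurve.baseChange] using hΔ,
    by simpa [WeierstrassCurve.baseChange] using hΔ', Rat.cast_ne_zero.mpr ht, ?_, ?_⟩ <;>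
    simp [WeierstrassCurve.baseChange, h4, h6, famC4, famC6, map_ofNat]

theorem smul_flexMap (h : IsFamMember (V⁄Qb) (V'⁄Qb) (l : Qb) (n : Qb) (t : Qb))
    (σ : Qb ≃ₐ[ℚ] Qb) {P : (V⁄Qb).toAffine.Point} (hP : 3 • P = 0) :
    σ • flexMap (V⁄Qb) (V'⁄Qb) (l : Qb) (n : Qb) (t : Qb) P
      = flexMap (V⁄Qb) (V'⁄Qb) (l : Qb) (n : Qb) (t : Qb) (σ • P) := by
  obtain _ | ⟨x, y, hns⟩ := P
  · rfl
  obtain ⟨hns', e⟩ := Mazur.Fifteen.smul_some V σ hns
  have hP' : 3 • (Point.some (σ x) (σ y) hns' : (V⁄Qb).toAffine.Point) = 0 := by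
    rw [← e]
    have := map_nsmul (DistribSMul.toAddMonoidHom (V⁄Qb).toAffine.Point σ) 3
      (Point.some x y hns)
    simp only [DistribSMul.toAddMonoidHom_apply] at this
    rw [← this, hP, smul_zero]
  rw [e, h.flexMap_some hns (flexPoly_eq_zero hns hP),
    h.flexMap_some hns' (flexPoly_eq_zero hns' hP')]
  obtain ⟨hi, e'⟩ := Mazur.Fifteen.smul_some V' σ
    (h.equation_img hns.1 (flexPoly_eq_zero hns hP))
  rw [e']
  simp only [Point.some.injEq]
  constructor <;>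
    simp [imgX, imgY, flexNum, flexDen, shortX, shortY, famD, map_ofNat, map_div₀,
      WeierstrassCurve.b₂, WeierstrassCurve.c₄, WeierstrassCurve.c₆, WeierstrassCurve.b₄,
      WeierstrassCurve.b₆]

theorem galoisTrace_three_eq [Fact (Nat.Prime 3)]
    (h : IsFamMember (V⁄Qb) (V'⁄Qb) (l : Qb) (n : Qb) (t : Qb)) (σ : Qb ≃ₐ[ℚ] Qb) :
    Point.galoisTrace (K := Qb) ℚ V.toAffine 3 σ
      = Point.galoisTrace (K := Qb) ℚ V'.toAffine 3 σ := by
  set T₁ := Submodule.torsionBy ℤ (V⁄Qb).toAffine.Point (3 : ℕ) with hT₁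
  set T₂ := Submodule.torsionBy ℤ (V'⁄Qb).toAffine.Point (3 : ℕ) with hT₂
  have m₁ : ∀ P : T₁, 3 • (P : (V⁄Qb).toAffine.Point) = 0 := fun P => by
    rw [← natCast_zsmul]; exact (Submodule.mem_torsionBy_iff _ _).mp P.2
  let g : T₁ →+ T₂ := AddMonoidHom.mk'
    (fun P => ⟨flexMap (V⁄Qb) (V'⁄Qb) (l : Qb) (n : Qb) (t : Qb) P, by
      rw [hT₂, Submodule.mem_torsionBy_iff, natCast_zsmul]
      exact h.three_nsmul_flexMap (m₁ P)⟩)
    fun P Q => Subtype.ext (h.flexMap_add (m₁ P) (m₁ Q))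
  have hinj : Function.Injective g := by
    rw [injective_iff_map_eq_zero]
    exact fun P hP => Subtype.ext (h.flexMap_eq_zero (m₁ P) (congrArg Subtype.val hP))
  have c₁ : Nat.card T₁ = 3 ^ 2 := by
    have : (V⁄Qb).IsElliptic := ⟨isUnit_iff_ne_zero.mpr h.delta_ne⟩
    exact EC.Torsion.natCard_torsionBy (V⁄Qb).toAffine (n := 3) (by norm_num)
  have c₂ : Nat.card T₂ = 3 ^ 2 := by
    have : (V'⁄Qb).IsElliptic := ⟨isUnit_iff_ne_zero.mpr h.delta_ne'⟩
    exact EC.Torsion.natCard_torsionBy (V'⁄Qb).toAffine (n := 3) (by norm_num)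
  have : Finite T₁ := Nat.finite_of_card_ne_zero (by rw [c₁]; norm_num)
  have : Finite T₂ := Nat.finite_of_card_ne_zero (by rw [c₂]; norm_num)
  have hbij : Function.Bijective g :=
    (Nat.bijective_iff_injective_and_card g).mpr ⟨hinj, c₁.trans c₂.symm⟩
  let φ : T₁ ≃+ T₂ := AddEquiv.ofBijective g hbij
  let φl : T₁ ≃ₗ[ZMod 3] T₂ :=
    { φ with map_smul' := fun c x => ZMod.map_smul φ.toAddMonoidHom c x }
  rw [Point.galoisTrace_def, Point.galoisTrace_def,
    ← LinearMap.trace_conj' (Point.galoisRepModuleEnd (K := Qb) ℚ V.toAffine 3 σ) φl]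
  congr 1
  refine LinearMap.ext fun y => ?_
  obtain ⟨P, rfl⟩ := φl.surjective y
  rw [LinearEquiv.conj_apply_apply, LinearEquiv.symm_apply_apply,
    Point.galoisRepModuleEnd_apply, Point.galoisRepModuleEnd_apply]
  exact Subtype.ext (smul_flexMap h σ (m₁ P)).symm

/-- Curves in the mod 3 family of `W` have the same traces on 3-torsion. -/
theorem sameTrace_three_of_family [Fact (Nat.Prime 3)] {W W' : WeierstrassCurve ℤ}
    (hΔ : W.Δ ≠ 0) (hΔ' : W'.Δ ≠ 0) {l n t : ℚ} (ht : t ≠ 0)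
    (h4 : (W'.c₄ : ℚ) = t ^ 4 * famC4 (W.c₄ : ℚ) W.c₆ l n)
    (h6 : (W'.c₆ : ℚ) = t ^ 6 * famC6 (W.c₄ : ℚ) W.c₆ l n) : SameTrace W W' 3 := by
  have h := isFamMember_baseChange (V := W.map (Int.castRingHom ℚ))
    (V' := W'.map (Int.castRingHom ℚ)) (l := l) (n := n) (t := t)
    (by simpa using hΔ) (by simpa using hΔ') ht (by simpa using h4) (by simpa using h6)
  exact fun σ => galoisTrace_three_eq h σ

/-- For irreducible 3-torsion, `famD` has no rational zero. -/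
theorem famD_ne_zero_of_irreducible_rat {W : WeierstrassCurve ℤ} (hΔ : W.Δ ≠ 0)
    (h : W.ModRepIsIrreducible 3) {l n : ℚ} (hn : n ≠ 0) :
    famD (W.c₄ : ℚ) W.c₆ l n ≠ 0 := by
  intro hD
  haveI : Fact (Nat.Prime 3) := ⟨Nat.prime_three⟩
  set V := W.map (Int.castRingHom ℚ) with hV
  have hVΔ : (V⁄Qb).Δ ≠ 0 := by simpa [hV, WeierstrassCurve.baseChange] using hΔ
  -- the rational abscissa
  set q : ℚ := (3 * l / n - 3 * V.b₂) / 36 with hq
  have hX : shortX V q = 3 * l / n := by simp only [shortX, hq]; ring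
  have hpQ : flexPoly V q = 0 := by
    have e := short_flexPoly V q
    rw [hX] at e
    have hz : (1679616 : ℚ) * flexPoly V q = 0 := by
      rw [← e]
      simp only [famD] at hD
      have h4 : (V.c₄ : ℚ) = W.c₄ := by simp [hV]
      have h6 : (V.c₆ : ℚ) = W.c₆ := by simp [hV]
      rw [h4, h6]
      field_simp
      linear_combination 243 * hD
    simpa using hz
  obtain ⟨y, hy⟩ : ∃ y : Qb, (V⁄Qb).toAffine.Equation (q : Qb) y := by
    obtain ⟨s, hs⟩ := IsAlgClosed.exists_pow_nat_eq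
      (4 * (q : Qb) ^ 3 + (V⁄Qb).b₂ * (q : Qb) ^ 2 + 2 * (V⁄Qb).b₄ * (q : Qb) + (V⁄Qb).b₆)
      (show 0 < 2 by norm_num)
    refine ⟨(s - (V⁄Qb).a₁ * q - (V⁄Qb).a₃) / 2, (Affine.equation_iff ..).mpr ?_⟩
    simp only [WeierstrassCurve.b₂, WeierstrassCurve.b₄, WeierstrassCurve.b₆] at hs
    linear_combination hs / 4
  have hns := (Affine.equation_iff_nonsingular_of_Δ_ne_zero hVΔ).mp hy
  set P : (V⁄Qb).toAffine.Point := Point.some _ _ hns with hP
  have hp : flexPoly (V⁄Qb) (q : Qb) = 0 := by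
    have := congrArg (algebraMap ℚ Qb) hpQ
    simpa [flexPoly, WeierstrassCurve.baseChange] using this
  have h3 : 3 • P = 0 := three_nsmul_eq_zero_of_flexPoly hns hp
  set T := Submodule.torsionBy ℤ (V⁄Qb).toAffine.Point (3 : ℕ) with hT
  have hPT : P ∈ T := by rw [hT, Submodule.mem_torsionBy_iff, natCast_zsmul]; exact h3
  let P' : T := ⟨P, hPT⟩
  let N : Submodule (ZMod 3) T := Submodule.span (ZMod 3) {P'}
  have hσ : ∀ σ : Qb ≃ₐ[ℚ] Qb, σ • P' = P' ∨ σ • P' = -P' := by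
    intro σ
    obtain ⟨h', e⟩ := Mazur.Fifteen.smul_some V σ hns
    rcases Affine.Y_eq_of_X_eq h'.1 hy (map_ratCast σ q) with k | k
    · refine Or.inl (Subtype.ext ?_)
      show σ • P = P
      rw [hP, e]
      simp [k]
    · refine Or.inr (Subtype.ext ?_)
      show σ • P = -P
      rw [hP, e, Point.neg_some]
      simp [k]
  have hN : Point.IsGaloisStable ℚ N := by
    intro σ x hx
    obtain ⟨c, rfl⟩ := Submodule.mem_span_singleton.mp hx
    have e : σ • (c • P') = c • (σ • P') :=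
      ZMod.map_smul (DistribSMul.toAddMonoidHom T σ) c P'
    rw [e]
    rcases hσ σ with k | k <;> rw [k]
    · exact hx
    · rw [smul_neg]; exact neg_mem hx
  have hP0 : P' ≠ 0 := fun e => Point.some_ne_zero _ (congrArg Subtype.val e)
  rcases h.2 N hN with e | e
  · exact hP0 (Submodule.span_singleton_eq_bot.mp e)
  · have : (V⁄Qb).IsElliptic := ⟨isUnit_iff_ne_zero.mpr hVΔ⟩
    have hc : Nat.card T = 3 ^ 2 :=
      EC.Torsion.natCard_torsionBy (V⁄Qb).toAffine (n := 3) (by norm_num)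
    have hsurj : Function.Surjective fun c : ZMod 3 => c • P' := fun x =>
      Submodule.mem_span_singleton.mp (e ▸ Submodule.mem_top : x ∈ N)
    have := Nat.card_le_card_of_surjective _ hsurj
    rw [hc, Nat.card_zmod] at this
    omega

/-- For irreducible 3-torsion, `famD` has no integral zero with `n ≠ 0`. -/
theorem famD_ne_zero_of_irreducible {W : WeierstrassCurve ℤ} (hΔ : W.Δ ≠ 0)
    (h : W.ModRepIsIrreducible 3) {l n : ℤ} (hn : n ≠ 0) : famD W.c₄ W.c₆ l n ≠ 0 := by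
  intro h0
  refine famD_ne_zero_of_irreducible_rat hΔ h (l := (l : ℚ)) (n := (n : ℚ))
    (Int.cast_ne_zero.mpr hn) ?_
  have := congrArg (Int.cast : ℤ → ℚ) h0
  simpa [famD] using this

end Fermat.Agent.TwoAdic.Curve
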