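import Mathlib
import Fermat.Agent.TwoAdic.Curve.Basic
import Fermat.Agent.Arith.Frobenius
import Fermat.Agent.EC.FrobTrace.Main

/-!
# Equal traces on the `p`-torsion give congruent `aₗ`
-/

set_option autoImplicit false

open WeierstrassCurve WeierstrassCurve.Affine

namespace Fermat.Agent.TwoAdic.Curve

/-- Models with equal traces on the `p`-torsion have congruent `aₗ` at common good `ℓ ≠ p`. -/
theorem apOfModel_congr_of_sameTrace {p : ℕ} [Fact p.Prime] {W W' : WeierstrassCurve ℤ}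
    (h : SameTrace W W' p) {ℓ : ℕ} (hℓ : ℓ.Prime) (hg : W.IsGoodPrimeFor ℓ)
    (hg' : W'.IsGoodPrimeFor ℓ) (hne : ℓ ≠ p) : (p : ℤ) ∣ W'.apOfModel ℓ - W.apOfModel ℓ := by
  obtain ⟨A, hA⟩ := Arith.exists_liesOverPrime hℓ
  obtain ⟨σ, hσ⟩ := Arith.exists_isFrobeniusAt hA hℓ
  have e := EC.FrobTrace.galoisTrace_frobenius (p := p) W hℓ hg hne hA hσ
  have e' := EC.FrobTrace.galoisTrace_frobenius (p := p) W' hℓ hg' hne hA hσ
  have key := h σ
  rw [show (W.map (Int.castRingHom ℚ)).toAffine = W.map (Int.castRingHom ℚ) from rfl, e,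
    show (W'.map (Int.castRingHom ℚ)).toAffine = W'.map (Int.castRingHom ℚ) from rfl, e'] at key
  exact (ZMod.intCast_zmod_eq_zero_iff_dvd _ p).mp (by push_cast; rw [key, sub_self])

end Fermat.Agent.TwoAdic.Curve
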