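import Fermat.Agent.Top.Inputs
import Fermat.Agent.TwoAdic.Curve.Switch
import Fermat.Agent.TwoAdic.Curve.Trace
import Fermat.Agent.TwoAdic.Curve.ThreeIso
import Fermat.Agent.TwoAdic.Curve.Member

/-!
# The switch and family inputs of the route through the 2-adic theorem

`exists_twoAdicCurve` gives, for a semistable curve multiplicative at `2` with irreducible mod 3
representation, a curve with the same 3-torsion traces to which the 2-adic theorem applies.
-/

set_option autoImplicit false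

open WeierstrassCurve

namespace Fermat.Agent.TwoAdic.Curve

/-- The member of the mod 3 family used on the route. -/
theorem exists_twoAdicCurve [Fact (Nat.Prime 3)] (W : WeierstrassCurve ℤ) (hΔ : W.Δ ≠ 0)
    (hW : W.IsSemistableModel) (h2 : (2 : ℤ) ∣ W.Δ) (h3 : W.ModRepIsIrreducible 3) :
    ∃ W' : WeierstrassCurve ℤ, IsTwoAdicCurve W' ∧ SameTrace W W' 3 ∧
      ((3 : ℤ) ∣ W'.Δ ↔ (3 : ℤ) ∣ W.Δ) ∧ (∀ q : ℕ, (q : ℤ) ∣ W.Δ → (q : ℤ) ∣ W'.Δ) ∧
      ∀ q : ℕ, q.Prime → padicValInt q W'.Δ % 3 = padicValInt q W.Δ % 3 := by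
  obtain ⟨W', l, n, hW', e4, e6, h33, hbad, hval⟩ := exists_member W hΔ hW h2
    fun l n hn => famD_ne_zero_of_irreducible hΔ h3 hn
  refine ⟨W', hW', sameTrace_three_of_family hΔ hW'.delta_ne_zero (l := (l : ℚ)) (n := (n : ℚ))
    (t := 1 / 4) (by norm_num) ?_ ?_, h33, hbad, hval⟩
  · have := congrArg (Int.cast : ℤ → ℚ) e4
    simp only [famC4] at this ⊢
    push_cast at this
    linear_combination this / 256
  · have := congrArg (Int.cast : ℤ → ℚ) e6
    simp only [famC6] at this ⊢
    push_cast at this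
    linear_combination this / 4096

theorem switchInput : Top.SwitchInput := by
  intro W hΔ hW h2 _
  have : Fact (Nat.Prime 5) := ⟨by norm_num⟩
  obtain ⟨W', h0, hs, hirr, -, hv, hbad, hap⟩ := exists_switch_of_semistable W hΔ hW
  refine ⟨W', ⟨h0, hs, hbad 2 Nat.prime_two h2, hirr⟩, ?_, hap⟩
  have h5 := hv 5 (by norm_num)
  have := padicValInt_dvd_iff (p := 5) 1 W'.Δ
  have := padicValInt_dvd_iff (p := 5) 1 W.Δ
  simp_all

theorem familyInput : Top.FamilyInput := by
  intro W hW
  have : Fact (Nat.Prime 3) := ⟨Nat.prime_three⟩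
  obtain ⟨W', hW', htr, h33, -, -⟩ :=
    exists_twoAdicCurve W hW.ne_zero hW.semistable hW.two_dvd hW.irreducible_three
  exact ⟨W', hW', h33, fun ℓ hℓ hg hg' hne => by
    exact_mod_cast apOfModel_congr_of_sameTrace htr hℓ hg hg' hne⟩

end Fermat.Agent.TwoAdic.Curve
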